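import Fermat.Agent.Arith.Places
import Fermat.Agent.LT.Deform.Obstruction
import Fermat.Prelude.Def_GaloisRep_CompletionBridge

/-!
# The residual Selmer group: definitions

`r` is a surjective residual representation to `GL₂(𝔽₂)` (on the `2`-torsion of the switched curve
in the application), the residual module `V` is realised by the matrices `Deform.InV`, whose
non-zero elements are the three transpositions. At a place `v` the line is spanned by the
transposition `s v`, and a class is line valued there iff `((s v + 1) * c g).trace = 0` on the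
decomposition group.
-/

set_option autoImplicit false

noncomputable section

namespace Fermat.Agent.LT.Selmer

open Fermat.Agent.Arith (QBar GQ)
open Deform (M2 InV IsCocycle conjAct)

/-- The decomposition group at the chosen place above `v`, empty if `v` is not prime. -/
def dec (v : ℕ) : Set GQ :=
  if h : v.Prime then
    haveI : Fact v.Prime := ⟨h⟩
    ((padicPlace v).decompositionSubgroup ℚ : Set GQ)
  else ∅

/-- Functions of finite level. -/
def LocConst {X : Type*} (ν : GQ → X) : Prop :=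
  ∃ L : IntermediateField ℚ QBar, FiniteDimensional ℚ L ∧
    ∀ g g' : GQ, (∀ x ∈ L, g x = g' x) → ν g = ν g'

/-- A transposition. -/
def IsTransp (x : M2 (ZMod 2)) : Prop := InV x ∧ x ≠ 0

instance (x : M2 (ZMod 2)) : Decidable (IsTransp x) := by unfold IsTransp; infer_instance

/-- The residual data: `S` is the set of bad primes, at which the decomposition group fixes a
line; complex conjugation is non-trivial. -/
structure Residual (r : GQ →* (M2 (ZMod 2))ˣ) (S : Finset ℕ) (s : ℕ → M2 (ZMod 2)) : Prop where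
  /-- `r` is onto `GL₂(𝔽₂)`. -/
  surjective : Function.Surjective r
  /-- `r` has finite level. -/
  locConst : LocConst r
  /-- The members of `S` are primes. -/
  prime : ∀ v ∈ S, v.Prime
  /-- `2` belongs to `S`. -/
  two_mem : 2 ∈ S
  /-- `r` is unramified outside `S`. -/
  unram : ∀ v : ℕ, v.Prime → v ∉ S → ∀ A : ValuationSubring QBar, A.LiesOverPrime v →
    ∀ σ ∈ A.inertiaSubgroupIn ℚ, r σ = 1
  /-- `s v` is a transposition for `v ∈ S`. -/
  transp : ∀ v ∈ S, IsTransp (s v)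
  /-- The decomposition group at `v ∈ S` has image in `{1, s v}`. -/
  line : ∀ v ∈ S, ∀ g ∈ dec v, (r g : M2 (ZMod 2)) = 1 ∨ (r g : M2 (ZMod 2)) = s v
  /-- Some involution acting on square roots as complex conjugation is not killed by `r`. -/
  conj : ∃ c : GQ, c * c = 1 ∧ r c ≠ 1 ∧
    (∀ x : QBar, x ^ 2 = -1 → c x = -x) ∧ ∀ (n : ℕ) (x : QBar), x ^ 2 = (n : QBar) → c x = x

/-- The data modulo `2 ^ N`: a lift of `r` unramified outside `S`, whose determinant takes every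
unit as a value, with `l₁ ∈ S`, an element moving `√l₁` and one fixing it, both acting as a
unipotent (`(ρ τ - 1) ^ 2 = 0`) with nontrivial residue (`r τ ≠ 1`). -/
structure Lift (r : GQ →* (M2 (ZMod 2))ˣ) (S : Finset ℕ) (l₁ N : ℕ)
    (ρ : GQ →* (M2 (ZMod (2 ^ N)))ˣ) : Prop where
  pos : 0 < N
  locConst : LocConst ρ
  residual : ∀ g, (ρ g : M2 (ZMod (2 ^ N))).map (ZMod.castHom (dvd_pow_self 2 pos.ne') (ZMod 2)) =
    (r g : M2 (ZMod 2))
  det_surjective : ∀ u : (ZMod (2 ^ N))ˣ, ∃ g, (ρ g : M2 (ZMod (2 ^ N))).det = u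
  unram : ∀ v : ℕ, v.Prime → v ∉ S → ∀ A : ValuationSubring QBar, A.LiesOverPrime v →
    ∀ σ ∈ A.inertiaSubgroupIn ℚ, ρ σ = 1
  mem : l₁ ∈ S
  exists_moving : ∃ τ : GQ, ((ρ τ : M2 (ZMod (2 ^ N))) - 1) * ((ρ τ : M2 (ZMod (2 ^ N))) - 1) = 0 ∧
    r τ ≠ 1 ∧ ∀ x : QBar, x ^ 2 = (l₁ : QBar) → τ x = -x
  exists_fixing : ∃ τ : GQ, ((ρ τ : M2 (ZMod (2 ^ N))) - 1) * ((ρ τ : M2 (ZMod (2 ^ N))) - 1) = 0 ∧
    r τ ≠ 1 ∧ ∀ x : QBar, x ^ 2 = (l₁ : QBar) → τ x = x

/-- The auxiliary primes for a given lift. -/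
def Allowed (r : GQ →* (M2 (ZMod 2))ˣ) (S : Finset ℕ) (l₁ : ℕ) {N : ℕ}
    (ρ : GQ →* (M2 (ZMod (2 ^ N)))ˣ) (q : ℕ) : Prop :=
  q.Prime ∧ q ∉ S ∧ ∀ A : ValuationSubring QBar, A.LiesOverPrime q → ∀ F : GQ,
    A.IsFrobeniusAt F q → IsTransp (r F : M2 (ZMod 2)) ∧
      ((ρ F : M2 (ZMod (2 ^ N))) - 1).det = 0 ∧ ∀ x : QBar, x ^ 2 = (l₁ : QBar) → F x = x

/-- The lines with the residual Frobenius transpositions at `T` added. -/
def HasLines (r : GQ →* (M2 (ZMod 2))ˣ) (S T : Finset ℕ) (s s' : ℕ → M2 (ZMod 2)) : Prop :=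
  (∀ v ∈ S, s' v = s v) ∧ ∀ q ∈ T, IsTransp (s' q) ∧
    (∀ g ∈ dec q, (r g : M2 (ZMod 2)) = 1 ∨ (r g : M2 (ZMod 2)) = s' q) ∧
    ∀ [Fact q.Prime], ∀ F : GQ, (padicPlace q).IsFrobeniusAt F q → (r F : M2 (ZMod 2)) = s' q

/-- The form of the vanishing consumed by `LT/Deform`. -/
def Killed (r : GQ →* (M2 (ZMod 2))ˣ) (S T : Finset ℕ) (s' : ℕ → M2 (ZMod 2)) : Prop :=
  ∀ Z : Set GQ,
    (∃ L : IntermediateField ℚ QBar, FiniteDimensional ℚ L ∧
      ∀ g : GQ, (∀ x ∈ L, g x = x) → g ∈ Z) →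
    (∀ v : ℕ, v.Prime → v ∉ S ∪ T → ∀ A : ValuationSubring QBar, A.LiesOverPrime v →
      ∀ σ ∈ A.inertiaSubgroupIn ℚ, σ ∈ Z) →
    Deform.SelmerZero r Z (fun v : {v // v ∈ S ∪ T} => dec v.1) fun v => s' v.1 + 1

end Fermat.Agent.LT.Selmer
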