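import Fermat.Agent.LT.Selmer.Defs

/-!
# The group lemmas modulo `2 ^ N`

A subgroup of `GL₂(ℤ/2^N)` with full residual image, onto determinant and a residually non-trivial
transvection is everything; transvections are conjugate; and a cocycle with values in the residual
module which is line valued at every element with eigenvalue `1` and residual transposition is a
coboundary.

The last statement is `exists_coboundary`.
-/

set_option autoImplicit false

noncomputable section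

namespace Fermat.Agent.LT.Selmer.Group2

open Matrix
open Deform (M2 InV IsCocycle conjAct)

variable {R : Type*} [CommRing R]

/-! ## Unipotent and diagonal elements -/

/-- An upper unipotent element. -/
def U (x : R) : (M2 R)ˣ where
  val := !![1, x; 0, 1]
  inv := !![1, -x; 0, 1]
  val_inv := by ext i j; fin_cases i <;> fin_cases j <;> simp [Matrix.mul_apply, Fin.sum_univ_two]
  inv_val := by ext i j; fin_cases i <;> fin_cases j <;> simp [Matrix.mul_apply, Fin.sum_univ_two]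

/-- A lower unipotent element. -/
def L (x : R) : (M2 R)ˣ where
  val := !![1, 0; x, 1]
  inv := !![1, 0; -x, 1]
  val_inv := by ext i j; fin_cases i <;> fin_cases j <;> simp [Matrix.mul_apply, Fin.sum_univ_two]
  inv_val := by ext i j; fin_cases i <;> fin_cases j <;> simp [Matrix.mul_apply, Fin.sum_univ_two]

/-- The element with first diagonal entry `t`. -/
def D (t : Rˣ) : (M2 R)ˣ where
  val := !![(t : R), 0; 0, 1]
  inv := !![((t⁻¹ : Rˣ) : R), 0; 0, 1]
  val_inv := by ext i j; fin_cases i <;> fin_cases j <;> simp [Matrix.mul_apply, Fin.sum_univ_two]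
  inv_val := by ext i j; fin_cases i <;> fin_cases j <;> simp [Matrix.mul_apply, Fin.sum_univ_two]

theorem coe_U (x : R) : ((U x : (M2 R)ˣ) : M2 R) = !![1, x; 0, 1] := rfl

theorem coe_L (x : R) : ((L x : (M2 R)ˣ) : M2 R) = !![1, 0; x, 1] := rfl

theorem coe_D (t : Rˣ) : ((D t : (M2 R)ˣ) : M2 R) = !![(t : R), 0; 0, 1] := rfl

theorem U_mul (x y : R) : U x * U y = U (x + y) := by
  ext i j; fin_cases i <;> fin_cases j <;> simp [coe_U, Matrix.mul_apply,
    Fin.sum_univ_two, add_comm]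

theorem L_mul (x y : R) : L x * L y = L (x + y) := by
  ext i j; fin_cases i <;> fin_cases j <;> simp [coe_L, Matrix.mul_apply, Fin.sum_univ_two]

theorem U_zero : U (0 : R) = 1 := by
  ext i j; fin_cases i <;> fin_cases j <;> simp [coe_U]

theorem L_zero : L (0 : R) = 1 := by
  ext i j; fin_cases i <;> fin_cases j <;> simp [coe_L]

theorem U_natCast (n : ℕ) : U (n : R) = U 1 ^ n := by
  induction n with
  | zero => rw [Nat.cast_zero, U_zero, pow_zero]
  | succ n ih => rw [Nat.cast_succ, ← U_mul, ih, pow_succ]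

theorem L_natCast (n : ℕ) : L (n : R) = L 1 ^ n := by
  induction n with
  | zero => rw [Nat.cast_zero, L_zero, pow_zero]
  | succ n ih => rw [Nat.cast_succ, ← L_mul, ih, pow_succ]

theorem det_D (t : Rˣ) : ((D t : (M2 R)ˣ) : M2 R).det = t := by simp [coe_D, Matrix.det_fin_two]

/-- Every element is an element of the subgroup generated by the unipotents times one `D`, if the
non-units are closed under addition. -/
theorem exists_eq_mul_D (hloc : ∀ a c : R, ¬ IsUnit a → IsUnit c → IsUnit (a + c))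
    (H : Subgroup (M2 R)ˣ) (hU : ∀ x, U x ∈ H) (hL : ∀ x, L x ∈ H) (g : (M2 R)ˣ) :
    ∃ h ∈ H, ∃ t : Rˣ, g = h * D t := by
  -- it suffices to treat a unit corner `a`: else `c` is a unit and `U 1` makes the corner `a + c`
  suffices key : ∀ g : (M2 R)ˣ, IsUnit ((g : M2 R) 0 0) → ∃ h ∈ H, ∃ t : Rˣ, g = h * D t by
    by_cases ha : IsUnit ((g : M2 R) 0 0)
    · exact key g ha
    have hdet : IsUnit (g : M2 R).det := (Matrix.isUnit_iff_isUnit_det _).mp g.isUnit
    have hc : IsUnit ((g : M2 R) 1 0) := by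
      by_contra hc
      rw [Matrix.det_fin_two] at hdet
      have h := hloc (-((g : M2 R) 0 1 * (g : M2 R) 1 0)) _ (fun h => hc
        (isUnit_of_mul_isUnit_right ((IsUnit.neg_iff _).mp h))) hdet.neg
      have e : -((g : M2 R) 0 1 * (g : M2 R) 1 0) +
          -((g : M2 R) 0 0 * (g : M2 R) 1 1 - (g : M2 R) 0 1 * (g : M2 R) 1 0) =
          -((g : M2 R) 0 0 * (g : M2 R) 1 1) := by ring
      rw [e] at h
      exact ha (isUnit_of_mul_isUnit_left ((IsUnit.neg_iff _).mp h))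
    obtain ⟨h, hh, t, e⟩ := key (U 1 * g) (by
      simpa [coe_U, Matrix.mul_apply, Fin.sum_univ_two] using hloc _ _ ha hc)
    refine ⟨(U 1)⁻¹ * h, H.mul_mem (H.inv_mem (hU 1)) hh, t, ?_⟩
    rw [mul_assoc, ← e, inv_mul_cancel_left]
  intro g ha
  -- then `g = L (c / a) diag (a, e) U (b / a)` with `e = d - b c / a`; write `diag (a, e)` as
  -- `diag (e⁻¹, e) D (a e)` and move `D` to the right
  obtain ⟨a, ha⟩ := ha
  set b := (g : M2 R) 0 1
  set c := (g : M2 R) 1 0
  set d := (g : M2 R) 1 1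
  have hdet : IsUnit (g : M2 R).det := (Matrix.isUnit_iff_isUnit_det _).mp g.isUnit
  set a' := ((a⁻¹ : Rˣ) : R)
  have haa : (a : R) * a' = 1 := a.mul_inv
  have he : (a : R) * (d - c * a' * b) = (g : M2 R).det := by
    rw [Matrix.det_fin_two, ← ha]; linear_combination -(c * b) * haa
  obtain ⟨e, he'⟩ : IsUnit (d - c * a' * b) :=
    isUnit_of_mul_isUnit_right (he ▸ hdet)
  set e' := ((e⁻¹ : Rˣ) : R)
  set t : Rˣ := a * e
  have hD : ∀ x : R, D t * U x = U ((t : R) * x) * D t := fun x => by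
    ext i j; fin_cases i <;> fin_cases j <;>
      simp [coe_U, coe_D, Matrix.mul_apply, Fin.sum_univ_two]
  -- the element with diagonal `e⁻¹, e`
  set W : (M2 R)ˣ := U e' * L (-(e : R)) * U e' * (U (-1) * L 1 * U (-1))
  have hW : (W : M2 R) = !![e', 0; 0, (e : R)] := by
    have h1 : (e : R) * e' = 1 := e.mul_inv
    ext i j; fin_cases i <;> fin_cases j <;>
      simp [W, coe_U, coe_L, Matrix.mul_apply, Fin.sum_univ_two, mul_comm e' (e : R), h1]
  have hWmem : W ∈ H :=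
    H.mul_mem (H.mul_mem (H.mul_mem (hU _) (hL _)) (hU _))
      (H.mul_mem (H.mul_mem (hU _) (hL _)) (hU _))
  refine ⟨L (c * a') * W * U ((t : R) * (b * a')), H.mul_mem (H.mul_mem (hL _) hWmem) (hU _), t,
    ?_⟩
  rw [mul_assoc _ (U _) (D t), ← hD]
  have h1 : (e : R) * e' = 1 := e.mul_inv
  have ha0 : (g : M2 R) 0 0 = a := ha.symm
  ext i j
  fin_cases i <;> fin_cases j <;>
    simp [coe_U, coe_L, coe_D, hW, Matrix.mul_apply, Fin.sum_univ_two, t, ha0]
  · linear_combination -(a : R) * h1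
  · show b = _
    linear_combination -((a : R) * (b * a')) * h1 - b * haa
  · show c = _
    linear_combination -(c * a' * (a : R)) * h1 - c * haa
  · show d = _
    linear_combination -(c * a' * ((a : R) * (b * a'))) * h1 - c * a' * b * haa - he'

/-! ## Modulo powers of `2` -/

section Two

variable {N : ℕ} (hN : 0 < N)

/-- Reduction modulo `2`. -/
def red : ZMod (2 ^ N) →+* ZMod 2 := ZMod.castHom (dvd_pow_self 2 hN.ne') (ZMod 2)

theorem red_natCast (n : ℕ) : red hN (n : ZMod (2 ^ N)) = (n : ZMod 2) := map_natCast _ n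

include hN in
theorem isUnit_iff (x : ZMod (2 ^ N)) : IsUnit x ↔ red hN x = 1 := by
  obtain ⟨n, rfl⟩ := ZMod.natCast_zmod_surjective x
  rw [red_natCast, ZMod.natCast_eq_one_iff_odd, ZMod.isUnit_iff_coprime,
    Nat.coprime_pow_right_iff hN, Nat.coprime_two_right]

include hN in
theorem local_add (a c : ZMod (2 ^ N)) (ha : ¬ IsUnit a) (hc : IsUnit c) : IsUnit (a + c) := by
  rw [isUnit_iff hN] at ha hc ⊢
  rw [map_add, hc]
  have : red hN a = 0 := by
    revert ha
    generalize red hN a = x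
    revert x
    decide
  rw [this, zero_add]

/-- Reduction of invertible matrices. -/
def redU : (M2 (ZMod (2 ^ N)))ˣ →* (M2 (ZMod 2))ˣ :=
  Units.map (red hN).mapMatrix.toMonoidHom

theorem coe_redU (g : (M2 (ZMod (2 ^ N)))ˣ) :
    (redU hN g : M2 (ZMod 2)) = (g : M2 (ZMod (2 ^ N))).map (red hN) := rfl

include hN in
/-- Transvections with non-trivial residue are conjugate. -/
theorem exists_conj_U (τ : (M2 (ZMod (2 ^ N)))ˣ)
    (hsq : ((τ : M2 (ZMod (2 ^ N))) - 1) * ((τ : M2 (ZMod (2 ^ N))) - 1) = 0)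
    (hres : redU hN τ ≠ 1) : ∃ Q : (M2 (ZMod (2 ^ N)))ˣ, Q⁻¹ * τ * Q = U 1 := by
  -- `n = τ - 1` has a column `n eⱼ` that is non-zero modulo `2`; the matrix `M = (n eⱼ, eⱼ)`
  -- conjugates `τ` to `U 1`
  set n := (τ : M2 (ZMod (2 ^ N))) - 1 with hn
  have hbar : ∃ j : Fin 2, red hN (n 0 j) ≠ 0 ∨ red hN (n 1 j) ≠ 0 := by
    by_contra! h
    refine hres (Units.ext ?_)
    ext i j
    have h0 : red hN (n i j) = 0 := by
      fin_cases i
      exacts [(h j).1, (h j).2]
    rw [hn, Matrix.sub_apply, map_sub, sub_eq_zero] at h0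
    rw [coe_redU, Matrix.map_apply, h0, Units.val_one, Matrix.one_apply, Matrix.one_apply]
    split_ifs <;> simp
  obtain ⟨j, hj⟩ := hbar
  set M : M2 (ZMod (2 ^ N)) :=
    Matrix.of fun i k => if k = 0 then n i j else (if i = j then 1 else 0)
  have h00 : ∀ i k, red hN (n i 0) * red hN (n 0 k) + red hN (n i 1) * red hN (n 1 k) = 0 :=
    fun i k => by
      have := congrArg (red hN) (congrFun (congrFun hsq i) k)
      simpa [Matrix.mul_apply, Fin.sum_univ_two, map_add, map_mul] using this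
  have hM : IsUnit M.det := by
    rw [isUnit_iff hN, Matrix.det_fin_two]
    have e00 := h00 0 0
    have e01 := h00 0 1
    have e10 := h00 1 0
    have e11 := h00 1 1
    fin_cases j <;>
      simp only [M, Matrix.of_apply, Fin.zero_eta, Fin.mk_one, if_true, Fin.isValue, one_ne_zero,
        zero_ne_one, if_false, mul_one, mul_zero, zero_mul, one_mul, sub_zero, zero_sub,
        map_neg] at hj ⊢ <;>
      revert hj e00 e01 e10 e11 <;>
      generalize red hN (n 0 0) = a <;> generalize red hN (n 0 1) = b <;>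
      generalize red hN (n 1 0) = c <;> generalize red hN (n 1 1) = d <;>
      revert a b c d <;> decide
  obtain ⟨Q, hQ⟩ := (Matrix.isUnit_iff_isUnit_det M).mpr hM
  refine ⟨Q, ?_⟩
  rw [mul_assoc, inv_mul_eq_iff_eq_mul]
  refine Units.ext ?_
  rw [Units.val_mul, Units.val_mul, hQ, coe_U, show (τ : M2 (ZMod (2 ^ N))) = n
    + 1 by rw [hn, sub_add_cancel]]
  have hcol : ∀ i, n i 0 * n 0 j + n i 1 * n 1 j = 0 := fun i => by
    have := congrFun (congrFun hsq i) j
    simpa [Matrix.mul_apply, Fin.sum_univ_two] using this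
  rw [add_mul, one_mul]
  ext i k
  fin_cases k
  · fin_cases i <;> simp [M, Matrix.mul_apply, Fin.sum_univ_two, hcol]
  · fin_cases i <;> fin_cases j <;> simp [M, Matrix.mul_apply, Fin.sum_univ_two]

theorem mem_of_one_mem_U {H : Subgroup (M2 (ZMod (2 ^ N)))ˣ} (h : U 1 ∈ H) (x : ZMod (2 ^ N)) :
    U x ∈ H := by
  rw [← ZMod.natCast_zmod_val x, U_natCast]
  exact H.pow_mem h _

theorem mem_of_one_mem_L {H : Subgroup (M2 (ZMod (2 ^ N)))ˣ} (h : L 1 ∈ H) (x : ZMod (2 ^ N)) :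
    L x ∈ H := by
  rw [← ZMod.natCast_zmod_val x, L_natCast]
  exact H.pow_mem h _

theorem conj_residual : ∀ n : M2 (ZMod 2), (n - 1) * (n - 1) = 0 → n ≠ 1 →
    ∀ m : M2 (ZMod 2), (m - 1) * (m - 1) = 0 → m ≠ 1 →
      ∃ h h' : M2 (ZMod 2), h * h' = 1 ∧ h * n * h' = m := by decide

/-- A conjugate of `U 1` minus one squares to zero. -/
private theorem conj_U_sub_one_sq (g : (M2 (ZMod (2 ^ N)))ˣ) :
    (((g * U 1 * g⁻¹ : (M2 (ZMod (2 ^ N)))ˣ) : M2 (ZMod (2 ^ N))) - 1) *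
      (((g * U 1 * g⁻¹ : (M2 (ZMod (2 ^ N)))ˣ) : M2 (ZMod (2 ^ N))) - 1) = 0 := by
  set n := ((g * U 1 * g⁻¹ : (M2 (ZMod (2 ^ N)))ˣ) : M2 (ZMod (2 ^ N))) - 1 with hn
  have e : n = (g : M2 (ZMod (2 ^ N))) * ((U 1 : (M2 (ZMod (2 ^ N)))ˣ) - 1 : M2 (ZMod (2 ^ N))) *
      ((g⁻¹ : (M2 (ZMod (2 ^ N)))ˣ) : M2 (ZMod (2 ^ N))) := by
    rw [hn, mul_sub, sub_mul, mul_one, Units.mul_inv]
    rfl
  rw [e]
  calc _ = (g : M2 (ZMod (2 ^ N))) * (((U 1 : (M2 (ZMod (2 ^ N)))ˣ) - 1 : M2 (ZMod (2 ^ N))) *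
        ((U 1 : (M2 (ZMod (2 ^ N)))ˣ) - 1 : M2 (ZMod (2 ^ N)))) *
            ((g⁻¹ : (M2 (ZMod (2 ^ N)))ˣ) : M2 (ZMod (2 ^ N))) := by
          simp only [mul_assoc, Units.inv_mul_cancel_left]
    _ = 0 := by
          rw [show ((U 1 : (M2 (ZMod (2 ^ N)))ˣ) - 1 : M2 (ZMod (2 ^ N))) *
            ((U 1 : (M2 (ZMod (2 ^ N)))ˣ) - 1 : M2 (ZMod (2 ^ N))) = 0 by
              ext i j; fin_cases i <;> fin_cases j <;>
                simp [coe_U, Matrix.mul_apply, Fin.sum_univ_two], mul_zero, zero_mul]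

/-! ## Full image -/

include hN in
/-- A transvection residually lower unipotent is conjugate by some `U k` to an `L c`, `c` a
unit. -/
private theorem exists_conj_U_eq_L {τ₂ : (M2 (ZMod (2 ^ N)))ˣ}
    (hn2 : ((τ₂ : M2 (ZMod (2 ^ N))) - 1) * ((τ₂ : M2 (ZMod (2 ^ N))) - 1) = 0)
    (hred : (redU hN τ₂ : M2 (ZMod 2)) = !![1, 0; 1, 1]) :
    ∃ (k : ZMod (2 ^ N)) (c : (ZMod (2 ^ N))ˣ), U k * τ₂ * (U k)⁻¹ = L (c : ZMod (2 ^ N)) := by
  set n := (τ₂ : M2 (ZMod (2 ^ N))) - 1 with hn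
  have hc : IsUnit (n 1 0) := by
    rw [isUnit_iff hN, hn, Matrix.sub_apply, map_sub]
    have := congrFun (congrFun hred 1) 0
    rw [coe_redU, Matrix.map_apply] at this
    simp [this]
  obtain ⟨c, hc⟩ := hc
  set k : ZMod (2 ^ N) := -(n 0 0) * ((c⁻¹ : (ZMod (2 ^ N))ˣ) : ZMod (2 ^ N))
  have hk : n 0 0 + k * n 1 0 = 0 := by
    rw [← hc]
    simp only [k]
    linear_combination -(n 0 0) * c.inv_mul
  refine ⟨k, c, Units.ext ?_⟩
  have e11 := congrFun (congrFun hn2 1) 0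
  have e00 := congrFun (congrFun hn2 0) 0
  simp only [Matrix.mul_apply, Fin.sum_univ_two, Matrix.zero_apply] at e11 e00
  rw [← hc] at e11 e00 hk
  have hcancel : ∀ z : ZMod (2 ^ N), (c : ZMod (2 ^ N)) * z = 0 → z = 0 := fun z hz =>
    c.mul_right_eq_zero.mp hz
  have hd : n 1 1 = -n 0 0 := eq_neg_of_add_eq_zero_left (hcancel _ (by linear_combination e11))
  have hb : n 0 1 = -k * (k * c) := by
    refine sub_eq_zero.mp (hcancel _ ?_)
    linear_combination e00 - (n 0 0 - k * c) * hk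
  have hτ₂' : (τ₂ : M2 (ZMod (2 ^ N))) = n + 1 := by rw [hn, sub_add_cancel]
  show (U k : M2 (ZMod (2 ^ N))) * (τ₂ : M2 (ZMod (2 ^ N))) *
      (((U k)⁻¹ : (M2 (ZMod (2 ^ N)))ˣ) : M2 (ZMod (2 ^ N))) = _
  rw [show (((U k)⁻¹ : (M2 (ZMod (2 ^ N)))ˣ) : M2 (ZMod (2 ^ N))) = !![1, -k; 0, 1] from rfl,
    hτ₂', coe_L, coe_U]
  ext i j
  fin_cases i <;> fin_cases j <;>
    simp [Matrix.mul_apply, Matrix.vecMul, dotProduct, Matrix.add_apply, Fin.sum_univ_two,
      hd, hb, ← hc]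
  · linear_combination hk
  · linear_combination (-2 * k) * hk
  · linear_combination -hk

include hN in
/-- A subgroup with full residual image containing `U 1` contains all unipotents. -/
private theorem mem_U_L_of_full_residue {H : Subgroup (M2 (ZMod (2 ^ N)))ˣ} (hU1 : U 1 ∈ H)
    (hres : ∀ x, ∃ g ∈ H, redU hN g = x) : (∀ x, U x ∈ H) ∧ ∀ x, L x ∈ H := by
  obtain ⟨h, h', hh, hhn⟩ := conj_residual !![1, 1; 0, 1] (by decide) (by decide)
    !![1, 0; 1, 1] (by decide) (by decide)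
  obtain ⟨g, hg, hgr⟩ := hres ⟨h, h', hh, mul_eq_one_comm.mp hh⟩
  set τ₂ := g * U 1 * g⁻¹
  have hτ₂ : τ₂ ∈ H := H.mul_mem (H.mul_mem hg hU1) (H.inv_mem hg)
  have hred : (redU hN τ₂ : M2 (ZMod 2)) = !![1, 0; 1, 1] := by
    simp only [τ₂, map_mul, map_inv, hgr, Units.val_mul]
    rw [show ((redU hN (U 1) : (M2 (ZMod 2))ˣ) : M2 (ZMod 2)) = !![1, 1; 0, 1] by
      ext i j; fin_cases i <;> fin_cases j <;> simp [coe_redU, coe_U]]
    exact hhn
  obtain ⟨k, c, hτ₃⟩ := exists_conj_U_eq_L hN (conj_U_sub_one_sq g) hred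
  have hU : ∀ x, U x ∈ H := mem_of_one_mem_U hU1
  have hLc : L (c : ZMod (2 ^ N)) ∈ H :=
    hτ₃ ▸ H.mul_mem (H.mul_mem (hU k) hτ₂) (H.inv_mem (hU k))
  refine ⟨hU, fun x => ?_⟩
  obtain ⟨m, hm⟩ := ZMod.natCast_zmod_surjective (x * ((c⁻¹ : (ZMod (2 ^ N))ˣ) : ZMod (2 ^ N)))
  have key : ∀ m : ℕ, L (c : ZMod (2 ^ N)) ^ m = L ((m : ZMod (2 ^ N)) * c) := fun m => by
    induction m with
    | zero => rw [pow_zero, Nat.cast_zero, zero_mul, L_zero]
    | succ m ih => rw [pow_succ, ih, L_mul, Nat.cast_succ, add_mul, one_mul]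
  have : L x = L (c : ZMod (2 ^ N)) ^ m := by rw [key, hm, mul_assoc, Units.inv_mul, mul_one]
  exact this ▸ H.pow_mem hLc m

include hN in
/-- A subgroup containing the unipotents which is onto the determinants is everything. -/
private theorem mem_of_U_L_of_det {H : Subgroup (M2 (ZMod (2 ^ N)))ˣ} (hU : ∀ x, U x ∈ H)
    (hL : ∀ x, L x ∈ H)
    (hdet : ∀ t : (ZMod (2 ^ N))ˣ, ∃ g ∈ H, (g : M2 (ZMod (2 ^ N))).det = t)
    (y : (M2 (ZMod (2 ^ N)))ˣ) : y ∈ H := by
  obtain ⟨u, hu⟩ := (Matrix.isUnit_iff_isUnit_det _).mp y.isUnit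
  obtain ⟨g₁, hg₁, hd⟩ := hdet u
  let dd : (M2 (ZMod (2 ^ N)))ˣ →* ZMod (2 ^ N) :=
    (Matrix.detMonoidHom).comp (Units.coeHom _)
  have hz1 : ∀ z ∈ Subgroup.closure (Set.range (U (R := ZMod (2 ^ N))) ∪ Set.range L),
      dd z = 1 := by
    intro z hz
    induction hz using Subgroup.closure_induction with
    | mem z hz => rcases hz with ⟨x, rfl⟩ | ⟨x, rfl⟩ <;> simp [dd, coe_U, coe_L, Matrix.det_fin_two]
    | one => exact map_one dd
    | mul a b _ _ ha hb => rw [map_mul, ha, hb, one_mul]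
    | inv a _ ha =>
      have := map_mul dd a a⁻¹
      rw [mul_inv_cancel, map_one, ha, one_mul] at this
      exact this.symm
  obtain ⟨z', hz', t', hzt'⟩ := exists_eq_mul_D (local_add hN)
    (Subgroup.closure (Set.range (U (R := ZMod (2 ^ N))) ∪ Set.range L))
    (fun x => Subgroup.subset_closure (Or.inl ⟨x, rfl⟩))
    (fun x => Subgroup.subset_closure (Or.inr ⟨x, rfl⟩)) (g₁⁻¹ * y)
  have hdy : dd (g₁⁻¹ * y) = 1 := by
    have h1 : dd g₁ = dd y := hd.trans hu
    rw [map_mul, ← h1, ← map_mul, inv_mul_cancel, map_one]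
  have ht' : t' = 1 := by
    have := congrArg dd hzt'
    rw [hdy, map_mul, hz1 z' hz', one_mul] at this
    exact Units.ext (by rw [Units.val_one]; exact (this.trans (det_D t')).symm)
  subst ht'
  have hzH : z' ∈ H := (Subgroup.closure_le H).mpr
    (Set.union_subset (Set.range_subset_iff.mpr hU) (Set.range_subset_iff.mpr hL)) hz'
  have hD1 : D (1 : (ZMod (2 ^ N))ˣ) = 1 := by
    ext i j; fin_cases i <;> fin_cases j <;> simp [coe_D]
  rw [hD1, mul_one] at hzt'
  rw [show y = g₁ * (g₁⁻¹ * y) by group, hzt']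
  exact H.mul_mem hg₁ hzH

include hN in
/-- **Full image.** -/
theorem eq_top (H : Subgroup (M2 (ZMod (2 ^ N)))ˣ) (hres : ∀ x, ∃ g ∈ H, redU hN g = x)
    (hdet : ∀ t : (ZMod (2 ^ N))ˣ, ∃ g ∈ H, (g : M2 (ZMod (2 ^ N))).det = t)
    {τ : (M2 (ZMod (2 ^ N)))ˣ} (hτ : τ ∈ H) (hsq : ((τ : M2 (ZMod (2 ^ N))) - 1) *
      ((τ : M2 (ZMod (2 ^ N))) - 1) = 0)
    (hτr : redU hN τ ≠ 1) : H = ⊤ := by
  obtain ⟨Q, hQ⟩ := exists_conj_U hN τ hsq hτr
  set H' : Subgroup (M2 (ZMod (2 ^ N)))ˣ := H.comap (MulAut.conj Q).toMonoidHom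
  have hmem : ∀ g, g ∈ H' ↔ Q * g * Q⁻¹ ∈ H := fun g => by simp [H', Subgroup.mem_comap]
  have hU1 : U 1 ∈ H' := by
    rw [hmem, ← hQ, ← mul_assoc, ← mul_assoc, mul_inv_cancel, one_mul, mul_inv_cancel_right]
    exact hτ
  have hres' : ∀ x, ∃ g ∈ H', redU hN g = x := fun x => by
    obtain ⟨g, hg, e⟩ := hres (redU hN Q * x * (redU hN Q)⁻¹)
    refine ⟨Q⁻¹ * g * Q, (hmem _).mpr ?_, ?_⟩
    · rwa [← mul_assoc, ← mul_assoc, mul_inv_cancel, one_mul, mul_inv_cancel_right]
    · rw [map_mul, map_mul, e, map_inv]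
      group
  obtain ⟨hU, hL⟩ := mem_U_L_of_full_residue hN hU1 hres'
  have hdet' : ∀ t : (ZMod (2 ^ N))ˣ, ∃ g ∈ H', (g : M2 (ZMod (2 ^ N))).det = t := fun t => by
    obtain ⟨g₁, hg₁, hd₁⟩ := hdet t
    refine ⟨Q⁻¹ * g₁ * Q, by rw [hmem]; simpa [mul_assoc] using hg₁, ?_⟩
    rw [Units.val_mul, Units.val_mul, Matrix.det_mul, Matrix.det_mul, mul_comm, ← mul_assoc,
      ← Matrix.det_mul, Units.mul_inv, Matrix.det_one, one_mul, hd₁]
  rw [eq_top_iff]
  intro x _
  have hx := mem_of_U_L_of_det hN hU hL hdet' (Q⁻¹ * x * Q)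
  rw [hmem] at hx
  simpa [mul_assoc] using hx

/-! ## Line valued cocycles -/

/-- A unit matrix over `𝔽₂`. -/
def mk2 (x y : M2 (ZMod 2)) (h : x * y = 1) : (M2 (ZMod 2))ˣ := ⟨x, y, h, mul_eq_one_comm.mp h⟩

theorem normalise : ∀ a b : M2 (ZMod 2), InV a → InV b →
    ((!![1, 1; 0, 1] + 1) * a).trace = 0 → ((!![0, 1; 1, 0] + 1) * b).trace = 0 →
      ∃ y : M2 (ZMod 2), InV y ∧ a + (!![1, 1; 0, 1] * y * !![1, 1; 0, 1] + y) = 0 ∧
        b + (!![0, 1; 1, 0] * y * !![0, 1; 1, 0] + y) = 0 := by decide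

theorem eq_zero_of_two_lines : ∀ x : M2 (ZMod 2), InV x →
    ((!![1, 1; 0, 1] + 1) * (!![1, 1; 0, 1] * x * !![1, 1; 0, 1])).trace = 0 →
    ((!![1, 0; 1, 1] + 1) * (!![1, 0; 1, 1] * x * !![1, 0; 1, 1])).trace = 0 → x = 0 := by decide

theorem inV_add : ∀ x y : M2 (ZMod 2), InV x → InV y → InV (x + y) := by decide

/-- The residual module is stable under conjugation. -/
theorem inV_conj : ∀ g g' x : M2 (ZMod 2), g * g' = 1 → InV x → InV (g * x * g') := by decide

theorem add_self_m2 (x : M2 (ZMod 2)) : x + x = 0 := by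
  ext i j; exact CharTwo.add_self_eq_zero _

/-- The zero set of a crossed homomorphism, a subgroup. -/
private def zeroSubgroup (χ : (M2 (ZMod (2 ^ N)))ˣ → M2 (ZMod 2))
    (hmul : ∀ g h, χ (g * h) = χ g + conjAct (redU hN) g (χ h)) :
    Subgroup (M2 (ZMod (2 ^ N)))ˣ where
  carrier := {g | χ g = 0}
  one_mem' := by
    show χ 1 = 0
    have := hmul 1 1
    simpa [conjAct] using this
  mul_mem' {a b} ha hb := by
    show χ (a * b) = 0
    rw [hmul, show χ a = 0 from ha, show χ b = 0 from hb]; simp [conjAct]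
  inv_mem' {a} ha := by
    show χ a⁻¹ = 0
    have h1 : χ 1 = 0 := by
      have := hmul 1 1
      simpa [conjAct] using this
    have := hmul a⁻¹ a
    rw [inv_mul_cancel, h1, show χ a = 0 from ha] at this
    simpa [conjAct] using this.symm

include hN in
/-- **Line valued cocycles are coboundaries.** -/
theorem exists_coboundary (ψ : (M2 (ZMod (2 ^ N)))ˣ → M2 (ZMod 2))
    (hψ : IsCocycle (redU hN) ψ)
    (hline : ∀ g, IsTransp (redU hN g : M2 (ZMod 2)) →
      ((g : M2 (ZMod (2 ^ N))) - 1).det = 0 →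
        (((redU hN g : M2 (ZMod 2)) + 1) * ψ g).trace = 0) :
    ∃ y, InV y ∧ ∀ g, ψ g = conjAct (redU hN) g y + y := by
  -- `U 1` and the swap `w` are residual transpositions with eigenvalue `1`
  set w : (M2 (ZMod (2 ^ N)))ˣ := U 1 * L (-1) * U 1 * D (-1) with hw
  have hwv : (w : M2 (ZMod (2 ^ N))) = !![0, 1; 1, 0] := by
    ext i j; fin_cases i <;> fin_cases j <;>
      simp [hw, coe_U, coe_L, coe_D, Matrix.mul_apply, Fin.sum_univ_two]
  have hru : (redU hN (U 1) : M2 (ZMod 2)) = !![1, 1; 0, 1] := by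
    ext i j; fin_cases i <;> fin_cases j <;> simp [coe_redU, coe_U]
  have hrw : (redU hN w : M2 (ZMod 2)) = !![0, 1; 1, 0] := by
    ext i j; fin_cases i <;> fin_cases j <;> simp [coe_redU, hwv]
  have hu1 : ((redU hN (U 1))⁻¹ : (M2 (ZMod 2))ˣ) = redU hN (U 1) := by
    rw [inv_eq_iff_mul_eq_one]
    ext i j; fin_cases i <;> fin_cases j <;> simp [hru, Matrix.mul_apply, Fin.sum_univ_two]
    rfl
  have hw1 : ((redU hN w)⁻¹ : (M2 (ZMod 2))ˣ) = redU hN w := by
    rw [inv_eq_iff_mul_eq_one]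
    ext i j; fin_cases i <;> fin_cases j <;> simp [hrw, Matrix.mul_apply, Fin.sum_univ_two]
  -- subtract the coboundary of the `y` with which `ψ` vanishes at both; call the difference `χ`
  obtain ⟨y, hy, hya, hyb⟩ := normalise (ψ (U 1)) (ψ w) (hψ.inV _) (hψ.inV _)
    (hru ▸ hline (U 1) (by rw [hru]; decide) (by simp [coe_U, Matrix.det_fin_two]))
    (hrw ▸ hline w (by rw [hrw]; decide) (by simp [hwv, Matrix.det_fin_two]))
  refine ⟨y, hy, ?_⟩
  set χ : (M2 (ZMod (2 ^ N)))ˣ → M2 (ZMod 2) := fun g => ψ g + (conjAct (redU hN) g y + y)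
  suffices key : ∀ g, χ g = 0 by
    intro g
    have h := key g
    simp only [χ] at h
    calc ψ g = ψ g + ((conjAct (redU hN) g y + y) + (conjAct (redU hN) g y + y)) := by
          rw [add_self_m2, add_zero]
      _ = _ := by rw [← add_assoc, h, zero_add]
  have hmul : ∀ g h, χ (g * h) = χ g + conjAct (redU hN) g (χ h) := fun g h => by
    simp only [χ, hψ.mul, conjAct, map_mul, _root_.mul_inv_rev, Units.val_mul, mul_add, add_mul,
      ← mul_assoc]
    linear_combination (norm := abel)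
      -(add_self_m2 ((redU hN g : M2 (ZMod 2)) * y * (((redU hN g)⁻¹ : (M2 (ZMod 2))ˣ) : M2 _)))
  -- its zero set is a subgroup, containing `U 1` and `L 1 = w * U 1 * w`, so all unipotents
  let H : Subgroup (M2 (ZMod (2 ^ N)))ˣ := zeroSubgroup hN χ hmul
  have hU1 : U 1 ∈ H := by
    show ψ _ + (conjAct _ _ y + y) = 0
    rw [conjAct, hu1, hru]; exact hya
  have hwH : w ∈ H := by
    show ψ _ + (conjAct _ _ y + y) = 0
    rw [conjAct, hw1, hrw]; exact hyb
  have hL1 : L 1 ∈ H := by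
    have : L (1 : ZMod (2 ^ N)) = w * U 1 * w := by
      ext i j; fin_cases i <;> fin_cases j <;>
        simp [hwv, coe_U, coe_L, Matrix.mul_apply, Fin.sum_univ_two]
    rw [this]; exact H.mul_mem (H.mul_mem hwH hU1) hwH
  have hU := mem_of_one_mem_U hU1
  have hL := mem_of_one_mem_L hL1
  intro g
  obtain ⟨h, hh, t, rfl⟩ := exists_eq_mul_D (local_add hN) H hU hL g
  have hrt : redU hN (D t) = 1 := by
    have ht : red hN (t : ZMod (2 ^ N)) = 1 := (isUnit_iff hN _).mp t.isUnit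
    ext i j; fin_cases i <;> fin_cases j <;> simp [coe_redU, coe_D, ht]
  -- `D t` is residually trivial and `U 1 * D t`, `L 1 * D t` have eigenvalue `1`, so `χ (D t)`
  -- lies on two different lines
  have hx : χ (D t) = 0 := by
    have hrl : (redU hN (L 1) : M2 (ZMod 2)) = !![1, 0; 1, 1] := by
      ext i j; fin_cases i <;> fin_cases j <;> simp [coe_redU, coe_L]
    have hl1 : ((redU hN (L 1))⁻¹ : (M2 (ZMod 2))ˣ) = redU hN (L 1) := by
      rw [inv_eq_iff_mul_eq_one]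
      ext i j; fin_cases i <;> fin_cases j <;> simp [hrl, Matrix.mul_apply, Fin.sum_univ_two]
      rfl
    refine eq_zero_of_two_lines _ (inV_add _ _ (hψ.inV _)
      (inV_add _ _ (inV_conj _ _ _ (Units.mul_inv _) hy) hy)) ?_ ?_
    · have hg := hline (U 1 * D t) (by rw [map_mul, hrt, mul_one, hru]; decide)
        (by simp [coe_U, coe_D, Matrix.det_fin_two])
      have e : χ (U 1 * D t) = conjAct (redU hN) (U 1) (χ (D t)) := by
        rw [hmul, show χ (U 1) = 0 from hU1, zero_add]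
      rw [conjAct, hu1, hru] at e
      rw [← e]
      simp only [χ, mul_add, Matrix.trace_add]
      rw [map_mul, hrt, mul_one, hru] at hg
      rw [hg, conjAct, map_mul, hrt, mul_one, hu1, hru, zero_add]
      revert hy; clear * - y; revert y; decide
    · have hg := hline (L 1 * D t) (by rw [map_mul, hrt, mul_one, hrl]; decide)
        (by simp [coe_L, coe_D, Matrix.det_fin_two])
      have e : χ (L 1 * D t) = conjAct (redU hN) (L 1) (χ (D t)) := by
        rw [hmul, show χ (L 1) = 0 from hL1, zero_add]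
      rw [conjAct, hl1, hrl] at e
      rw [← e]
      simp only [χ, mul_add, Matrix.trace_add]
      rw [map_mul, hrt, mul_one, hrl] at hg
      rw [hg, conjAct, map_mul, hrt, mul_one, hl1, hrl, zero_add]
      revert hy; clear * - y; revert y; decide
  rw [hmul, show χ h = 0 from hh, hx]
  simp [conjAct]

end Two

end Fermat.Agent.LT.Selmer.Group2
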