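import Fermat.Agent.LT.Selmer.Reciprocity
import Fermat.Agent.LT.Selmer.Group

/-!
# An element detecting a class

If a class is not a coboundary, some element of residual transposition, with eigenvalue `1` modulo
`2 ^ N` and fixing `√l₁`, takes it off the line of its transposition.
-/

set_option autoImplicit false

noncomputable section

namespace Fermat.Agent.LT.Selmer

open Fermat.Agent.Arith (QBar GQ)
open Deform (M2 InV IsCocycle conjAct)

variable {r : GQ →* (M2 (ZMod 2))ˣ} {φ : GQ → M2 (ZMod 2)} {S : Finset ℕ} {l₁ N : ℕ}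
  {ρ : GQ →* (M2 (ZMod (2 ^ N)))ˣ}

theorem Lift.redU_eq (hρ : Lift r S l₁ N ρ) (g : GQ) : Group2.redU hρ.pos (ρ g) = r g :=
  Units.ext (hρ.residual g)

/-- `ρ` is onto. -/
theorem Lift.surjective (hρ : Lift r S l₁ N ρ) (hsurj : Function.Surjective r) :
    Function.Surjective ρ := by
  obtain ⟨τ, hsq, hτ, -⟩ := hρ.exists_moving
  refine MonoidHom.range_eq_top.mp (Group2.eq_top hρ.pos ρ.range (fun x => ?_) (fun t => ?_)
    (τ := ρ τ) ⟨τ, rfl⟩ hsq (by rwa [hρ.redU_eq]))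
  · obtain ⟨g, hg⟩ := hsurj x
    exact ⟨ρ g, ⟨g, rfl⟩, (hρ.redU_eq g).trans hg⟩
  · obtain ⟨g, hg⟩ := hρ.det_surjective t
    exact ⟨ρ g, ⟨g, rfl⟩, hg⟩

theorem ch_natCast_eq {n : ℕ} (hn : n ≠ 0) {g : GQ} :
    (ch (n : ℤ) g = 0 ↔ ∀ x : QBar, x ^ 2 = (n : QBar) → g x = x) := by
  have h0 : (n : ℤ) ≠ 0 := by exact_mod_cast hn
  refine ⟨fun h x hx => ?_, fun h => ch_eq_zero h0 (h _ (by rw [rt_sq, Int.cast_natCast]))⟩
  have hfix : g (rt ((n : ℤ) : QBar)) = rt ((n : ℤ) : QBar) := by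
    rw [map_rt_ch h0, h, pm_zero, one_mul]
  rcases sq_eq_sq_iff_eq_or_eq_neg.mp
    (hx.trans (show (n : QBar) = rt ((n : ℤ) : QBar) ^ 2 by rw [rt_sq, Int.cast_natCast]))
      with e | e
  · rw [e, hfix]
  · rw [e, map_neg, hfix]

theorem eq_zero_of_fixed : ∀ x : M2 (ZMod 2), InV x →
    !![1, 1; 0, 1] * x * !![1, 1; 0, 1] = x → !![0, 1; 1, 0] * x * !![0, 1; 1, 0] = x → x = 0 := by
  decide

set_option synthInstance.maxSize 256 in
theorem line_add_iff : ∀ t a y : M2 (ZMod 2), IsTransp t → InV a → InV y →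
    ((t + 1) * a).trace = 0 → ((t + 1) * (a + t * y * t)).trace = 0 →
      ((t + 1) * (t * y * t)).trace = 0 := by decide

/-- **An element detecting a class.** -/
theorem exists_element (hρ : Lift r S l₁ N ρ) (hsurj : Function.Surjective r) (hl : l₁ ≠ 0)
    (hφ : IsCocycle r φ) (hne : ¬ ∃ y, InV y ∧ ∀ g, φ g = conjAct r g y + y) :
    ∃ σ : GQ, IsTransp (r σ : M2 (ZMod 2)) ∧ ((ρ σ : M2 (ZMod (2 ^ N))) - 1).det = 0 ∧
      ch (l₁ : ℤ) σ = 0 ∧ (((r σ : M2 (ZMod 2)) + 1) * φ σ).trace ≠ 0 := by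
  by_contra hno
  push Not at hno
  have hl' : (l₁ : ℤ) ≠ 0 := by exact_mod_cast hl
  have hρs := hρ.surjective hsurj
  have hr : ∀ g h, ρ g = ρ h → r g = r h := fun g h e => by
    rw [← hρ.redU_eq, ← hρ.redU_eq, e]
  -- an element of the kernel moving the root
  obtain ⟨h₀, hh₀, hh₀c⟩ : ∃ h₀, ρ h₀ = 1 ∧ ch (l₁ : ℤ) h₀ = 1 := by
    obtain ⟨τ, hsq, hτ, hτx⟩ := hρ.exists_moving
    obtain ⟨τ', hsq', hτ', hτ'x⟩ := hρ.exists_fixing
    obtain ⟨Q, hQ⟩ := Group2.exists_conj_U hρ.pos (ρ τ) hsq (by rwa [hρ.redU_eq])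
    obtain ⟨Q', hQ'⟩ := Group2.exists_conj_U hρ.pos (ρ τ') hsq' (by rwa [hρ.redU_eq])
    obtain ⟨g, hg⟩ := hρs (Q * Q'⁻¹)
    have hτc : ch (l₁ : ℤ) τ = 1 := ch_eq_of_sq hl' (rt_sq _)
      (by rw [pm_one, neg_one_mul]; exact hτx _ (by rw [rt_sq, Int.cast_natCast]))
    refine ⟨τ * (g * τ'⁻¹ * g⁻¹), ?_, ?_⟩
    · have e : ρ τ = Q * Q'⁻¹ * ρ τ' * (Q * Q'⁻¹)⁻¹ := by
        have : ρ τ = Q * (Q'⁻¹ * ρ τ' * Q') * Q⁻¹ := by rw [hQ', ← hQ]; group
        rw [this]; group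
      rw [map_mul, map_mul, map_mul, map_inv, map_inv, hg, e]
      group
    · have : ch (l₁ : ℤ) τ'⁻¹ = 0 := by
        have h := ch_mul_apply hl' τ'⁻¹ τ'
        rwa [inv_mul_cancel, ch_one hl', (ch_natCast_eq hl).mpr hτ'x, add_zero, eq_comm] at h
      rw [ch_mul_apply hl', ch_conj hl', hτc, this, add_zero]
  have hpre : ∀ M, ∃ σ, ρ σ = M ∧ ch (l₁ : ℤ) σ = 0 := fun M => by
    obtain ⟨σ, hσ⟩ := hρs M
    rcases pm_cases (ch (l₁ : ℤ) σ) with h | h
    · exact ⟨σ, hσ, h⟩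
    · exact ⟨σ * h₀, by rw [map_mul, hσ, hh₀, mul_one],
        by rw [ch_mul_apply hl', h, hh₀c, CharTwo.add_self_eq_zero]⟩
  choose pre hpρ hpc using hpre
  have hline : ∀ σ, IsTransp (r σ : M2 (ZMod 2)) → ((ρ σ : M2 (ZMod (2 ^ N))) - 1).det = 0 →
      ch (l₁ : ℤ) σ = 0 → (((r σ : M2 (ZMod 2)) + 1) * φ σ).trace = 0 := hno
  -- the class dies on the common kernel
  have hkill : ∀ h, ρ h = 1 → ch (l₁ : ℤ) h = 0 → φ h = 0 := by
    intro h hh hc
    have hrh : r h = 1 := (hr h 1 (by rw [hh, map_one])).trans (map_one r)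
    have key : ∀ M : (M2 (ZMod (2 ^ N)))ˣ, ∀ t : M2 (ZMod 2), IsTransp t →
        (Group2.redU hρ.pos M : M2 (ZMod 2)) = t → ((M : M2 (ZMod (2 ^ N))) - 1).det = 0 →
        ((t + 1) * (t * φ h * t)).trace = 0 := by
      intro M t ht hMt hdet
      have hrt : (r (pre M) : M2 (ZMod 2)) = t := by rw [← hρ.redU_eq, hpρ]; exact hMt
      have h1 := hline (pre M) (hrt ▸ ht) (by rw [hpρ]; exact hdet) (hpc M)
      have h2 := hline (pre M * h) (by rw [map_mul, hrh, mul_one]; exact hrt ▸ ht)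
        (by rw [map_mul, hh, mul_one, hpρ]; exact hdet)
        (by rw [ch_mul_apply hl', hpc, hc, add_zero])
      rw [hrt] at h1
      rw [map_mul, hrh, mul_one, hrt, hφ.mul, conjAct, coe_inv_of_transp ht hrt, hrt] at h2
      exact line_add_iff t _ _ ht (hφ.inV _) (hφ.inV h) h1 h2
    refine Group2.eq_zero_of_two_lines _ (hφ.inV h) (key (Group2.U 1) _ (by decide) ?_ ?_)
      (key (Group2.L 1) _ (by decide) ?_ ?_)
    · ext i j; fin_cases i <;> fin_cases j <;> simp [Group2.coe_redU, Group2.coe_U]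
    · simp [Group2.coe_U, Matrix.det_fin_two]
    · ext i j; fin_cases i <;> fin_cases j <;> simp [Group2.coe_redU, Group2.coe_L]
    · simp [Group2.coe_L, Matrix.det_fin_two]
  have hcongr : ∀ g g', ρ g = ρ g' → ch (l₁ : ℤ) g = ch (l₁ : ℤ) g' → φ g = φ g' :=
    fun g g' e e' => by
    rw [← mul_inv_cancel_left g g', hφ.mul, hkill (g⁻¹ * g') (by rw [map_mul, map_inv, e,
      inv_mul_cancel]) ?_, conjAct_zero, add_zero]
    have h := ch_mul_apply hl' g (g⁻¹ * g')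
    rw [mul_inv_cancel_left, ← e'] at h
    linear_combination -h
  have hh₀0 : φ h₀ = 0 := by
    have hr₀ : r h₀ = 1 := (hr h₀ 1 (by rw [hh₀, map_one])).trans (map_one r)
    have hfix : ∀ g, conjAct r g (φ h₀) = φ h₀ := fun g => by
      rw [← Coc.conj hφ hr₀ g]
      exact hcongr _ _ (by simp [hh₀]) (ch_conj hl' g h₀)
    obtain ⟨g, hg⟩ := hsurj (Group2.mk2 !![1, 1; 0, 1] !![1, 1; 0, 1] (by decide))
    obtain ⟨g', hg'⟩ := hsurj (Group2.mk2 !![0, 1; 1, 0] !![0, 1; 1, 0] (by decide))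
    refine eq_zero_of_fixed _ (hφ.inV h₀) ?_ ?_
    · have := hfix g; rw [conjAct, hg] at this; exact this
    · have := hfix g'; rw [conjAct, hg'] at this; exact this
  have hψ : IsCocycle (Group2.redU hρ.pos) (fun M => φ (pre M)) :=
    { inV := fun M => hφ.inV _
      mul := fun M M' => by
        show φ (pre (M * M')) = φ (pre M) + conjAct _ M (φ (pre M'))
        rw [hcongr (pre (M * M')) (pre M * pre M') (by rw [map_mul, hpρ, hpρ, hpρ])
          (by rw [ch_mul_apply hl', hpc, hpc, hpc, add_zero]), hφ.mul]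
        simp only [conjAct, ← hρ.redU_eq, hpρ] }
  obtain ⟨y, hy, hψy⟩ := Group2.exists_coboundary hρ.pos _ hψ fun M hM hdet => by
    rw [show Group2.redU hρ.pos M = r (pre M) by rw [← hρ.redU_eq, hpρ]] at hM ⊢
    exact hline _ hM (by rw [hpρ]; exact hdet) (hpc M)
  refine hne ⟨y, hy, fun g => ?_⟩
  have hval : conjAct r g y = conjAct (Group2.redU hρ.pos) (ρ g) y := by
    simp only [conjAct, hρ.redU_eq]
  rcases pm_cases (ch (l₁ : ℤ) g) with h | h
  · rw [hval, ← hψy]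
    exact hcongr _ _ (hpρ _).symm (h.trans (hpc _).symm)
  · rw [hval, ← hψy, hcongr g (pre (ρ g) * h₀) (by rw [map_mul, hpρ, hh₀, mul_one])
      (by rw [ch_mul_apply hl', hpc, hh₀c, h, zero_add]), hφ.mul, hh₀0, conjAct_zero, add_zero]

end Fermat.Agent.LT.Selmer
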