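import Fermat.Agent.LT.Selmer.Finite
import Fermat.Agent.LT.Selmer.Element
import Fermat.Agent.GaloisReps.Attach
import Fermat.Agent.CFT.Tangent.LocalPlace

/-!
# Auxiliary primes killing the residual Selmer group

`exists_T`: for residual data modulo `2` there is a bound `k` such that every lift modulo `2 ^ N`
admits a set of at most `k` allowed auxiliary primes, with lines, killing the Selmer classes.
The number of primes needed depends on the residual data only: each prime strictly shrinks a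
finite set of classes. It is used in `LT/Compose/Main`.
-/

set_option autoImplicit false

noncomputable section

namespace Fermat.Agent.LT.Selmer

open Fermat.Agent.Arith (QBar GQ)
open Fermat.Agent.CFT.Flat (decG inG inG_le_decG)
open _root_.Fermat.Agent.LT.Deform (M2 InV IsCocycle conjAct)
open scoped Pointwise

variable {r : GQ →* (M2 (ZMod 2))ˣ} {φ : GQ → M2 (ZMod 2)} {S : Finset ℕ} {s : ℕ → M2 (ZMod 2)}
  {l₁ N : ℕ} {ρ : GQ →* (M2 (ZMod (2 ^ N)))ˣ}

/-- `GL₂(𝔽₂) ≅ S₃` has exponent `6`; a power which is a transposition has odd exponent and is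
the element itself. -/
theorem pow_transp : ∀ x y : M2 (ZMod 2), x * y = 1 →
    x ^ 6 = 1 ∧ ∀ j : Fin 6, IsTransp (x ^ (j : ℕ)) → (j : ℕ) % 2 = 1 ∧ x ^ (j : ℕ) = x := by decide

theorem transp_of_pow {u : (M2 (ZMod 2))ˣ} {i : ℕ} (h : IsTransp ((u : M2 (ZMod 2)) ^ i)) :
    Odd i ∧ (u : M2 (ZMod 2)) ^ i = u := by
  obtain ⟨h6, hj⟩ := pow_transp (u : M2 (ZMod 2)) (↑u⁻¹) (Units.mul_inv u)
  have e : (u : M2 (ZMod 2)) ^ i = (u : M2 (ZMod 2)) ^ (i % 6) := by
    conv_lhs => rw [← Nat.div_add_mod i 6, pow_add, pow_mul, h6, one_pow, one_mul]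
  obtain ⟨h1, h2⟩ := hj ⟨i % 6, Nat.mod_lt _ (by norm_num)⟩ (by rw [← e]; exact h)
  exact ⟨Nat.odd_iff.mpr (by simp only at h1; omega), e.trans h2⟩

theorem geom_transp {t : M2 (ZMod 2)} (ht : IsTransp t) (k : ℕ) :
    ∑ j ∈ Finset.range (2 * k + 1), t ^ j = 1 ∨ ∑ j ∈ Finset.range (2 * k + 1), t ^ j = t := by
  have hsq : t * t = 1 := (by decide : ∀ t : M2 (ZMod 2), IsTransp t → t * t = 1) t ht
  induction k with
  | zero => left; simp
  | succ k ih =>
    have hodd : t ^ (2 * k + 1) = t := by rw [pow_succ, pow_mul, pow_two, hsq, one_pow, one_mul]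
    have heven : t ^ (2 * k + 1 + 1) = 1 := by rw [pow_succ, hodd, hsq]
    have hstep : ∀ t : M2 (ZMod 2), IsTransp t → 1 + t + 1 = t ∧ t + t + 1 = 1 := by decide
    rw [show 2 * (k + 1) + 1 = 2 * k + 1 + 1 + 1 by ring, Finset.sum_range_succ,
      Finset.sum_range_succ, hodd, heven]
    rcases ih with e | e <;> rw [e]
    · exact Or.inr (hstep t ht).1
    · exact Or.inl (hstep t ht).2

/-- If an odd power of a lift of a transposition has eigenvalue `1`, so has the lift: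
`A ^ i - 1 = (A - 1) ∑ A ^ j`, and the sum is `1` or `t` modulo `2`. -/
theorem det_sub_one_of_pow (hN : 0 < N) {A : M2 (ZMod (2 ^ N))} {t : M2 (ZMod 2)} (ht : IsTransp t)
    (hA : A.map (Group2.red hN) = t) {i : ℕ} (hi : Odd i) (h : (A ^ i - 1).det = 0) :
    (A - 1).det = 0 := by
  obtain ⟨k, rfl⟩ := hi
  rw [← mul_geom_sum, Matrix.det_mul] at h
  have hu : IsUnit (∑ j ∈ Finset.range (2 * k + 1), A ^ j).det := by
    rw [Group2.isUnit_iff hN, RingHom.map_det]
    have e : (Group2.red hN).mapMatrix (∑ j ∈ Finset.range (2 * k + 1), A ^ j) =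
        ∑ j ∈ Finset.range (2 * k + 1), t ^ j := by
      rw [map_sum]
      exact Finset.sum_congr rfl fun j _ => by rw [map_pow]; exact congrArg (· ^ j) hA
    rw [e]
    rcases geom_transp ht k with e | e <;> rw [e]
    · exact Matrix.det_one
    · exact (by decide : ∀ t : M2 (ZMod 2), IsTransp t → t.det = 1) t ht
  exact (hu.mul_left_eq_zero).mp h

set_option synthInstance.maxSize 256 in
theorem line_conj_term : ∀ t a y : M2 (ZMod 2), IsTransp t → InV a → InV y →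
    ((t + 1) * (a + y + t * a * t)).trace = ((t + 1) * y).trace := by decide

set_option synthInstance.maxSize 256 in
theorem line_step : ∀ t a y : M2 (ZMod 2), IsTransp t → InV a → InV y → ((t + 1) * a).trace = 0 →
    ((t + 1) * y).trace = 0 → ((t + 1) * (a + t * y * t)).trace = 0 := by decide

theorem trace_line_pow (hφ : IsCocycle r φ) {g : GQ} (ht : IsTransp (r g : M2 (ZMod 2)))
    (h : (((r g : M2 (ZMod 2)) + 1) * φ g).trace = 0) (i : ℕ) :
    (((r g : M2 (ZMod 2)) + 1) * φ (g ^ i)).trace = 0 := by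
  induction i with
  | zero => rw [pow_zero, Coc.one hφ, mul_zero, Matrix.trace_zero]
  | succ i ih =>
    rw [pow_succ', hφ.mul, conjAct, coe_inv_of_transp ht rfl]
    exact line_step _ _ _ ht (hφ.inV g) (hφ.inV _) h ih

theorem trace_line_conj (hφ : IsCocycle r φ) (g σ : GQ) (ht : IsTransp (r σ : M2 (ZMod 2))) :
    (((r (g * σ * g⁻¹) : M2 (ZMod 2)) + 1) * φ (g * σ * g⁻¹)).trace =
      (((r σ : M2 (ZMod 2)) + 1) * φ σ).trace := by
  set γ : M2 (ZMod 2) := (r g : M2 (ZMod 2))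
  set γ' : M2 (ZMod 2) := (↑(r g)⁻¹ : M2 (ZMod 2))
  have hγ : γ * γ' = 1 := Units.mul_inv _
  have hγ' : γ' * γ = 1 := Units.inv_mul _
  set τ := g * σ * g⁻¹ with hτ
  have hrt : (r τ : M2 (ZMod 2)) = γ * (r σ : M2 (ZMod 2)) * γ' := by
    rw [hτ, map_mul, map_mul, map_inv]; rfl
  have htt : IsTransp (r τ : M2 (ZMod 2)) := hrt ▸ isTransp_conj γ γ' _ hγ ht
  have h0 : φ g + conjAct r g (φ g⁻¹) = 0 := by rw [← hφ.mul, mul_inv_cancel, Coc.one hφ]
  have hval : φ τ = φ g + conjAct r g (φ σ) + conjAct r τ (φ g) := by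
    have : φ τ = φ g + conjAct r g (φ σ) + conjAct r (g * σ) (φ g⁻¹) := by
      rw [hτ, hφ.mul, hφ.mul]
    rw [this]
    congr 1
    have e : φ g = conjAct r g (φ g⁻¹) := by
      rw [← add_right_cancel_iff (a := conjAct r g (φ g⁻¹)), h0, Group2.add_self_m2]
    rw [e, conjAct_conjAct, hτ, mul_assoc (g * σ), inv_mul_cancel, mul_one]
  rw [hval, conjAct, conjAct, coe_inv_of_transp htt rfl,
    line_conj_term _ _ _ htt (hφ.inV g) (Group2.inV_conj _ _ _ hγ (hφ.inV σ)), hrt]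
  calc ((γ * (r σ : M2 (ZMod 2)) * γ' + 1) * (γ * φ σ * γ')).trace
      = (γ * (((r σ : M2 (ZMod 2)) + 1) * φ σ) * γ').trace := by
        congr 1
        rw [add_mul, add_mul, one_mul, one_mul, mul_add, add_mul]
        congr 1
        simp only [mul_assoc]
        rw [← mul_assoc γ' γ, hγ', one_mul]
    _ = _ := by rw [Matrix.trace_mul_cycle, hγ', one_mul]

theorem Residual.unram_at (hD : Residual r S s) {U : Finset ℕ} (hSU : S ⊆ U) (v : ℕ) [Fact v.Prime]
    (hv : v ∉ U) : ∀ σ ∈ inG v, r σ = 1 :=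
  hD.unram v Fact.out (fun h => hv (hSU h)) _ (CFT.Local.padicPlace_liesOverPrime v)

/-- The auxiliary prime `l₁` of a lift is nonzero. -/
theorem Lift.ne_zero (hD : Residual r S s) (hρ : Lift r S l₁ N ρ) : l₁ ≠ 0 :=
  (hD.prime l₁ hρ.mem).ne_zero

theorem Lift.inertia_trivial (hD : Residual r S s) (hρ : Lift r S l₁ N ρ) {q : ℕ}
    [hq : Fact q.Prime]
    (hqS : q ∉ S) {τ : GQ} (hτ : τ ∈ inG q) : r τ = 1 ∧ ρ τ = 1 ∧ ch (l₁ : ℤ) τ = 0 := by
  refine ⟨hD.unram_at Finset.Subset.rfl q hqS τ hτ,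
    hρ.unram q hq.out hqS _ (CFT.Local.padicPlace_liesOverPrime q) τ hτ,
    ch_inertia_unit (fun h => hqS (by rw [h]; exact hD.two_mem))
      (not_dvd_prime hq.out (hD.prime l₁ hρ.mem) fun h => hqS (by rw [h]; exact hρ.mem)) hτ⟩

/-- **A prime detecting a class.** -/
theorem exists_prime (hD : Residual r S s) (hρ : Lift r S l₁ N ρ) (U : Finset ℕ)
    (hφ : IsCocycle r φ) (hφL : LocConst φ)
    (hne : ¬ ∃ y, InV y ∧ ∀ g, φ g = conjAct r g y + y) :
    ∃ q : ℕ, ∃ _ : Fact q.Prime, q ∉ U ∧ ∃ F : GQ, (padicPlace q).IsFrobeniusAt F q ∧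
      IsTransp (r F : M2 (ZMod 2)) ∧ ((ρ F : M2 (ZMod (2 ^ N))) - 1).det = 0 ∧
      ch (l₁ : ℤ) F = 0 ∧ (((r F : M2 (ZMod 2)) + 1) * φ F).trace ≠ 0 := by
  have hl : (l₁ : ℤ) ≠ 0 := by exact_mod_cast hρ.ne_zero hD
  obtain ⟨σ, hσT, hσd, hσc, hσφ⟩ := exists_element hρ hD.surjective (hρ.ne_zero hD) hφ hne
  -- Chebotarev: on the field of `r`, `ρ`, `φ` and `√l₁`, `σ` is a power `g₀ ^ i` of a Frobenius
  -- at some `q ∉ U`; as `r σ` is a transposition `i` is odd, and `g₀` inherits the properties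
  obtain ⟨L, hLf, hL⟩ := (hD.locConst.map₂ hρ.locConst Prod.mk).map₂
    (hφL.map₂ (ch_locConst (l₁ : ℤ)) Prod.mk) Prod.mk
  obtain ⟨q, hq, hqU, A, hA, g₀, hg₀, i, hi⟩ := GaloisReps.frobeniusDensity L hLf σ U
  have : Fact q.Prime := ⟨hq⟩
  obtain ⟨g, rfl⟩ := Arith.exists_smul_eq (CFT.Local.padicPlace_liesOverPrime q) hA hq
  have h := hL σ (g₀ ^ i) hi
  simp only [Prod.mk.injEq] at h
  obtain ⟨⟨hr, hρe⟩, hφe, hce⟩ := h
  have hpow : IsTransp ((r g₀ : M2 (ZMod 2)) ^ i) := by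
    rw [← Units.val_pow_eq_pow_val, ← map_pow, ← hr]; exact hσT
  obtain ⟨hodd, hpow'⟩ := transp_of_pow hpow
  have ht : IsTransp (r g₀ : M2 (ZMod 2)) := hpow' ▸ hpow
  have hre : (r σ : M2 (ZMod 2)) = (r g₀ : M2 (ZMod 2)) := by
    rw [hr, map_pow, Units.val_pow_eq_pow_val, hpow']
  have hd : ((ρ g₀ : M2 (ZMod (2 ^ N))) - 1).det = 0 :=
    det_sub_one_of_pow hρ.pos ht (hρ.residual g₀) hodd
      (by rw [← Units.val_pow_eq_pow_val, ← map_pow, ← hρe]; exact hσd)
  have hc : ch (l₁ : ℤ) g₀ = 0 := by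
    have e : ∀ n : ℕ, ch (l₁ : ℤ) (g₀ ^ n) = (n : ZMod 2) * ch (l₁ : ℤ) g₀ := fun n => by
      induction n with
      | zero => rw [pow_zero, ch_one hl, Nat.cast_zero, zero_mul]
      | succ n ih => rw [pow_succ, ch_mul_apply hl, ih, Nat.cast_succ]; ring
    have := e i
    rw [← hce, hσc, ZMod.natCast_eq_one_iff_odd.mpr hodd, one_mul] at this
    exact this.symm
  -- move `g₀` to the chosen place
  have hF := Arith.isFrobeniusAt_conj (g := g⁻¹) hg₀
  rw [show g⁻¹ • g • padicPlace q = padicPlace q from inv_smul_smul g _] at hF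
  refine ⟨q, ⟨hq⟩, hqU, g⁻¹ * g₀ * g⁻¹⁻¹, hF, ?_, ?_, ?_, ?_⟩
  · rw [map_mul, map_mul, map_inv _ g⁻¹]
    exact isTransp_conj _ _ _ (Units.mul_inv (r g⁻¹)) ht
  · have e : (ρ (g⁻¹ * g₀ * g⁻¹⁻¹) : M2 (ZMod (2 ^ N))) - 1 =
        (ρ g⁻¹ : M2 (ZMod (2 ^ N))) * ((ρ g₀ : M2 (ZMod (2 ^ N))) - 1) *
          (↑(ρ g⁻¹)⁻¹ : M2 (ZMod (2 ^ N))) := by
      rw [mul_sub, sub_mul, mul_one, Units.mul_inv, map_mul, map_mul, map_inv _ g⁻¹]; rfl
    rw [e, Matrix.det_mul, Matrix.det_mul, hd, mul_zero, zero_mul]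
  · rw [ch_conj hl, hc]
  · rw [trace_line_conj hφ _ _ ht]
    intro h0
    refine hσφ ?_
    rw [hre, hφe]
    exact trace_line_pow hφ ht h0 i

theorem Allowed.of_frobenius (hD : Residual r S s) (hρ : Lift r S l₁ N ρ) {q : ℕ}
    [hq : Fact q.Prime] (hqS : q ∉ S) {F : GQ} (hF : (padicPlace q).IsFrobeniusAt F q)
    (hT : IsTransp (r F : M2 (ZMod 2))) (hd : ((ρ F : M2 (ZMod (2 ^ N))) - 1).det = 0)
    (hc : ch (l₁ : ℤ) F = 0) : Allowed r S l₁ ρ q := by
  have hl : (l₁ : ℤ) ≠ 0 := by exact_mod_cast hρ.ne_zero hD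
  refine ⟨hq.out, hqS, fun A hA F' hF' => ?_⟩
  obtain ⟨g, rfl⟩ := Arith.exists_smul_eq (CFT.Local.padicPlace_liesOverPrime q) hA hq.out
  have hF'' := Arith.isFrobeniusAt_conj (g := g⁻¹) hF'
  rw [show g⁻¹ • g • padicPlace q = padicPlace q from inv_smul_smul g _] at hF''
  obtain ⟨h1, h2, h3⟩ := hρ.inertia_trivial hD hqS (Arith.inv_mul_mem_inertia hF'' hF)
  set τ := F⁻¹ * (g⁻¹ * F' * g⁻¹⁻¹) with hτ
  have e : F' = g * (F * τ) * g⁻¹ := by rw [hτ]; group
  have hr' : r F' = r g * r F * (r g)⁻¹ := by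
    rw [e, map_mul, map_mul, map_mul, map_inv, h1, mul_one]
  have hρ' : ρ F' = ρ g * ρ F * (ρ g)⁻¹ := by
    rw [e, map_mul, map_mul, map_mul, map_inv, h2, mul_one]
  refine ⟨?_, ?_, (ch_natCast_eq (hρ.ne_zero hD)).mp ?_⟩
  · rw [hr']
    exact isTransp_conj _ _ _ (Units.mul_inv (r g)) hT
  · have e' : (ρ F' : M2 (ZMod (2 ^ N))) - 1 = (ρ g : M2 (ZMod (2 ^ N))) *
        ((ρ F : M2 (ZMod (2 ^ N))) - 1) * (↑(ρ g)⁻¹ : M2 (ZMod (2 ^ N))) := by
      rw [mul_sub, sub_mul, mul_one, Units.mul_inv, hρ']; rfl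
    rw [e', Matrix.det_mul, Matrix.det_mul, hd, mul_zero, zero_mul]
  · rw [e, ch_conj hl, ch_mul_apply hl, hc, h3, add_zero]

/-- The decomposition group at an unramified prime acts through the Frobenius transposition. -/
theorem line_of_frobenius (hD : Residual r S s) {q : ℕ} [hq : Fact q.Prime] (hqS : q ∉ S) {F : GQ}
    (hF : (padicPlace q).IsFrobeniusAt F q) (hT : IsTransp (r F : M2 (ZMod 2))) :
    (∀ g ∈ dec q, (r g : M2 (ZMod 2)) = 1 ∨ (r g : M2 (ZMod 2)) = (r F : M2 (ZMod 2))) ∧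
      ∀ F' : GQ, (padicPlace q).IsFrobeniusAt F' q →
        (r F' : M2 (ZMod 2)) = (r F : M2 (ZMod 2)) := by
  refine ⟨fun g hg => ?_, fun F' hF' => ?_⟩
  · obtain ⟨L, hLf, hL⟩ := hD.locConst
    let L' : IntermediateField ℚ QBar := IntermediateField.normalClosure ℚ L QBar
    have : Normal ℚ L' := normalClosure.normal ℚ L QBar
    rw [dec_eq] at hg
    obtain ⟨i, τ, hτ, hag⟩ := CFT.Tangent.exists_frobenius_mul_inertia L' hF hg
    rw [hL g (F ^ i * τ) fun x hx => hag x (L.le_normalClosure hx), map_mul,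
      hD.unram_at Finset.Subset.rfl q hqS τ hτ, mul_one, map_pow, Units.val_pow_eq_pow_val]
    have hsq : ∀ t : M2 (ZMod 2), IsTransp t → t * t = 1 := by decide
    rcases Nat.even_or_odd i with ⟨k, rfl⟩ | ⟨k, rfl⟩
    · left; rw [← two_mul, pow_mul, pow_two, hsq _ hT, one_pow]
    · right; rw [pow_succ, pow_mul, pow_two, hsq _ hT, one_pow, one_mul]
  · rw [show F' = F * (F⁻¹ * F') by group, map_mul,
      hD.unram_at Finset.Subset.rfl q hqS _ (Arith.inv_mul_mem_inertia hF' hF), mul_one]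

theorem exists_killing (hD : Residual r S s) (hρ : Lift r S l₁ N ρ) :
    ∀ (n : ℕ) (T : Finset ℕ) (t : ℕ → M2 (ZMod 2)), (∀ q ∈ T, Allowed r S l₁ ρ q) →
      HasLines r S T s t → {c | IsClass r (S ∪ T) t c}.ncard ≤ n →
      ∃ (T' : Finset ℕ) (t' : ℕ → M2 (ZMod 2)), T'.card ≤ T.card + n ∧
        (∀ q ∈ T', Allowed r S l₁ ρ q) ∧ HasLines r S T' s t' ∧
        ∀ c, IsClass r (S ∪ T') t' c → ∃ y, InV y ∧ ∀ g, c g = conjAct r g y + y := by
  classical
  intro n
  induction n using Nat.strong_induction_on with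
  | _ n ih =>
    intro T t hT hlines hn
    by_cases hall : ∀ c, IsClass r (S ∪ T) t c → ∃ y, InV y ∧ ∀ g, c g = conjAct r g y + y
    · exact ⟨T, t, Nat.le_add_right _ _, hT, hlines, hall⟩
    rw [not_forall] at hall
    obtain ⟨φ, hall⟩ := hall
    rw [Classical.not_imp] at hall
    obtain ⟨hφ, hne⟩ := hall
    -- add a prime `q` at which the remaining class `φ` is off the line of Frobenius
    obtain ⟨q, hq, hqU, F, hF, hFT, hFd, hFc, hFφ⟩ :=
      exists_prime hD hρ (S ∪ T) hφ.cocycle hφ.locConst hne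
    have hqS : q ∉ S := fun h => hqU (Finset.mem_union_left _ h)
    have hqT : q ∉ T := fun h => hqU (Finset.mem_union_right _ h)
    have hu : ∀ v ∈ S ∪ T, v ≠ q := fun v hv h => hqU (h ▸ hv)
    set t' := Function.update t q (r F : M2 (ZMod 2))
    have htv : ∀ v ∈ S ∪ T, t' v = t v := fun v hv => Function.update_of_ne (hu v hv) _ _
    have htq : t' q = (r F : M2 (ZMod 2)) := Function.update_self _ _ _
    obtain ⟨hline, hfrob⟩ := line_of_frobenius hD hqS hF hFT
    have hlines' : HasLines r S (insert q T) s t' := by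
      refine ⟨fun v hv => (htv v (Finset.mem_union_left _ hv)).trans (hlines.1 v hv),
        fun v hv => ?_⟩
      rcases Finset.mem_insert.mp hv with rfl | hv
      · rw [htq]
        exact ⟨hFT, hline, fun F' hF' => hfrob F' hF'⟩
      · rw [htv v (Finset.mem_union_right _ hv)]
        exact hlines.2 v hv
    have hU : ∀ v ∈ S ∪ T, v.Prime := fun v hv =>
      (Finset.mem_union.mp hv).elim (hD.prime v) fun h => (hT v h).1
    have hruU := hD.unram_at (U := S ∪ T) Finset.subset_union_left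
    have ht : ∀ v ∈ S ∪ T, IsTransp (t v) ∧
        ∀ g ∈ dec v, (r g : M2 (ZMod 2)) = 1 ∨ (r g : M2 (ZMod 2)) = t v := fun v hv => by
      rcases Finset.mem_union.mp hv with h | h
      · rw [hlines.1 v h]; exact ⟨hD.transp v h, hD.line v h⟩
      · exact ⟨(hlines.2 v h).1, (hlines.2 v h).2.1⟩
    -- by reciprocity against `φ` the new classes are unramified at `q`
    have hsub : {c | IsClass r (S ∪ insert q T) t' c} ⊆ {c | IsClass r (S ∪ T) t c} :=
      fun c hc => by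
      have hmem : ∀ v ∈ S ∪ T, v ∈ S ∪ insert q T := fun v hv =>
        Finset.union_subset_union_right (Finset.subset_insert q T) hv
      have hline' : ∀ v ∈ S ∪ T, ∀ g ∈ dec v, ((t v + 1) * c g).trace = 0 := fun v hv g hg => by
        rw [← htv v hv]; exact hc.line v (hmem v hv) g hg
      have hoff : ∀ (v : ℕ) [Fact v.Prime], v ∉ S ∪ T → v ≠ q → ∀ σ ∈ inG v, c σ = 0 :=
        fun v _ hv hvq => hc.unram v (by
          simp only [Finset.mem_union, Finset.mem_insert] at hv ⊢; tauto)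
      refine ⟨hc.cocycle, hc.locConst, fun v _ hv σ hσ => ?_, hline'⟩
      rcases eq_or_ne v q with rfl | hvq
      · refine ramified_eq_zero hD.surjective hD.locConst hruU hD.conj
          (Finset.mem_union_left _ hD.two_mem) hU hqU ht hc.cocycle hc.locConst hφ.cocycle
          hφ.locConst hoff hφ.unram hline' hφ.line hFT (fun g hg => ?_) hF hFφ _
          (CFT.Local.padicPlace_liesOverPrime v) σ hσ
        rw [← htq]
        exact hc.line v (Finset.mem_union_right _ (Finset.mem_insert_self _ _)) g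
          (by rw [dec_eq]; exact inG_le_decG v hg)
      · exact hoff v hv hvq σ hσ
    -- and `φ` is not among them
    have hlt : {c | IsClass r (S ∪ insert q T) t' c}.ncard < {c | IsClass r (S ∪ T) t c}.ncard := by
      refine Set.ncard_lt_ncard (hsub.ssubset_of_ne fun h => hFφ ?_)
        (finite_classes hD.locConst hU hruU)
      have := ((Set.ext_iff.mp h φ).mpr hφ).line q
        (Finset.mem_union_right _ (Finset.mem_insert_self _ _)) F
        (by rw [dec_eq]; exact mem_decG_of_frobenius hF)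
      rwa [htq] at this
    obtain ⟨T', t'', hcard, hT', hl', hkill⟩ := ih _ (lt_of_lt_of_le hlt hn) (insert q T) t'
      (fun v hv => (Finset.mem_insert.mp hv).elim
        (fun h => h ▸ Allowed.of_frobenius hD hρ hqS hF hFT hFd hFc) (hT v)) hlines' le_rfl
    refine ⟨T', t'', ?_, hT', hl', hkill⟩
    rw [Finset.card_insert_of_notMem hqT] at hcard
    omega

/-- **Auxiliary primes killing the Selmer group, boundedly many.** -/
theorem exists_T (hD : Residual r S s) :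
    ∃ k, ∀ (l₁ N : ℕ) (ρ : GQ →* (M2 (ZMod (2 ^ N)))ˣ), Lift r S l₁ N ρ →
      ∃ (T : Finset ℕ) (s' : ℕ → M2 (ZMod 2)), T.card ≤ k ∧
        (∀ q ∈ T, Allowed r S l₁ ρ q) ∧ HasLines r S T s s' ∧ Killed r S T s' := by
  refine ⟨{c | IsClass r S s c}.ncard, fun l₁ N ρ hρ => ?_⟩
  obtain ⟨T, s', hcard, hT, hlines, hkill⟩ := exists_killing hD hρ _ ∅ s
    (fun q hq => absurd hq (Finset.notMem_empty q))
    ⟨fun _ _ => rfl, fun q hq => absurd hq (Finset.notMem_empty q)⟩
    (le_of_eq (by rw [Finset.union_empty]))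
  refine ⟨T, s', by simpa using hcard, hT, hlines, fun Z hZL hZi c hc hZ hline => ?_⟩
  refine hkill c ⟨hc, ?_, fun v _ hv σ hσ => hZ σ
    (hZi v Fact.out hv _ (CFT.Local.padicPlace_liesOverPrime v) σ hσ),
    fun v hv g hg => hline ⟨v, hv⟩ g hg⟩
  obtain ⟨L, hLf, hL⟩ := hZL
  refine ⟨L, hLf, fun g g' h => ?_⟩
  have h0 : c (g⁻¹ * g') = 0 := hZ _ (hL _ fun x hx => by
    rw [AlgEquiv.mul_apply, ← h x hx, AlgEquiv.aut_inv, AlgEquiv.symm_apply_apply])
  rw [← mul_inv_cancel_left g g', hc.mul, h0, conjAct_zero, add_zero]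

end Fermat.Agent.LT.Selmer
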