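import Fermat.Agent.LT.Selmer.Chr
import Fermat.Agent.CFT.Flat.Inertia

/-!
# The test at an odd prime

For a cochain vanishing on pairs of inertia elements the functional `testAt` kills coboundaries, and
on a sum of symbols it is the sum of their Hilbert invariants.
-/

set_option autoImplicit false

noncomputable section

namespace Fermat.Agent.LT.Selmer

open Fermat.Agent.Arith (QBar GQ)
open Fermat.Agent.CFT.Flat

variable {v : ℕ} [hv : Fact v.Prime]

/-- The unit part of `a` at `v`. -/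
def unitPart (v : ℕ) (a : ℤ) : ℤ := a / (v : ℤ) ^ padicValInt v a

/-- The parity of the valuation. -/
def valPar (v : ℕ) (a : ℤ) : ZMod 2 := (padicValInt v a : ZMod 2)

omit hv in
/-- An integer is the power of `v` times its unit part. -/
theorem unitPart_mul_pow (a : ℤ) : (v : ℤ) ^ padicValInt v a * unitPart v a = a :=
  Int.mul_ediv_cancel' (padicValInt_dvd a)

omit hv in
/-- The unit part of a nonzero integer is nonzero. -/
theorem unitPart_ne_zero {a : ℤ} (ha : a ≠ 0) : unitPart v a ≠ 0 := fun h =>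
  ha (by rw [← unitPart_mul_pow (v := v) a, h, mul_zero])

/-- The unit part is prime to `v`. -/
theorem not_dvd_unitPart {a : ℤ} (ha : a ≠ 0) : ¬ (v : ℤ) ∣ unitPart v a := fun ⟨k, hk⟩ => by
  have h1 : (v : ℤ) ^ (padicValInt v a + 1) ∣ a :=
    ⟨k, by rw [pow_succ, mul_assoc, ← hk, unitPart_mul_pow]⟩
  rw [padicValInt_dvd_iff] at h1
  rcases h1 with h | h
  · exact ha h
  · omega

theorem ch_decomp {a : ℤ} (ha : a ≠ 0) (g : GQ) :
    ch a g = valPar v a * ch (v : ℤ) g + ch (unitPart v a) g := by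
  have hv0 : (v : ℤ) ≠ 0 := by exact_mod_cast hv.out.ne_zero
  conv_lhs => rw [← unitPart_mul_pow (v := v) a]
  rw [ch_mul (pow_ne_zero _ hv0) (unitPart_ne_zero ha), ch_pow hv0]
  rfl

theorem nrm_intCast_eq_one {a : ℤ} (ha : ¬ (v : ℤ) ∣ a) : nrm v (a : QBar) = 1 :=
  le_antisymm (nrm_intCast_le_one v a) (not_lt.mp fun hlt =>
    ha ((Arith.intCast_mem_nonunits_iff (CFT.Local.padicPlace_liesOverPrime v) hv.out a).mp
      ((mem_nonunits_iff v).mpr hlt)))

theorem nrm_rt_sq (a : ℤ) : nrm v (rt (a : QBar)) * nrm v (rt (a : QBar)) = nrm v (a : QBar) := by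
  rw [← nrm_mul, ← pow_two, rt_sq]

theorem nrm_rt_unit {a : ℤ} (ha : ¬ (v : ℤ) ∣ a) : nrm v (rt (a : QBar)) = 1 := by
  have h := nrm_rt_sq (v := v) a
  rw [nrm_intCast_eq_one ha] at h
  nlinarith [nrm_nonneg v (rt (a : QBar))]

/-- Signs congruent modulo an odd place are equal. -/
theorem pm_eq_of_congr (hv2 : v ≠ 2) {x : QBar} (hx : nrm v x = 1) {e e' : ZMod 2}
    (h : nrm v (pm e * x - pm e' * x) < 1) : e = e' := by
  by_contra hne
  have h2 : nrm v (2 : QBar) = 1 := by
    have := nrm_natCast_eq_one v (n := 2) fun hd =>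
      hv2 ((Nat.prime_dvd_prime_iff_eq hv.out Nat.prime_two).mp hd)
    simpa using this
  rcases pm_cases e with rfl | rfl <;> rcases pm_cases e' with rfl | rfl <;>
    first
    | exact hne rfl
    | (rw [pm_zero, pm_one] at h
       first
       | rw [show (1 : QBar) * x - -1 * x = 2 * x by ring, nrm_mul, h2, hx, one_mul] at h
       | rw [show -1 * x - (1 : QBar) * x = -(2 * x) by ring, nrm_neg, nrm_mul, h2, hx,
         one_mul] at h
       exact lt_irrefl _ h)

/-- Inertia at an odd prime fixes the square roots of units there. -/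
theorem ch_inertia_unit (hv2 : v ≠ 2) {a : ℤ} (ha : ¬ (v : ℤ) ∣ a) {τ : GQ} (hτ : τ ∈ inG v) :
    ch a τ = 0 := by
  have ha0 : a ≠ 0 := fun h => ha (h ▸ dvd_zero _)
  have h := nrm_sub_lt_one_of_mem_inG v hτ (nrm_rt_unit ha).le
  rw [map_rt_ch ha0] at h
  refine pm_eq_of_congr hv2 (nrm_rt_unit ha) ?_
  rwa [pm_zero, one_mul]

open Classical in
/-- The quadratic residue indicator of an integer prime to `v`. -/
def resPar (v : ℕ) [Fact v.Prime] (a : ℤ) : ZMod 2 := if legendreSym v a = -1 then 1 else 0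

/-- The character of a unit at a Frobenius is its quadratic residue indicator. -/
theorem ch_frobenius_unit (hv2 : v ≠ 2) {a : ℤ} (ha : ¬ (v : ℤ) ∣ a) {F : GQ}
    (hF : (padicPlace v).IsFrobeniusAt F v) : ch a F = resPar v a := by
  have ha0 : a ≠ 0 := fun h => ha (h ▸ dvd_zero _)
  have hx := nrm_rt_unit ha
  have h := (mem_nonunits_iff v).mp
    ((Arith.isFrobeniusAt_iff_forall_mem.mp hF).2 _ ((mem_place_iff v).mpr hx.le))
  rw [map_rt_ch ha0] at h
  obtain ⟨k, hk⟩ := hv.out.odd_of_ne_two hv2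
  have hpow : rt (a : QBar) ^ v = ((a ^ (v / 2) : ℤ) : QBar) * rt (a : QBar) := by
    have hk2 : v / 2 = k := by omega
    rw [hk2]
    conv_lhs => rw [hk, pow_succ, pow_mul, rt_sq]
    push_cast
    ring
  have hleg : (v : ℤ) ∣ a ^ (v / 2) - legendreSym v a := by
    rw [← ZMod.intCast_zmod_eq_zero_iff_dvd]
    push_cast
    rw [legendreSym.eq_pow, sub_self]
  have hclose : nrm v (((a ^ (v / 2) : ℤ) : QBar) * rt (a : QBar) -
      pm (resPar v a) * rt (a : QBar)) < 1 := by
    rw [← sub_mul, nrm_mul, hx, mul_one]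
    have hL : pm (resPar v a) = ((legendreSym v a : ℤ) : QBar) := by
      have hne : ((a : ZMod v)) ≠ 0 := by rwa [Ne, ZMod.intCast_zmod_eq_zero_iff_dvd]
      rcases legendreSym.eq_one_or_neg_one v hne with e | e <;>
        simp [resPar, e, pm_zero, pm_one]
    rw [hL, ← Int.cast_sub]
    refine (mem_nonunits_iff v).mp ?_
    exact (Arith.intCast_mem_nonunits_iff (CFT.Local.padicPlace_liesOverPrime v) hv.out _).mpr hleg
  refine pm_eq_of_congr hv2 hx ?_
  rw [hpow] at h
  have := nrm_add_lt_of_lt v h hclose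
  rwa [sub_add_sub_cancel] at this

/-- Some inertia element at `v` moves the square root of `v`. -/
theorem exists_inertia_ch_prime : ∃ τ ∈ inG v, ch (v : ℤ) τ = 1 := by
  by_contra! hno
  have hv0 : (v : ℤ) ≠ 0 := by exact_mod_cast hv.out.ne_zero
  have hfix : ∀ g ∈ inG v, g (rt ((v : ℤ) : QBar)) = rt ((v : ℤ) : QBar) := fun g hg => by
    rw [map_rt_ch hv0, show ch (v : ℤ) g = 0 from (pm_cases _).resolve_right (hno g hg), pm_zero,
      one_mul]
  have hsq := nrm_rt_sq (v := v) (v : ℤ)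
  rw [Int.cast_natCast, nrm_natCast_self] at hsq
  rw [Int.cast_natCast] at hfix
  have h0 := nrm_nonneg v (rt (v : QBar))
  have hlt : nrm v (rt (v : QBar)) < 1 := by nlinarith [inv_cast_lt_one v]
  have := nrm_le_inv_of_fixed hfix hlt
  nlinarith [inv_cast_pos v, inv_cast_lt_one v]

theorem conj_mem_inG {F τ : GQ} (hF : (padicPlace v).IsFrobeniusAt F v) (hτ : τ ∈ inG v) :
    F * τ * F⁻¹ ∈ inG v := by
  have h := (Arith.mem_inertia_smul_iff (g := F) (σ := τ) (A := padicPlace v)).mpr hτ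
  rwa [(Arith.isFrobeniusAt_iff_forall_mem.mp hF).1] at h

/-- Homomorphisms of finite level on inertia are multiples of the tame one. -/
theorem exists_mul_ch_of_hom (hv2 : v ≠ 2) {ν : GQ → ZMod 2} (hν : LocConst ν)
    (hhom : ∀ g ∈ inG v, ∀ h ∈ inG v, ν (g * h) = ν g + ν h) :
    ∃ k : ZMod 2, ∀ τ ∈ inG v, ν τ = k * ch (v : ℤ) τ := by
  have hv0 : (v : ℤ) ≠ 0 := by exact_mod_cast hv.out.ne_zero
  obtain ⟨w, hw0, hw⟩ := exists_kummer (P := Unit) (π := triv) (inG v) triv_locConst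
    (fun g _ => ν g) (hν.map fun x _ => x) (fun g hg h hh _ => hhom g hg h hh) ()
  set x := w ()
  have hτx : ∀ τ ∈ inG v, τ x = pm (ν τ) * x := fun τ hτ => hw τ hτ ()
  have hfix : ∀ g ∈ inG v, g (x ^ 2) = x ^ 2 := fun g hg => by
    rw [map_pow, hτx g hg, mul_pow, _root_.sq (pm _), pm_sq, one_mul]
  obtain ⟨k, hk⟩ := isLevel_inG.nrm_pow_relIndex (pow_ne_zero 2 hw0) hfix
  rw [Subgroup.relIndex_self, pow_one, nrm_pow] at hk
  refine ⟨(k : ZMod 2), fun τ hτ => ?_⟩
  set s := rt ((v : ℤ) : QBar)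
  have hs : s ≠ 0 := rt_ne_zero hv0
  set y := x / s ^ k
  have hy : nrm v y = 1 := by
    have hs2 : nrm v s ^ 2 = (v : ℝ)⁻¹ := by
      rw [pow_two, nrm_rt_sq, Int.cast_natCast, nrm_natCast_self]
    have hsn : 0 < nrm v s := nrm_pos v hs
    have hz : nrm v (s ^ k) = nrm v s ^ k := by simp [nrm, norm_zpow]
    have : nrm v y ^ 2 = 1 := by
      rw [show y = x / s ^ k from rfl, nrm_div, hz, div_pow, hk, ← hs2,
        ← zpow_natCast (nrm v s ^ k),
        ← zpow_mul, ← zpow_natCast (nrm v s) 2, ← zpow_mul, mul_comm k (2 : ℕ)]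
      exact div_self (zpow_ne_zero _ hsn.ne')
    nlinarith [nrm_nonneg v y]
  have hty : τ y = pm (ν τ + (k : ZMod 2) * ch (v : ℤ) τ) * y := by
    have hpk : ∀ e : ZMod 2, pm e ^ k = pm ((k : ZMod 2) * e) := fun e => by
      rcases pm_cases e with rfl | rfl
      · rw [mul_zero, pm_zero, one_zpow]
      · rcases Int.even_or_odd k with he | ho
        · rw [mul_one, pm_one, he.neg_one_zpow,
            show (k : ZMod 2) = 0 from ZMod.intCast_eq_zero_iff_even.mpr he, pm_zero]
        · rw [mul_one, pm_one, ho.neg_one_zpow,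
            show (k : ZMod 2) = 1 from ZMod.intCast_eq_one_iff_odd.mpr ho, pm_one]
    rw [show y = x / s ^ k from rfl, map_div₀, map_zpow₀, hτx τ hτ, map_rt_ch hv0, mul_zpow, hpk,
      pm_add, div_eq_mul_inv, mul_inv, inv_eq_of_mul_eq_one_right (pm_sq _)]
    ring
  have h := nrm_sub_lt_one_of_mem_inG v hτ hy.le
  rw [hty] at h
  have h0 : ν τ + (k : ZMod 2) * ch (v : ℤ) τ = 0 :=
    pm_eq_of_congr hv2 hy (by rwa [pm_zero, one_mul])
  linear_combination h0 - CharTwo.add_self_eq_zero ((k : ZMod 2) * ch (v : ℤ) τ)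

theorem testAt_eq_zero (hv2 : v ≠ 2) {ν : GQ → ZMod 2} (hν : LocConst ν)
    (h0 : ∀ g ∈ inG v, ∀ h ∈ inG v, dlt ν g h = 0) {F τ : GQ}
    (hF : (padicPlace v).IsFrobeniusAt F v) (hτ : τ ∈ inG v) : testAt (dlt ν) F τ = 0 := by
  obtain ⟨k, hk⟩ := exists_mul_ch_of_hom hv2 hν fun g hg h hh => by
    have := h0 g hg h hh
    simp only [dlt] at this
    linear_combination -this + CharTwo.add_self_eq_zero (ν (g * h))
  rw [testAt_dlt, hk τ hτ, hk _ (conj_mem_inG hF hτ),
    ch_conj (by exact_mod_cast hv.out.ne_zero), CharTwo.add_self_eq_zero]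

/-- The Hilbert invariant at an odd prime. -/
def hOdd (v : ℕ) [Fact v.Prime] (a b : ℤ) : ZMod 2 :=
  valPar v a * resPar v (unitPart v b) + resPar v (unitPart v a) * valPar v b +
    valPar v a * valPar v b * resPar v (-1)

/-- A Frobenius element at `v` lies in the decomposition group. -/
theorem mem_decG_of_frobenius {F : GQ} (hF : (padicPlace v).IsFrobeniusAt F v) : F ∈ decG v :=
  hF.choose

theorem not_dvd_neg_one : ¬ (v : ℤ) ∣ -1 := by
  rw [dvd_neg]
  exact (Nat.prime_iff_prime_int.mp hv.out).not_dvd_one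

/-- A symbol is equivalent to a cochain vanishing on inertia with known test value. -/
theorem exists_model (hv2 : v ≠ 2) {a b : ℤ} (ha : a ≠ 0) (hb : b ≠ 0) :
    ∃ g : Cochain, SimOn Set.univ (sym a b) g ∧ (∀ x ∈ inG v, ∀ y ∈ inG v, g x y = 0) ∧
      ∀ F τ : GQ, (padicPlace v).IsFrobeniusAt F v → τ ∈ inG v →
        testAt g F τ = hOdd v a b * ch (v : ℤ) τ := by
  have hv0 : (v : ℤ) ≠ 0 := by exact_mod_cast hv.out.ne_zero
  set α := valPar v a
  set β := valPar v b
  set a' := unitPart v a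
  set b' := unitPart v b
  have hA := not_dvd_unitPart (v := v) ha
  have hB := not_dvd_unitPart (v := v) hb
  refine ⟨fun x y => α * β * (ch (v : ℤ) x * ch (-1) y) + α * (ch (v : ℤ) x * ch b' y) +
    β * (ch a' x * ch (v : ℤ) y) + ch a' x * ch b' y, ?_, fun x hx y hy => ?_, fun F τ hF hτ => ?_⟩
  · obtain ⟨ν, hν, e⟩ := cobOn_sym_self (D := Set.univ) hv0
    refine ⟨fun g => α * β * ν g, hν.map (α * β * ·), fun x hx y hy => ?_⟩
    have := e x hx y hy
    simp only [Pi.add_apply, sym_apply, dlt] at this ⊢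
    rw [ch_decomp (v := v) ha, ch_decomp (v := v) hb]
    linear_combination α * β * this +
      CharTwo.add_self_eq_zero (α * (ch (v : ℤ) x * ch b' y)) +
      CharTwo.add_self_eq_zero (β * (ch a' x * ch (v : ℤ) y)) +
      CharTwo.add_self_eq_zero (ch a' x * ch b' y)
  · simp only [a', b', ch_inertia_unit hv2 hA hx, ch_inertia_unit hv2 hB hy,
      ch_inertia_unit hv2 (not_dvd_neg_one (v := v)) hy, mul_zero, zero_mul, add_zero]
  · have hτ' := conj_mem_inG hF hτ
    simp only [testAt, a', b', ch_inertia_unit hv2 hA hτ', ch_inertia_unit hv2 hB hτ,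
      ch_inertia_unit hv2 (not_dvd_neg_one (v := v)) hτ, ch_conj hv0,
      ch_frobenius_unit hv2 hA hF, ch_frobenius_unit hv2 hB hF,
      ch_frobenius_unit hv2 (not_dvd_neg_one (v := v)) hF, hOdd]
    ring

/-- **The test at an odd prime.** -/
theorem testAt_eq_sum (hv2 : v ≠ 2) {L : List (ℤ × ℤ)} (hL : ∀ p ∈ L, p.1 ≠ 0 ∧ p.2 ≠ 0)
    {f : Cochain} (hsim : SimOn (decG v : Set GQ) f (L.map fun p => sym p.1 p.2).sum)
    (hf : ∀ g ∈ inG v, ∀ h ∈ inG v, f g h = 0) {F τ : GQ}
    (hF : (padicPlace v).IsFrobeniusAt F v) (hτ : τ ∈ inG v) :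
    testAt f F τ = (L.map fun p => hOdd v p.1 p.2).sum * ch (v : ℤ) τ := by
  have key : ∃ G : Cochain, SimOn Set.univ (L.map fun p => sym p.1 p.2).sum G ∧
      (∀ x ∈ inG v, ∀ y ∈ inG v, G x y = 0) ∧
        testAt G F τ = (L.map fun p => hOdd v p.1 p.2).sum * ch (v : ℤ) τ := by
    clear hsim
    induction L with
    | nil => exact ⟨0, by simpa using SimOn.refl 0, fun _ _ _ _ => rfl, by simp [testAt]⟩
    | cons p L ih =>
      obtain ⟨G, hG, hG0, hGT⟩ := ih fun q hq => hL q (List.mem_cons_of_mem p hq)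
      obtain ⟨g, hg, hg0, hgT⟩ := exists_model hv2 (hL p List.mem_cons_self).1
        (hL p List.mem_cons_self).2
      refine ⟨g + G, ?_, fun x hx y hy => ?_, ?_⟩
      · rw [List.map_cons, List.sum_cons]; exact hg.add hG
      · simp [hg0 x hx y hy, hG0 x hx y hy]
      · rw [testAt_add, hgT F τ hF hτ, hGT, List.map_cons, List.sum_cons, add_mul]
  obtain ⟨G, hG, hG0, hGT⟩ := key
  obtain ⟨ν, hν, e⟩ := hsim.trans (CobOn.mono (Set.subset_univ _) hG : SimOn _ _ G)
  have hle : inG v ≤ decG v := inG_le_decG v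
  have h0 : testAt (f + G) F τ = 0 := by
    have hFd := mem_decG_of_frobenius hF
    rw [← testAt_eq_zero hv2 hν (fun g hg h hh => by
      rw [← e g (hle hg) h (hle hh), Pi.add_apply, Pi.add_apply, hf g hg h hh, hG0 g hg h hh,
        add_zero]) hF hτ]
    simp only [testAt]
    rw [e F hFd τ (hle hτ), e _ (hle (conj_mem_inG hF hτ)) F hFd]
  rw [testAt_add, hGT] at h0
  linear_combination h0 - CharTwo.add_self_eq_zero
    ((L.map fun p => hOdd v p.1 p.2).sum * ch (v : ℤ) τ)

end Fermat.Agent.LT.Selmer
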