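import Fermat.Agent.LT.Selmer.Chr
import Fermat.Agent.LT.Selmer.LocalOdd

/-!
# Symbols at `2`

On the decomposition group every symbol is zero or `(-1, -1)` up to coboundaries, and `(-1, -1)` is
not a coboundary as `x ^ 2 + y ^ 2 = -1` has no solution in `ℚ₂`.
-/

set_option autoImplicit false

noncomputable section

namespace Fermat.Agent.LT.Selmer

open Fermat.Agent.Arith (QBar GQ)
open Fermat.Agent.CFT.Flat

local notation "D₂" => (decG 2 : Set GQ)

/-- Integers `≡ 1 (mod 8)` are squares on the decomposition group. -/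
theorem ch_two_eq_zero {u : ℤ} (hu : (8 : ℤ) ∣ u - 1) {g : GQ} (hg : g ∈ decG 2) : ch u g = 0 := by
  obtain ⟨m, hm⟩ := hu
  have hu0 : u ≠ 0 := by omega
  set x := rt (u : QBar)
  set y := (1 + x) / 2 with hy
  have hrel : y ^ 2 - y = ((2 * m : ℤ) : QBar) := by
    have hx : x ^ 2 = (u : QBar) := rt_sq _
    rw [show u = 8 * m + 1 by omega] at hx
    push_cast at hx ⊢
    rw [hy]
    linear_combination hx / 4
  have hsmall : nrm 2 (y * (y - 1)) < 1 := by
    rw [show y * (y - 1) = y ^ 2 - y by ring, hrel, Int.cast_mul, nrm_mul]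
    refine (mul_le_of_le_one_right (nrm_nonneg 2 _) (nrm_intCast_le_one 2 m)).trans_lt ?_
    rw [show ((2 : ℤ) : QBar) = ((2 : ℕ) : QBar) by norm_cast, nrm_natCast_self]
    exact inv_cast_lt_one 2
  have hg' : g y = y ∨ g y = 1 - y := by
    have e : (g y) ^ 2 - g y = y ^ 2 - y := by
      rw [← map_pow, ← map_sub, hrel, map_intCast]
    have : (g y - y) * (g y - (1 - y)) = 0 := by linear_combination e
    rcases mul_eq_zero.mp this with h | h
    · exact Or.inl (sub_eq_zero.mp h)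
    · exact Or.inr (sub_eq_zero.mp h)
  refine ch_eq_zero hu0 ?_
  suffices g y = y by
    rw [hy, map_div₀, map_add, map_one, map_ofNat] at this
    simpa using this
  rcases hg' with h | h
  · exact h
  exfalso
  have hgy : nrm 2 (1 - y) = nrm 2 y := by rw [← h, nrm_map 2 hg]
  rw [nrm_mul, nrm_sub_comm 2 y 1, hgy] at hsmall
  have hlt : nrm 2 y < 1 := by nlinarith [nrm_nonneg 2 y]
  have := nrm_add_lt_of_lt 2 (hgy.trans_lt hlt) hlt
  rw [sub_add_cancel, nrm_one] at this
  exact lt_irrefl _ this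

/-- The parity of `(a - 1) / 2`, for odd `a`. -/
def e₁ (a : ℤ) : ZMod 2 := if a % 4 = 3 then 1 else 0

/-- The parity of `(a ^ 2 - 1) / 8`, for odd `a`. -/
def e₂ (a : ℤ) : ZMod 2 := if a % 8 = 3 ∨ a % 8 = 5 then 1 else 0

/-- On the decomposition group at `2` the character of an odd integer comes from those of `-1`
and `5`. -/
theorem ch_two_odd {a : ℤ} (ha : ¬ (2 : ℤ) ∣ a) {g : GQ} (hg : g ∈ decG 2) :
    ch a g = e₁ a * ch (-1) g + e₂ a * ch 5 g := by
  have ha0 : a ≠ 0 := fun h => ha (h ▸ dvd_zero _)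
  have h5 : (5 : ℤ) ≠ 0 := by norm_num
  have h1 : (-1 : ℤ) ≠ 0 := by norm_num
  have h15 : ch (-15) g = 0 → ch a g + ch (-1) g + ch 5 g = ch (a * (-1) * 5) g := fun _ => by
    rw [ch_mul (mul_ne_zero ha0 h1) h5, ch_mul ha0 h1]
  obtain h | h | h | h : a % 8 = 1 ∨ a % 8 = 3 ∨ a % 8 = 5 ∨ a % 8 = 7 := by omega
  · rw [show e₁ a = 0 by unfold e₁; rw [if_neg (by omega)],
      show e₂ a = 0 by unfold e₂; rw [if_neg (by omega)], zero_mul, zero_mul, add_zero]
    exact ch_two_eq_zero (by omega) hg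
  · rw [show e₁ a = 1 by unfold e₁; rw [if_pos (by omega)],
      show e₂ a = 1 by unfold e₂; rw [if_pos (by omega)], one_mul, one_mul]
    have := ch_two_eq_zero (u := a * (-1) * 5) (by omega) hg
    rw [ch_mul (mul_ne_zero ha0 h1) h5, ch_mul ha0 h1] at this
    linear_combination this - CharTwo.add_self_eq_zero (ch (-1) g + ch 5 g)
  · rw [show e₁ a = 0 by unfold e₁; rw [if_neg (by omega)],
      show e₂ a = 1 by unfold e₂; rw [if_pos (by omega)], zero_mul, zero_add, one_mul]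
    have := ch_two_eq_zero (u := a * 5) (by omega) hg
    rw [ch_mul ha0 h5] at this
    linear_combination this - CharTwo.add_self_eq_zero (ch 5 g)
  · rw [show e₁ a = 1 by unfold e₁; rw [if_pos (by omega)],
      show e₂ a = 0 by unfold e₂; rw [if_neg (by omega)], zero_mul, one_mul, add_zero]
    have := ch_two_eq_zero (u := a * (-1)) (by omega) hg
    rw [ch_mul ha0 h1] at this
    linear_combination this - CharTwo.add_self_eq_zero (ch (-1) g)

theorem ch_three {g : GQ} (hg : g ∈ decG 2) : ch 3 g = ch (-1) g + ch 5 g := by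
  rw [ch_two_odd (by norm_num) hg, show e₁ 3 = 1 from rfl, show e₂ 3 = 1 from rfl, one_mul, one_mul]

/-- The invariant at `2`. -/
def hTwo (a b : ℤ) : ZMod 2 :=
  e₁ (unitPart 2 a) * e₁ (unitPart 2 b) + valPar 2 a * e₂ (unitPart 2 b) +
    e₂ (unitPart 2 a) * valPar 2 b

theorem cobOn_table :
    CobOn D₂ (sym 2 2) ∧ CobOn D₂ (sym 2 (-1)) ∧ CobOn D₂ (sym (-1) 2) ∧ CobOn D₂ (sym (-1) 5) ∧
      CobOn D₂ (sym 5 (-1)) ∧ CobOn D₂ (sym 5 5) ∧ CobOn D₂ (sym 2 5 + sym (-1) (-1)) ∧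
        CobOn D₂ (sym 5 2 + sym (-1) (-1)) := by
  have h1 : (-1 : ℤ) ≠ 0 := by norm_num
  have h2 : (2 : ℤ) ≠ 0 := by norm_num
  have h5 : (5 : ℤ) ≠ 0 := by norm_num
  have a2 : CobOn D₂ (sym 2 (-1)) := cobOn_sym_steinberg h2 h1 (by norm_num)
  have a3 : CobOn D₂ (sym (-1) 2) := cobOn_sym_steinberg h1 h2 (by norm_num)
  have a1 : CobOn D₂ (sym 2 2) := ((cobOn_sym_self h2).add a2).congr fun g _ k _ => by
    simp only [Pi.add_apply]; linear_combination CharTwo.add_self_eq_zero (sym 2 (-1) g k)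
  have a4 : CobOn D₂ (sym (-1) 5) :=
    (cobOn_sym_steinberg (a := -4) (b := 5) (by norm_num) h5 (by norm_num)).congr fun g _ k _ => by
      rw [sym_apply, sym_apply, show (-4 : ℤ) = -1 * (2 * 2) by norm_num,
        ch_mul h1 (by norm_num), ch_mul h2 h2, CharTwo.add_self_eq_zero, add_zero]
  have a5 : CobOn D₂ (sym 5 (-1)) := ((cobOn_sym_symm h5 h1).add a4).congr fun g _ k _ => by
    simp only [Pi.add_apply]; linear_combination CharTwo.add_self_eq_zero (sym (-1) 5 g k)
  have a6 : CobOn D₂ (sym 5 5) := ((cobOn_sym_self h5).add a5).congr fun g _ k _ => by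
    simp only [Pi.add_apply]; linear_combination CharTwo.add_self_eq_zero (sym 5 (-1) g k)
  have a7 : CobOn D₂ (sym 2 5 + sym (-1) (-1)) :=
    (((cobOn_sym_steinberg (D := D₂) (a := -2) (b := 3) (by norm_num) (by norm_num)
      (by norm_num)).add a4).add a2).congr fun g hg k hk => by
      simp only [Pi.add_apply, sym_apply, show (-2 : ℤ) = -1 * 2 by norm_num, ch_mul h1 h2,
        ch_three hk]
      linear_combination CharTwo.add_self_eq_zero (ch (-1) g * ch 5 k) +
        CharTwo.add_self_eq_zero (ch 2 g * ch (-1) k)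
  refine ⟨a1, a2, a3, a4, a5, a6, a7, ?_⟩
  exact ((cobOn_sym_symm h5 h2).add a7).congr fun g _ k _ => by
    simp only [Pi.add_apply]; linear_combination CharTwo.add_self_eq_zero (sym 2 5 g k)

theorem CobOn.smul {D : Set GQ} {f : Cochain} (c : ZMod 2) (h : CobOn D f) :
    CobOn D fun g k => c * f g k := by
  obtain ⟨ν, hν, e⟩ := h
  exact ⟨fun g => c * ν g, hν.map (c * ·), fun g hg k hk => by
    show c * f g k = _
    rw [e g hg k hk, dlt, dlt]; ring⟩

theorem sim_two {a b : ℤ} (ha : a ≠ 0) (hb : b ≠ 0) :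
    CobOn D₂ fun g k => sym a b g k + hTwo a b * sym (-1) (-1) g k := by
  obtain ⟨a1, a2, a3, a4, a5, a6, a7, a8⟩ := cobOn_table
  have hA : ¬ (2 : ℤ) ∣ unitPart 2 a := not_dvd_unitPart (v := 2) ha
  have hB : ¬ (2 : ℤ) ∣ unitPart 2 b := not_dvd_unitPart (v := 2) hb
  set α := valPar 2 a
  set β := valPar 2 b
  set x₁ := e₁ (unitPart 2 a)
  set x₂ := e₂ (unitPart 2 a)
  set y₁ := e₁ (unitPart 2 b)
  set y₂ := e₂ (unitPart 2 b)
  refine (((((((a1.smul (α * β)).add (a2.smul (α * y₁))).add (a3.smul (x₁ * β))).add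
    (a4.smul (x₁ * y₂))).add (a5.smul (x₂ * y₁))).add (a6.smul (x₂ * y₂))).add
    ((a7.smul (α * y₂)).add (a8.smul (x₂ * β)))).congr fun g hg k hk => ?_
  simp only [Pi.add_apply, sym_apply, hTwo]
  rw [ch_decomp (v := 2) ha g, ch_decomp (v := 2) hb k, ch_two_odd hA hg, ch_two_odd hB hk,
    show ((2 : ℕ) : ℤ) = 2 from rfl]
  linear_combination -CharTwo.add_self_eq_zero (x₁ * y₁ * (ch (-1) g * ch (-1) k))

theorem sim_two_sum {L : List (ℤ × ℤ)} (hL : ∀ p ∈ L, p.1 ≠ 0 ∧ p.2 ≠ 0) :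
    CobOn D₂ fun g k => (L.map fun p => sym p.1 p.2).sum g k +
      (L.map fun p => hTwo p.1 p.2).sum * sym (-1) (-1) g k := by
  induction L with
  | nil => exact CobOn.zero.congr fun g _ k _ => by simp
  | cons p L ih =>
    refine ((sim_two (hL p List.mem_cons_self).1 (hL p List.mem_cons_self).2).add
      (ih fun q hq => hL q (List.mem_cons_of_mem p hq))).congr fun g _ k _ => ?_
    simp only [List.map_cons, List.sum_cons, Pi.add_apply]
    ring

theorem exists_padic_of_fixed {x : QBar} (h : ∀ g ∈ decG 2, g x = x) :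
    ∃ a : ℚ_[2], algebraMap ℚ_[2] (PadicAlgCl 2) a = padicEmbedding 2 x := by
  have : Normal ℚ QBar := IsAlgClosure.normal ℚ QBar
  have := IntermediateField.adjoin.finiteDimensional (K := ℚ)
    (Algebra.IsIntegral.isIntegral (R := ℚ) x)
  set L := IntermediateField.normalClosure ℚ (IntermediateField.adjoin ℚ {x}) QBar
  have : Normal ℚ L := normalClosure.normal ℚ _ QBar
  have hx : x ∈ L := IntermediateField.le_normalClosure _
    (IntermediateField.mem_adjoin_simple_self ℚ x)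
  set E := CFT.Local.localField 2 L
  have : IsGalois ℚ_[2] E := ⟨⟩
  obtain ⟨a, ha⟩ := (IsGalois.mem_range_algebraMap_iff_fixed (F := ℚ_[2])
    (CFT.Local.localEmb 2 L ⟨x, hx⟩)).mpr fun σ => by
      rw [← CFT.Local.localEmb_toGlobal]
      congr 1
      exact Subtype.ext ((AlgEquiv.restrictNormal_commutes _ L ⟨x, hx⟩).trans
        (h _ (localGaloisToGlobal_mem_decompositionSubgroup 2 _)))
  exact ⟨a, congrArg Subtype.val ha⟩

/-- `x ^ 2 + y ^ 2 = -1` has no solution in `ℚ₂`. -/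
theorem sq_add_sq_ne_neg_one (a b : ℚ_[2]) : a ^ 2 + b ^ 2 ≠ -1 := by
  intro h
  -- scale `(a, b, 1)` to integral coordinates, one of them `1`; modulo `8` a sum of three squares
  -- one of which is `1` is not zero
  obtain ⟨t, ht, h1, ha, hb, hone⟩ : ∃ t : ℚ_[2], t ≠ 0 ∧ ‖t⁻¹‖ ≤ 1 ∧ ‖a / t‖ ≤ 1 ∧ ‖b / t‖ ≤ 1 ∧
      (t⁻¹ = 1 ∨ a / t = 1 ∨ b / t = 1) := by
    by_cases h1 : ‖a‖ ≤ 1 ∧ ‖b‖ ≤ 1
    · exact ⟨1, one_ne_zero, by simp, by simpa using h1.1, by simpa using h1.2, Or.inl inv_one⟩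
    rw [not_and_or, not_le, not_le] at h1
    rcases le_total ‖a‖ ‖b‖ with hab | hab
    · have hb1 : 1 < ‖b‖ := h1.elim (fun h => h.trans_le hab) id
      have hb0 : b ≠ 0 := fun e => by simp [e] at hb1; linarith
      refine ⟨b, hb0, ?_, ?_, by simp [hb0], Or.inr (Or.inr (div_self hb0))⟩
      · rw [norm_inv]; exact inv_le_one_of_one_le₀ hb1.le
      · rw [norm_div, div_le_one (norm_pos_iff.mpr hb0)]; exact hab
    · have ha1 : 1 < ‖a‖ := h1.elim id fun h => h.trans_le hab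
      have ha0 : a ≠ 0 := fun e => by simp [e] at ha1; linarith
      refine ⟨a, ha0, ?_, by simp [ha0], ?_, Or.inr (Or.inl (div_self ha0))⟩
      · rw [norm_inv]; exact inv_le_one_of_one_le₀ ha1.le
      · rw [norm_div, div_le_one (norm_pos_iff.mpr ha0)]; exact hab
  let X : ℤ_[2] := ⟨a / t, ha⟩
  let Y : ℤ_[2] := ⟨b / t, hb⟩
  let Z : ℤ_[2] := ⟨t⁻¹, h1⟩
  have hsum : X ^ 2 + Y ^ 2 + Z ^ 2 = 0 := by
    refine Subtype.ext ?_
    show (a / t) ^ 2 + (b / t) ^ 2 + (t⁻¹) ^ 2 = 0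
    field_simp
    linear_combination h
  have h8 := congrArg (PadicInt.toZModPow (p := 2) 3) hsum
  rw [map_add, map_add, map_pow, map_pow, map_pow, map_zero] at h8
  have key : ∀ x y : ZMod (2 ^ 3), x ^ 2 + y ^ 2 + 1 ≠ 0 := by decide
  rcases hone with h | h | h
  · rw [show Z = 1 from Subtype.ext h, map_one, one_pow] at h8
    exact key _ _ h8
  · rw [show X = 1 from Subtype.ext h, map_one, one_pow] at h8
    exact key (PadicInt.toZModPow 3 Y) (PadicInt.toZModPow 3 Z) (by linear_combination h8)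
  · rw [show Y = 1 from Subtype.ext h, map_one, one_pow] at h8
    exact key (PadicInt.toZModPow 3 X) (PadicInt.toZModPow 3 Z) (by linear_combination h8)

/-- **`(-1, -1)` is not trivial at `2`.** -/
theorem not_cobOn_neg_one : ¬ CobOn D₂ (sym (-1) (-1)) := by
  rintro ⟨ν, hν, e⟩
  -- Suppose the symbol is the coboundary of `ν` on `decG 2`, and put `i = √-1`. On the subgroup
  -- `H` fixing `i` the cochain `ν` is additive, so it is the sign of some `z`. For `g` moving `i`
  -- the element `η = g z / z` is fixed by `H`, hence lies in `ℚ₂(i)`, and `η * g η = -1` as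
  -- `ν (g * g) = 1`. Writing `η = a + b i` gives `a ^ 2 + b ^ 2 = -1`.
  have h1 : (-1 : ℤ) ≠ 0 := by norm_num
  set i := rt (((-1 : ℤ)) : QBar)
  have hi : i ^ 2 = -1 := by rw [rt_sq]; norm_num
  have hi0 : i ≠ 0 := rt_ne_zero h1
  -- some element of the decomposition group moves `i`: else `-1` would be a square in `ℚ₂`
  by_cases hall : ∀ g ∈ decG 2, ch (-1) g = 0
  · obtain ⟨a, ha⟩ := exists_padic_of_fixed (x := i) fun g hg => by
      rw [map_rt_ch h1, hall g hg, pm_zero, one_mul]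
    refine sq_add_sq_ne_neg_one a 0 ((algebraMap ℚ_[2] (PadicAlgCl 2)).injective ?_)
    rw [map_add, map_pow, map_pow, map_zero, ha, ← map_pow, hi, map_neg, map_neg, map_one, map_one]
    ring
  simp only [not_forall] at hall
  obtain ⟨g, hg, hg1⟩ := hall
  replace hg1 : ch (-1) g = 1 := (pm_cases _).resolve_left hg1
  let H : Subgroup GQ := decG 2 ⊓ MulAction.stabilizer GQ i
  have hH : ∀ k, k ∈ H ↔ k ∈ decG 2 ∧ ch (-1) k = 0 := fun k => by
    refine ⟨fun hk => ⟨hk.1, ch_eq_zero h1 hk.2⟩, fun hk => ⟨hk.1, ?_⟩⟩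
    show k i = i
    rw [map_rt_ch h1, hk.2, pm_zero, one_mul]
  have hν_mul : ∀ x ∈ decG 2, ∀ y ∈ decG 2, ν (x * y) = ν x + ν y + ch (-1) x * ch (-1) y :=
    fun x hx y hy => by
      have := e x hx y hy
      rw [sym_apply, dlt] at this
      linear_combination -this - CharTwo.add_self_eq_zero (ν x + ν y)
  -- `z`, whose sign on `H` is `ν`
  obtain ⟨w, hw0, hw⟩ := exists_kummer (P := Unit) (π := triv) H triv_locConst (fun k _ => ν k)
    (hν.map fun x _ => x) (fun x hx y hy _ => by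
      rw [hν_mul x ((hH x).mp hx).1 y ((hH y).mp hy).1, ((hH x).mp hx).2, zero_mul, add_zero]) ()
  set z := w ()
  have hz : z ≠ 0 := hw0
  have hkz : ∀ k ∈ H, k z = pm (ν k) * z := fun k hk => hw k hk ()
  have hchconj : ∀ k ∈ H, g⁻¹ * k * g ∈ H := fun k hk => by
    refine (hH _).mpr ⟨mul_mem (mul_mem (inv_mem hg) ((hH k).mp hk).1) hg, ?_⟩
    have := ch_conj h1 g⁻¹ k
    rw [inv_inv] at this
    rw [this, ((hH k).mp hk).2]
  have hνconj : ∀ k ∈ H, ν (g⁻¹ * k * g) = ν k := fun k hk => by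
    have hk' := hchconj k hk
    have e1 := hν_mul g hg _ ((hH _).mp hk').1
    rw [← mul_assoc, mul_inv_cancel_left, hν_mul k ((hH k).mp hk).1 g hg, ((hH k).mp hk).2,
      ((hH _).mp hk').2] at e1
    linear_combination -e1
  set η := g z / z
  have hηfix : ∀ k ∈ H, k η = η := fun k hk => by
    have : k (g z) = pm (ν k) * g z := by
      rw [← AlgEquiv.mul_apply, show k * g = g * (g⁻¹ * k * g) by group, AlgEquiv.mul_apply,
        hkz _ (hchconj k hk), map_mul, map_pm, hνconj k hk]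
    rw [map_div₀, this, hkz k hk, mul_div_mul_left _ _ (pm_ne_zero _)]
  have hgg : g * g ∈ H := (hH _).mpr ⟨mul_mem hg hg, by
    rw [ch_mul_apply h1, CharTwo.add_self_eq_zero]⟩
  have hnorm : η * g η = -1 := by
    have e2 : ν (g * g) = 1 := by
      rw [hν_mul g hg g hg, hg1, one_mul, CharTwo.add_self_eq_zero, zero_add]
    have e3 := hkz _ hgg
    rw [AlgEquiv.mul_apply, e2, pm_one, neg_one_mul] at e3
    have hgz : g z ≠ 0 := (map_ne_zero g).mpr hz
    rw [show η = g z / z from rfl, map_div₀, e3]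
    field_simp
  -- the elements outside `H` swap `η` and `g η` and negate `i`
  have hmoving : ∀ k ∈ decG 2, k ∉ H → k η = g η ∧ k (g η) = η ∧ k i = -i := fun k hk hkH => by
    have hck : ch (-1) k = 1 := (pm_cases _).resolve_left fun h => hkH ((hH k).mpr ⟨hk, h⟩)
    have ha : g⁻¹ * k ∈ H := (hH _).mpr ⟨mul_mem (inv_mem hg) hk, by
      have := ch_mul_apply h1 g (g⁻¹ * k)
      rw [mul_inv_cancel_left, hck, hg1] at this
      linear_combination -this⟩
    have hb : k * g ∈ H := (hH _).mpr ⟨mul_mem hk hg, by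
      rw [ch_mul_apply h1, hck, hg1, CharTwo.add_self_eq_zero]⟩
    refine ⟨?_, ?_, by rw [map_rt_ch h1, hck, pm_one, neg_one_mul]⟩
    · conv_lhs => rw [← mul_inv_cancel_left g k, AlgEquiv.mul_apply, hηfix _ ha]
    · rw [← AlgEquiv.mul_apply, hηfix _ hb]
  have hfix_gη : ∀ k ∈ H, k (g η) = g η := fun k hk => by
    rw [← AlgEquiv.mul_apply, show k * g = g * (g⁻¹ * k * g) by group, AlgEquiv.mul_apply,
      hηfix _ (hchconj k hk)]
  -- the coordinates of `η` on `1` and `i` are fixed by the decomposition group, so lie in `ℚ₂`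
  obtain ⟨a, ha⟩ := exists_padic_of_fixed (x := (η + g η) / 2) fun k hk => by
    by_cases hkH : k ∈ H
    · rw [map_div₀, map_add, map_ofNat, hηfix k hkH, hfix_gη k hkH]
    · rw [map_div₀, map_add, map_ofNat, (hmoving k hk hkH).1, (hmoving k hk hkH).2.1, add_comm]
  obtain ⟨b, hb⟩ := exists_padic_of_fixed (x := (η - g η) / (2 * i)) fun k hk => by
    by_cases hkH : k ∈ H
    · rw [map_div₀, map_sub, map_mul, map_ofNat, hηfix k hkH, hfix_gη k hkH,
        show k i = i from hkH.2]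
    · rw [map_div₀, map_sub, map_mul, map_ofNat, (hmoving k hk hkH).1, (hmoving k hk hkH).2.1,
        (hmoving k hk hkH).2.2, mul_neg, div_neg, ← neg_div, neg_sub]
  refine sq_add_sq_ne_neg_one a b ((algebraMap ℚ_[2] (PadicAlgCl 2)).injective ?_)
  rw [map_add, map_pow, map_pow, ha, hb, map_neg, map_one, ← map_pow, ← map_pow, ← map_add,
    show ((η + g η) / 2) ^ 2 + ((η - g η) / (2 * i)) ^ 2 = -1 by
      field_simp
      linear_combination ((η + g η) ^ 2 + 4) * hi + (-4 : QBar) * hnorm,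
    map_neg, map_one]

/-- **The test at `2`.** -/
theorem hTwo_sum_eq_zero {L : List (ℤ × ℤ)} (hL : ∀ p ∈ L, p.1 ≠ 0 ∧ p.2 ≠ 0)
    (h : CobOn D₂ (L.map fun p => sym p.1 p.2).sum) :
    (L.map fun p => hTwo p.1 p.2).sum = 0 := by
  by_contra hne
  refine not_cobOn_neg_one ((h.add (sim_two_sum hL)).congr fun g _ k _ => ?_)
  simp only [Pi.add_apply, (pm_cases _).resolve_left hne, one_mul]
  linear_combination CharTwo.add_self_eq_zero ((L.map fun p => sym p.1 p.2).sum g k)

end Fermat.Agent.LT.Selmer
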