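import Fermat.Agent.LT.Selmer.Symbol

/-!
# Quadratic characters of integers and the elementary relations between their symbols
-/

set_option autoImplicit false

noncomputable section

namespace Fermat.Agent.LT.Selmer

open Fermat.Agent.Arith (QBar GQ)

/-- A square root of a nonzero integer is nonzero. -/
theorem rt_ne_zero {a : ℤ} (ha : a ≠ 0) : rt (a : QBar) ≠ 0 := fun h => ha (by
  have := rt_sq (a : QBar)
  rw [h, zero_pow two_ne_zero] at this
  exact_mod_cast this.symm)

theorem isKum_int {a : ℤ} (ha : a ≠ 0) : IsKum triv (fun _ => rt (a : QBar)) :=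
  isKum_triv (rt_ne_zero ha) (q := (a : ℚ)) (by rw [rt_sq]; norm_cast)

theorem map_rt {a : ℤ} (ha : a ≠ 0) (g : GQ) :
    g (rt (a : QBar)) = pm (chr (rt (a : QBar)) g) * rt (a : QBar) :=
  (isKum_int ha).map_eq g ()

/-- The character of an integer. -/
def ch (a : ℤ) (g : GQ) : ZMod 2 := chr (rt (a : QBar)) g

theorem sym_apply (a b : ℤ) (g h : GQ) : sym a b g h = ch a g * ch b h := rfl

/-- A Galois element acts on the square root of `a` by the sign of its character. -/
theorem map_rt_ch {a : ℤ} (ha : a ≠ 0) (g : GQ) :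
    g (rt (a : QBar)) = pm (ch a g) * rt (a : QBar) :=
  map_rt ha g

/-- The character vanishes on elements fixing the square root. -/
theorem ch_eq_zero {a : ℤ} (ha : a ≠ 0) {g : GQ} (h : g (rt (a : QBar)) = rt (a : QBar)) :
    ch a g = 0 :=
  (isKum_int ha).sgn_eq (Q := ()) (by rw [pm_zero, one_mul]; exact h)

/-- The character of `a` can be read on any square root of `a`. -/
theorem ch_eq_of_sq {a : ℤ} (ha : a ≠ 0) {g : GQ} {x : QBar} {e : ZMod 2} (hx : x ^ 2 = (a : QBar))
    (h : g x = pm e * x) : ch a g = e := by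
  refine (isKum_int ha).sgn_eq (Q := ()) ?_
  show g (rt _) = _
  rcases sq_eq_sq_iff_eq_or_eq_neg.mp ((rt_sq (a : QBar)).trans hx.symm) with e' | e'
  · rw [e', h]
  · rw [e', map_neg, h]; ring

/-- The quadratic character of a nonzero integer is a homomorphism. -/
theorem ch_mul_apply {a : ℤ} (ha : a ≠ 0) (g h : GQ) : ch a (g * h) = ch a g + ch a h :=
  (isKum_int ha).sgn_mul_apply g h ()

/-- The quadratic character of a nonzero integer is trivial at one. -/
theorem ch_one {a : ℤ} (ha : a ≠ 0) : ch a 1 = 0 := ch_eq_zero ha rfl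

/-- The quadratic character is invariant under conjugation. -/
theorem ch_conj {a : ℤ} (ha : a ≠ 0) (g h : GQ) : ch a (g * h * g⁻¹) = ch a h := by
  have := ch_mul_apply ha (g * h * g⁻¹) g
  rw [inv_mul_cancel_right, ch_mul_apply ha, add_comm] at this
  exact (add_right_cancel this).symm

/-- The character is additive in the integer. -/
theorem ch_mul {a b : ℤ} (ha : a ≠ 0) (hb : b ≠ 0) (g : GQ) : ch (a * b) g = ch a g + ch b g := by
  refine ch_eq_of_sq (mul_ne_zero ha hb) (x := rt (a : QBar) * rt (b : QBar))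
    (by rw [mul_pow, rt_sq, rt_sq]; push_cast; ring) ?_
  rw [map_mul, map_rt_ch ha, map_rt_ch hb, pm_add]; ring

theorem ch_unit (g : GQ) : ch 1 g = 0 :=
  ch_eq_of_sq one_ne_zero (x := 1) (by simp) (by rw [map_one, pm_zero, one_mul])

/-- The character of a power is the multiple of the character. -/
theorem ch_pow {a : ℤ} (ha : a ≠ 0) (n : ℕ) (g : GQ) : ch (a ^ n) g = (n : ZMod 2) * ch a g := by
  induction n with
  | zero => rw [pow_zero, ch_unit, Nat.cast_zero, zero_mul]
  | succ n ih => rw [pow_succ, ch_mul (pow_ne_zero n ha) ha, ih, Nat.cast_succ]; ring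

theorem ch_locConst (a : ℤ) : LocConst (ch a) :=
  sgn_locConst triv_locConst (fun _ => rt (a : QBar)) ()

variable {D : Set GQ}

theorem cobOn_sym_symm {a b : ℤ} (ha : a ≠ 0) (hb : b ≠ 0) : CobOn D (sym a b + sym b a) := by
  refine ⟨fun g => ch a g * ch b g, (ch_locConst a).map₂ (ch_locConst b) (· * ·),
    fun g _ h _ => ?_⟩
  simp only [Pi.add_apply, sym_apply, dlt, ch_mul_apply ha, ch_mul_apply hb]
  linear_combination -CharTwo.add_self_eq_zero (ch a g * ch b g + ch a h * ch b h)

/-- **Steinberg over `ℚ`.** -/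
theorem cobOn_sym_steinberg {a b : ℤ} (ha : a ≠ 0) (hb : b ≠ 0) (h : a + b = 1) :
    CobOn D (sym a b) :=
  (cobOn_steinberg triv_locConst (isKum_int ha) (isKum_int hb) fun _ => by
    rw [rt_sq, rt_sq]; exact_mod_cast h).congr fun g _ k _ => by rw [phi_triv]; rfl

/-- `(a, a)` and `(a, -1)` differ by a coboundary. -/
theorem cobOn_sym_self {a : ℤ} (ha : a ≠ 0) : CobOn D (sym a a + sym a (-1)) := by
  rcases eq_or_ne a 1 with rfl | h1
  · exact CobOn.zero.congr fun g _ k _ => by simp [sym_apply, ch_unit]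
  have hc : a - 1 ≠ 0 := sub_ne_zero.mpr h1
  have e1 : CobOn D (sym a (1 - a)) := cobOn_sym_steinberg ha (sub_ne_zero.mpr h1.symm) (by ring)
  -- `1 / a` and `1 - 1 / a`
  have hxa : ((1 : QBar) / rt (a : QBar)) ^ 2 = (((1 / a : ℚ)) : QBar) := by
    rw [div_pow, rt_sq]; push_cast; ring
  have hya : (rt ((a - 1 : ℤ) : QBar) / rt (a : QBar)) ^ 2 = ((((a - 1) / a : ℚ)) : QBar) := by
    rw [div_pow, rt_sq, rt_sq]; push_cast; ring
  have hk1 := isKum_triv (one_div_ne_zero (rt_ne_zero ha)) hxa
  have hk2 := isKum_triv (div_ne_zero (rt_ne_zero hc) (rt_ne_zero ha)) hya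
  have e2 : CobOn D (phi triv (fun _ => 1 / rt (a : QBar))
      fun _ => rt ((a - 1 : ℤ) : QBar) / rt (a : QBar)) :=
    cobOn_steinberg triv_locConst hk1 hk2 fun _ => by
      rw [div_pow, div_pow, rt_sq, rt_sq, one_pow]
      have : ((a : QBar)) ≠ 0 := by exact_mod_cast ha
      field_simp
      push_cast; ring
  refine (e1.add e2).congr fun g _ k _ => ?_
  have hinv : ∀ x : GQ, chr (1 / rt (a : QBar)) x = ch a x := fun x => hk1.sgn_eq (by
    rw [map_div₀, map_one, map_rt_ch ha]
    field_simp [pm_ne_zero, rt_ne_zero ha]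
    linear_combination -pm_sq (ch a x))
  have hdiv : ∀ x : GQ, chr (rt ((a - 1 : ℤ) : QBar) / rt (a : QBar)) x =
      ch (a - 1) x + ch a x := fun x => hk2.sgn_eq (by
    rw [map_div₀, map_rt_ch ha, map_rt_ch hc, pm_add]
    field_simp [pm_ne_zero, rt_ne_zero ha]
    linear_combination -(rt ((a - 1 : ℤ) : QBar)) * pm_sq (ch a x))
  rw [phi_triv]
  simp only [Pi.add_apply, sym_apply, hinv, hdiv]
  have hn : ch (1 - a) k = ch (-1) k + ch (a - 1) k := by
    rw [← ch_mul (by norm_num) hc]; congr 1; ring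
  rw [hn]
  linear_combination CharTwo.add_self_eq_zero (ch a g * ch (a - 1) k)

/-- The functional used at an odd prime. -/
def testAt (f : Cochain) (F τ : GQ) : ZMod 2 := f F τ + f (F * τ * F⁻¹) F

theorem testAt_dlt (ν : GQ → ZMod 2) (F τ : GQ) :
    testAt (dlt ν) F τ = ν τ + ν (F * τ * F⁻¹) := by
  simp only [testAt, dlt, inv_mul_cancel_right]
  linear_combination CharTwo.add_self_eq_zero (ν F) + CharTwo.add_self_eq_zero (ν (F * τ))

theorem testAt_add (f f' : Cochain) (F τ : GQ) :
    testAt (f + f') F τ = testAt f F τ + testAt f' F τ := by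
  simp only [testAt, Pi.add_apply]; ring

end Fermat.Agent.LT.Selmer
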