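import Fermat.Agent.LT.Selmer.Reciprocity
import Fermat.Agent.MordellWeil.Characters

/-!
# Line valued classes and their finiteness
-/

set_option autoImplicit false

noncomputable section

namespace Fermat.Agent.LT.Selmer

open Fermat.Agent.Arith (QBar GQ)
open Fermat.Agent.CFT.Flat (decG inG inG_le_decG)
open Deform (M2 InV IsCocycle conjAct)

/-- The classes unramified outside `U` and line valued on it. -/
structure IsClass (r : GQ →* (M2 (ZMod 2))ˣ) (U : Finset ℕ) (t : ℕ → M2 (ZMod 2))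
    (c : GQ → M2 (ZMod 2)) : Prop where
  cocycle : IsCocycle r c
  locConst : LocConst c
  unram : ∀ (v : ℕ) [Fact v.Prime], v ∉ U → ∀ σ ∈ inG v, c σ = 0
  line : ∀ v ∈ U, ∀ g ∈ dec v, ((t v + 1) * c g).trace = 0

variable {r : GQ →* (M2 (ZMod 2))ˣ} {U : Finset ℕ} {t : ℕ → M2 (ZMod 2)} {c : GQ → M2 (ZMod 2)}

theorem eq_one_at {v : ℕ} [Fact v.Prime] (hru : ∀ σ ∈ inG v, r σ = 1) {A : ValuationSubring QBar}
    (hA : A.LiesOverPrime v) {σ : GQ} (hσ : σ ∈ A.inertiaSubgroupIn ℚ) :
    ∃ g τ, τ ∈ inG v ∧ σ = g * τ * g⁻¹ ∧ r σ = 1 := by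
  obtain ⟨g, rfl⟩ :=
    Arith.exists_smul_eq (CFT.Local.padicPlace_liesOverPrime v) hA (Fact.out : v.Prime)
  have h : g⁻¹ * σ * g ∈ inG v := by
    refine (Arith.mem_inertia_smul_iff (g := g) (A := padicPlace v)).mp ?_
    rwa [show g * (g⁻¹ * σ * g) * g⁻¹ = σ by group]
  refine ⟨g, _, h, by group, ?_⟩
  rw [show σ = g * (g⁻¹ * σ * g) * g⁻¹ by group, map_mul, map_mul, hru _ h, mul_one, ← map_mul,
    mul_inv_cancel, map_one]

theorem IsClass.eq_zero_at (hc : IsClass r U t c) {v : ℕ} [Fact v.Prime] (hvU : v ∉ U)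
    (hru : ∀ σ ∈ inG v, r σ = 1) {A : ValuationSubring QBar} (hA : A.LiesOverPrime v) {σ : GQ}
    (hσ : σ ∈ A.inertiaSubgroupIn ℚ) : c σ = 0 := by
  obtain ⟨g, τ, hτ, rfl, -⟩ := eq_one_at hru hA hσ
  rw [Coc.conj hc.cocycle (hru τ hτ), hc.unram v hvU τ hτ, conjAct_zero]

theorem eq_of_coords : ∀ x y : M2 (ZMod 2), InV x → InV y →
    (∀ Q : Line, ((Q : M2 (ZMod 2)) * x).trace = ((Q : M2 (ZMod 2)) * y).trace) → x = y := by decide

/-- **There are finitely many classes.** -/
theorem finite_classes (hr : LocConst r) (hU : ∀ v ∈ U, v.Prime)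
    (hru : ∀ (v : ℕ) [Fact v.Prime], v ∉ U → ∀ σ ∈ inG v, r σ = 1) :
    {c | IsClass r U t c}.Finite := by
  classical
  obtain ⟨L, _, hL⟩ := hr
  -- On the field `K` cut out by `r` the coordinates of a class are characters.
  set N : Subgroup GQ := r.ker
  have hopen : IsOpen (N : Set GQ) :=
    Subgroup.isOpen_mono (fun σ hσ => by
      have := hL σ 1 fun x hx => (IntermediateField.mem_fixingSubgroup_iff _ _).mp hσ x hx
      exact MonoidHom.mem_ker.mpr (this.trans (map_one r)))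
      (IntermediateField.fixingSubgroup_isOpen L)
  let K : IntermediateField ℚ QBar := IntermediateField.fixedField N
  have hK : K.fixingSubgroup = N :=
    InfiniteGalois.fixingSubgroup_fixedField ⟨N, N.isClosed_of_isOpen hopen⟩
  have : FiniteDimensional ℚ K := (InfiniteGalois.isOpen_iff_finite K).mp (by rw [hK]; exact hopen)
  have : IsGalois ℚ K := (InfiniteGalois.normal_iff_isGalois K).mp (by rw [hK]; infer_instance)
  have : NumberField K := { to_finiteDimensional := inferInstance }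
  set d := ∏ v ∈ U, v with hd
  have hd0 : d ≠ 0 := Finset.prod_ne_zero_iff.mpr fun v hv => (hU v hv).ne_zero
  have hout : ∀ p : ℕ, p.Prime → ¬ p ∣ d → p ∉ U := fun p _ h hpU =>
    h (Finset.dvd_prod_of_mem _ hpU)
  have hunr : MordellWeil.UnramifiedOutside K d := fun p A hp hA hpd σ hσ x hx => by
    have : Fact p.Prime := ⟨hp⟩
    obtain ⟨-, -, -, -, hσ1⟩ := eq_one_at (hru p (hout p hp hpd)) hA hσ
    exact hx ⟨σ, MonoidHom.mem_ker.mpr hσ1⟩
  -- These are unramified outside `U`, so come from a finite set.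
  obtain ⟨Φ, hΦ, hΦmem⟩ := MordellWeil.exists_finite_characters hd0 hunr
  have hchar : ∀ (c : {c | IsClass r U t c}) (Q : Line),
      ∃ ψ ∈ Φ, ∀ h ∈ N, coordFun c.1 h Q = ψ h := by
    rintro ⟨c, hc⟩ Q
    have := hΦmem (fun g => coordFun c g Q) (fun g hg h hh => by
      rw [hK] at hg
      have hg1 : r g⁻¹ = 1 := by rw [map_inv, MonoidHom.mem_ker.mp hg, inv_one]
      show coordFun c (g * h) Q = _
      rw [coordFun_mul hc.cocycle, show back (act r) g Q = Q from
        Subtype.ext (by rw [coe_back, conjAct_of_eq_one hg1])]) (by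
      obtain ⟨M, hM, hMc⟩ := hc.locConst
      exact ⟨M, hM, fun σ _ hσ => by
        show ((Q : M2 (ZMod 2)) * c σ).trace = 0
        rw [hMc σ 1 hσ, Coc.one hc.cocycle, mul_zero, Matrix.trace_zero]⟩)
      (fun p A hp hA hpd σ hσ => by
        have : Fact p.Prime := ⟨hp⟩
        show ((Q : M2 (ZMod 2)) * c σ).trace = 0
        rw [hc.eq_zero_at (hout p hp hpd) (hru p (hout p hp hpd)) hA hσ, mul_zero,
          Matrix.trace_zero])
    rwa [hK] at this
  choose ψ hψΦ hψ using hchar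
  have := hΦ.to_subtype
  -- A class is determined by these characters and its values at coset representatives.
  have : Finite (GQ ⧸ N) := Subgroup.quotient_finite_of_isOpen N hopen
  refine Set.finite_coe_iff.mp (Finite.of_injective
    (fun c : {c | IsClass r U t c} =>
      ((fun Q => (⟨ψ c Q, hψΦ c Q⟩ : Φ)), fun q : GQ ⧸ N => c.1 q.out)) fun c c' h => ?_)
  have hker : ∀ n ∈ N, c.1 n = c'.1 n := fun n hn =>
    eq_of_coords _ _ (c.2.cocycle.inV n) (c'.2.cocycle.inV n) fun Q => by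
      have e : ψ c Q = ψ c' Q := congrArg Subtype.val (congrFun (congrArg Prod.fst h) Q)
      exact (hψ c Q n hn).trans ((congrFun e n).trans (hψ c' Q n hn).symm)
  refine Subtype.ext (funext fun g => ?_)
  have hn : ((g : GQ ⧸ N).out)⁻¹ * g ∈ N := QuotientGroup.eq.mp (QuotientGroup.out_eq' _)
  rw [← mul_inv_cancel_left ((g : GQ ⧸ N).out) g, c.2.cocycle.mul, c'.2.cocycle.mul, hker _ hn,
    show c.1 ((g : GQ ⧸ N).out) = c'.1 ((g : GQ ⧸ N).out) from
      congrFun (congrArg Prod.snd h) (g : GQ ⧸ N)]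

end Fermat.Agent.LT.Selmer
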