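import Fermat.Agent.LT.Selmer.Kummer

/-!
# Averages over a finite image

Hilbert 90 by hand: on a transitive finite Galois set every sign cocycle of finite level is the sign
of a Kummer family, and on a Galois set of finite level some equivariant family in `ℚ̄` separates
two given points.
-/

set_option autoImplicit false

noncomputable section

namespace Fermat.Agent.LT.Selmer

open Fermat.Agent.Arith (QBar GQ)

variable (H : Subgroup GQ) (L : IntermediateField ℚ QBar)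

/-- Agreement on `L`. -/
def Agree (g g' : GQ) : Prop := ∀ x ∈ L, g x = g' x

theorem exists_reps [FiniteDimensional ℚ L] : ∃ R : Finset GQ, (∀ h ∈ R, h ∈ H) ∧
    (∀ g ∈ H, ∃ h ∈ R, Agree L g h) ∧ ∀ h ∈ R, ∀ h' ∈ R, Agree L h h' → h = h' := by
  classical
  have : Finite (L →ₐ[ℚ] QBar) := inferInstance
  let res : GQ → (L →ₐ[ℚ] QBar) := fun g => (g : QBar →ₐ[ℚ] QBar).comp L.val
  let E : Finset (L →ₐ[ℚ] QBar) := (Set.toFinite (res '' (H : Set GQ))).toFinset
  have hE : ∀ e ∈ E, ∃ g ∈ H, res g = e := fun e he =>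
    ((Set.Finite.mem_toFinset (s := res '' (H : Set GQ)) _).mp he)
  choose sec hsecH hsec using hE
  refine ⟨E.attach.image fun e => sec e.1 e.2, fun h hh => ?_, fun g hg => ?_,
    fun h hh h' hh' e => ?_⟩
  · obtain ⟨e, -, rfl⟩ := Finset.mem_image.mp hh
    exact hsecH _ _
  · have hm : res g ∈ E := (Set.Finite.mem_toFinset _).mpr ⟨g, hg, rfl⟩
    refine ⟨sec _ hm, Finset.mem_image.mpr ⟨⟨_, hm⟩, Finset.mem_attach _ _, rfl⟩, fun x hx => ?_⟩
    exact (AlgHom.congr_fun (hsec _ hm) ⟨x, hx⟩).symm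
  · obtain ⟨⟨a, ha⟩, -, rfl⟩ := Finset.mem_image.mp hh
    obtain ⟨⟨b, hb⟩, -, rfl⟩ := Finset.mem_image.mp hh'
    have : a = b := by
      rw [← hsec a ha, ← hsec b hb]
      exact AlgHom.ext fun x => e x x.2
    subst this
    rfl

variable {H L}

theorem sum_translate {X : Type*} [AddCommMonoid X] {R : Finset GQ} (hR : ∀ h ∈ R, h ∈ H)
    (hcov : ∀ g ∈ H, ∃ h ∈ R, Agree L g h) (hinj : ∀ h ∈ R, ∀ h' ∈ R, Agree L h h' → h = h')
    {F : GQ → X} (hF : ∀ g g', Agree L g g' → F g = F g') {g : GQ} (hg : g ∈ H) :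
    ∑ h ∈ R, F (g * h) = ∑ h ∈ R, F h := by
  classical
  choose! sh hsh hag using fun h (hh : h ∈ R) => hcov _ (H.mul_mem hg (hR h hh))
  rw [Finset.sum_congr rfl fun h hh => hF _ _ (hag h hh)]
  have himg : R.image sh = R :=
    Finset.eq_of_subset_of_card_le (Finset.image_subset_iff.mpr hsh) (le_of_eq (Eq.symm
      (Finset.card_image_of_injOn fun a ha b hb e => hinj a ha b hb fun x hx => g.injective (by
        rw [← AlgEquiv.mul_apply, ← AlgEquiv.mul_apply, hag a ha x hx, hag b hb x hx, e]))))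
  conv_rhs => rw [← himg]
  rw [Finset.sum_image fun a ha b hb e => hinj a ha b hb fun x hx => g.injective (by
    rw [← AlgEquiv.mul_apply, ← AlgEquiv.mul_apply, hag a ha x hx, hag b hb x hx, e])]

theorem exists_sum_ne_zero {R : Finset GQ} (hinj : ∀ h ∈ R, ∀ h' ∈ R, Agree L h h' → h = h')
    (a : GQ → QBar) (ha : ∃ h ∈ R, a h ≠ 0) : ∃ z ∈ L, ∑ h ∈ R, a h * h z ≠ 0 := by
  classical
  by_contra! hall
  let f : R → (L →* QBar) := fun h => ((h.1 : QBar →ₐ[ℚ] QBar).comp L.val : L →* QBar)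
  have hf : Function.Injective f := fun h h' e =>
    Subtype.ext (hinj _ h.2 _ h'.2 fun x hx => DFunLike.congr_fun e (⟨x, hx⟩ : L))
  obtain ⟨h, hh, hne⟩ := ha
  have hli := (linearIndependent_monoidHom L QBar).comp f hf
  rw [Fintype.linearIndependent_iff] at hli
  refine hne (hli (fun h => a h.1) ?_ ⟨h, hh⟩)
  funext x
  rw [Finset.sum_apply]
  simp only [Function.comp_apply, Pi.smul_apply, smul_eq_mul, Pi.zero_apply]
  rw [← hall (x : QBar) x.2, ← Finset.sum_coe_sort R fun h => a h * h (x : QBar)]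
  rfl

variable {P : Type*} {π : GQ →* Equiv.Perm P}

/-- **Sign cocycles are Kummer.** -/
theorem exists_kummer (H : Subgroup GQ) (hπ : LocConst π) (C : GQ → P → ZMod 2)
    (hC : LocConst C)
    (hmul : ∀ g ∈ H, ∀ h ∈ H, ∀ Q, C (g * h) Q = C g Q + C h (back π g Q))
    (Q₀ : P) :
    ∃ w : P → QBar, w Q₀ ≠ 0 ∧ ∀ g ∈ H, ∀ Q, g (w (back π g Q)) = pm (C g Q) * w Q := by
  obtain ⟨L₁, _, hL₁⟩ := hπ
  obtain ⟨L₂, _, hL₂⟩ := hC
  obtain ⟨R, hR, hcov, hinj⟩ := exists_reps H (L₁ ⊔ L₂)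
  obtain ⟨h₀, hh₀, -⟩ := hcov 1 (one_mem H)
  obtain ⟨z, hz, hne⟩ := exists_sum_ne_zero hinj (fun h => pm (C h Q₀)) ⟨h₀, hh₀, pm_ne_zero _⟩
  refine ⟨fun Q => ∑ h ∈ R, pm (C h Q) * h z, hne, fun g hg Q => ?_⟩
  have hF : ∀ a b : GQ, Agree (L₁ ⊔ L₂) a b → pm (C a Q) * a z = pm (C b Q) * b z := fun a b e => by
    rw [hL₂ a b fun x hx => e x ((le_sup_right : L₂ ≤ L₁ ⊔ L₂) hx), e z hz]
  dsimp only
  rw [← sum_translate hR hcov hinj hF hg, Finset.mul_sum, map_sum]
  refine Finset.sum_congr rfl fun h hh => ?_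
  rw [map_mul, map_pm, AlgEquiv.mul_apply, hmul g hg h (hR h hh) Q, pm_add]
  linear_combination -(pm (C h (back π g Q)) * g (h z)) * pm_sq (C g Q)

theorem exists_kummer_family [Finite P] (htrans : ∀ Q Q' : P, ∃ g, π g Q = Q') [Nonempty P]
    (hπ : LocConst π) (C : GQ → P → ZMod 2) (hC : LocConst C)
    (hmul : ∀ g h Q, C (g * h) Q = C g Q + C h (back π g Q)) :
    ∃ w : P → QBar, IsKum π w ∧ ∀ g Q, sgnFun π w g Q = C g Q := by
  obtain ⟨Q₀⟩ := ‹Nonempty P›
  obtain ⟨w, hw₀, hw⟩ := exists_kummer (⊤ : Subgroup GQ) hπ C hC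
    (fun g _ h _ Q => hmul g h Q) Q₀
  have hkum : IsKum π w :=
    { ne_zero := fun Q h0 => by
        obtain ⟨g, rfl⟩ := htrans Q₀ Q
        have e := hw g trivial (π g Q₀)
        rw [back_apply, h0, mul_zero] at e
        exact hw₀ (g.injective (e.trans (map_zero g).symm))
      sq := fun g Q => by rw [hw g trivial Q, mul_pow, sq (pm _), pm_sq, one_mul] }
  exact ⟨w, hkum, fun g Q => hkum.sgn_eq (hw g trivial Q)⟩

/-- An equivariant family taking distinct values at two given points. -/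
theorem exists_family_ne (hπ : LocConst π) {Q₁ Q₂ : P} (hne : Q₁ ≠ Q₂) :
    ∃ θ : P → QBar, (∀ (g : GQ) Q, g (θ (back π g Q)) = θ Q) ∧ θ Q₁ ≠ θ Q₂ := by
  classical
  obtain ⟨L, _, hL⟩ := hπ
  obtain ⟨R, hR, hcov, hinj⟩ := exists_reps (⊤ : Subgroup GQ) L
  obtain ⟨h₀, hh₀, he⟩ := hcov 1 trivial
  set a : P → GQ → QBar := fun Q h => if π h Q₁ = Q then 1 else 0
  obtain ⟨z, hz, hzne⟩ := exists_sum_ne_zero hinj (fun h => a Q₁ h - a Q₂ h) ⟨h₀, hh₀, by
    have h1 : π h₀ = 1 := (hL 1 h₀ he).symm.trans (map_one π)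
    simp [a, h1, hne]⟩
  refine ⟨fun Q => ∑ h ∈ R, a Q h * h z, fun g Q => ?_, fun e => hzne ?_⟩
  · have hF : ∀ x y : GQ, Agree L x y → a Q x * x z = a Q y * y z := fun x y e => by
      simp only [a, hL x y e, e z hz]
    dsimp only
    rw [map_sum, ← sum_translate hR hcov hinj hF (g := g) trivial]
    refine Finset.sum_congr rfl fun h _ => ?_
    rw [map_mul, AlgEquiv.mul_apply]
    congr 1
    simp only [a, map_mul, Equiv.Perm.mul_apply, back, Equiv.Perm.inv_def]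
    by_cases hq : π g (π h Q₁) = Q
    · rw [if_pos hq, if_pos ((Equiv.eq_symm_apply (π g)).mpr hq), map_one]
    · rw [if_neg hq, if_neg fun h' => hq ((Equiv.eq_symm_apply (π g)).mp h'), map_zero]
  · simp only [sub_mul, Finset.sum_sub_distrib]
    exact sub_eq_zero.mpr e

end Fermat.Agent.LT.Selmer
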