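import Fermat.Agent.LT.Selmer.Defs

/-!
# Cochains of Kummer families

A family `w : P → ℚ̄` with equivariant squares gives the signs `sgnFun π w g Q` of `g` on its
members; `phi π w w'` is the corestricted cup product of two of them. It is bilinear, depends on
the squares only up to coboundaries, and is a coboundary when the squares are `x` and `1 - x`.

The last statement is `cobOn_steinberg`.
-/

set_option autoImplicit false

noncomputable section

namespace Fermat.Agent.LT.Selmer

open Fermat.Agent.Arith (QBar GQ)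

/-! ## Cochains and coboundaries -/

/-- Functions of two elements of the Galois group. -/
abbrev Cochain := GQ → GQ → ZMod 2

/-- The coboundary. -/
def dlt (ν : GQ → ZMod 2) : Cochain := fun g h => ν g + ν h + ν (g * h)

/-- Coboundary of a function of finite level on `D`. -/
def CobOn (D : Set GQ) (f : Cochain) : Prop :=
  ∃ ν : GQ → ZMod 2, LocConst ν ∧ ∀ g ∈ D, ∀ h ∈ D, f g h = dlt ν g h

namespace LocConst

variable {X Y W : Type*}

theorem const (x : X) : LocConst fun _ : GQ => x :=
  ⟨⊥, inferInstance, fun _ _ _ => rfl⟩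

/-- Two functions of finite level combine to one of finite level. -/
theorem map₂ {ν : GQ → X} {μ : GQ → Y} (hν : LocConst ν) (hμ : LocConst μ) (f : X → Y → W) :
    LocConst fun g => f (ν g) (μ g) := by
  obtain ⟨L, _, hL⟩ := hν
  obtain ⟨M, _, hM⟩ := hμ
  refine ⟨L ⊔ M, inferInstance, fun g g' h => ?_⟩
  show f _ _ = f _ _
  rw [hL g g' fun x hx => h x ((le_sup_left : L ≤ L ⊔ M) hx),
    hM g g' fun x hx => h x ((le_sup_right : M ≤ L ⊔ M) hx)]

/-- A function of finite level stays so after composition. -/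
theorem map {ν : GQ → X} (hν : LocConst ν) (f : X → W) : LocConst fun g => f (ν g) :=
  hν.map₂ hν fun x _ => f x

theorem sum {ι : Type*} [AddCommMonoid X] (t : Finset ι) {ν : ι → GQ → X}
    (h : ∀ i ∈ t, LocConst (ν i)) : LocConst fun g => ∑ i ∈ t, ν i g := by
  classical
  induction t using Finset.induction with
  | empty => simpa using const (0 : X)
  | insert a t ha ih =>
    simp only [Finset.sum_insert ha]
    exact (h a (Finset.mem_insert_self a t)).map₂
      (ih fun i hi => h i (Finset.mem_insert_of_mem hi)) (· + ·)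

end LocConst

namespace CobOn

variable {D : Set GQ} {f f' : Cochain}

theorem zero : CobOn D 0 :=
  ⟨fun _ => 0, LocConst.const 0, fun g _ h _ => by simp [dlt]⟩

/-- Being a coboundary on `D` only depends on the values on `D`. -/
theorem congr (h : ∀ g ∈ D, ∀ k ∈ D, f g k = f' g k) (hf : CobOn D f) : CobOn D f' := by
  obtain ⟨ν, hν, e⟩ := hf
  exact ⟨ν, hν, fun g hg k hk => (h g hg k hk).symm.trans (e g hg k hk)⟩

/-- A sum of coboundaries on `D` is one. -/
theorem add (hf : CobOn D f) (hf' : CobOn D f') : CobOn D (f + f') := by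
  obtain ⟨ν, hν, e⟩ := hf
  obtain ⟨ν', hν', e'⟩ := hf'
  refine ⟨fun g => ν g + ν' g, hν.map₂ hν' (· + ·), fun g hg h hh => ?_⟩
  rw [Pi.add_apply, Pi.add_apply, e g hg h hh, e' g hg h hh, dlt, dlt, dlt]
  ring

/-- A coboundary on `D` is one on smaller sets. -/
theorem mono {D' : Set GQ} (hD : D' ⊆ D) (hf : CobOn D f) : CobOn D' f := by
  obtain ⟨ν, hν, e⟩ := hf
  exact ⟨ν, hν, fun g hg h hh => e g (hD hg) h (hD hh)⟩

theorem dlt_mem {ν : GQ → ZMod 2} (hν : LocConst ν) : CobOn D (dlt ν) :=
  ⟨ν, hν, fun _ _ _ _ => rfl⟩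

end CobOn

/-- Equality up to a coboundary on `D`. -/
def SimOn (D : Set GQ) (f f' : Cochain) : Prop := CobOn D (f + f')

namespace SimOn

variable {D : Set GQ} {f f' f'' k k' : Cochain}

/-- Equality up to a coboundary is reflexive. -/
theorem refl (f : Cochain) : SimOn D f f :=
  CobOn.zero.congr fun _ _ _ _ => by simp [CharTwo.add_self_eq_zero]

/-- Equality up to a coboundary is symmetric. -/
theorem symm (h : SimOn D f f') : SimOn D f' f := by
  rw [SimOn, add_comm]; exact h

/-- Equality up to a coboundary is transitive. -/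
theorem trans (h : SimOn D f f') (h' : SimOn D f' f'') : SimOn D f f'' :=
  (CobOn.add h h').congr fun g _ l _ => by
    simp only [Pi.add_apply]
    linear_combination CharTwo.add_self_eq_zero (f' g l)

/-- Cochains equal on `D` are equal up to a coboundary there. -/
theorem of_eq (h : ∀ g ∈ D, ∀ l ∈ D, f g l = f' g l) : SimOn D f f' :=
  CobOn.zero.congr fun g hg l hl => by simp [h g hg l hl, CharTwo.add_self_eq_zero]

/-- Equality up to a coboundary is compatible with sums. -/
theorem add (h : SimOn D f f') (h' : SimOn D k k') : SimOn D (f + k) (f' + k') :=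
  (CobOn.add h h').congr fun _ _ _ _ => by simp only [Pi.add_apply]; ring

theorem cob (h : SimOn D f f') (h' : CobOn D f') : CobOn D f :=
  (CobOn.add h h').congr fun g _ l _ => by
    simp only [Pi.add_apply]
    linear_combination CharTwo.add_self_eq_zero (f' g l)

end SimOn

/-! ## Signs -/

/-- The sign attached to an element of `ℤ/2`. -/
def pm (e : ZMod 2) : QBar := if e = 0 then 1 else -1

/-- The sign of `0` is `1`. -/
theorem pm_zero : pm 0 = 1 := if_pos rfl

/-- The sign of `1` is `-1`. -/
theorem pm_one : pm 1 = -1 := if_neg one_ne_zero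

theorem pm_cases : ∀ e : ZMod 2, e = 0 ∨ e = 1 := by decide

/-- The sign is a homomorphism from `ℤ/2`. -/
theorem pm_add (a b : ZMod 2) : pm (a + b) = pm a * pm b := by
  rcases pm_cases a with rfl | rfl <;> rcases pm_cases b with rfl | rfl <;>
    simp [pm, CharTwo.add_self_eq_zero]

theorem pm_sq (a : ZMod 2) : pm a * pm a = 1 := by rw [← pm_add, CharTwo.add_self_eq_zero, pm_zero]

/-- A sign is not zero. -/
theorem pm_ne_zero (a : ZMod 2) : pm a ≠ 0 := fun h => by simpa [h] using pm_sq a

theorem pm_injective : Function.Injective pm := fun a b h => by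
  rcases pm_cases a with rfl | rfl <;> rcases pm_cases b with rfl | rfl <;>
    first
    | rfl
    | (simp [pm] at h; norm_num at h)

theorem pm_sum {ι : Type*} (t : Finset ι) (e : ι → ZMod 2) :
    pm (∑ i ∈ t, e i) = ∏ i ∈ t, pm (e i) := by
  classical
  induction t using Finset.induction with
  | empty => simp [pm_zero]
  | insert a t ha ih => rw [Finset.sum_insert ha, Finset.prod_insert ha, pm_add, ih]

/-- Galois fixes the signs. -/
theorem map_pm (g : GQ) (e : ZMod 2) : g (pm e) = pm e := by
  rcases pm_cases e with rfl | rfl <;> simp [pm]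

variable {P : Type*} (π : GQ →* Equiv.Perm P)

/-- The index sent to `Q` by `g`. -/
def back (g : GQ) (Q : P) : P := (π g)⁻¹ Q

theorem back_mul (g h : GQ) (Q : P) : back π (g * h) Q = back π h (back π g Q) := by
  simp [back, map_mul]

theorem back_apply (g : GQ) (Q : P) : back π g (π g Q) = Q := (π g).symm_apply_apply Q

theorem sum_back [Fintype P] {X : Type*} [AddCommMonoid X] (g : GQ) (F : P → X) :
    ∑ Q, F (back π g Q) = ∑ Q, F Q :=
  Equiv.sum_comp ((π g)⁻¹ : Equiv.Perm P) F

/-! ## Kummer families -/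

/-- A family with equivariant squares. -/
structure IsKum (w : P → QBar) : Prop where
  ne_zero : ∀ Q, w Q ≠ 0
  sq : ∀ (g : GQ) (Q : P), g (w (back π g Q)) ^ 2 = w Q ^ 2

open Classical in
/-- The sign of `g` at `Q`. -/
def sgnFun (w : P → QBar) (g : GQ) (Q : P) : ZMod 2 := if g (w (back π g Q)) = w Q then 0 else 1

variable {π} {w w' u : P → QBar}

theorem IsKum.map_eq (hw : IsKum π w) (g : GQ) (Q : P) :
    g (w (back π g Q)) = pm (sgnFun π w g Q) * w Q := by
  unfold sgnFun
  split_ifs with h
  · rw [pm_zero, one_mul, h]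
  · rw [pm_one, neg_one_mul]
    exact (sq_eq_sq_iff_eq_or_eq_neg.mp (hw.sq g Q)).resolve_left h

theorem IsKum.sgn_eq (hw : IsKum π w) {g : GQ} {Q : P} {e : ZMod 2}
    (h : g (w (back π g Q)) = pm e * w Q) : sgnFun π w g Q = e :=
  pm_injective (mul_right_cancel₀ (hw.ne_zero Q) ((hw.map_eq g Q).symm.trans h))

theorem IsKum.sgn_mul_apply (hw : IsKum π w) (g h : GQ) (Q : P) :
    sgnFun π w (g * h) Q = sgnFun π w g Q + sgnFun π w h (back π g Q) := by
  refine hw.sgn_eq ?_
  rw [back_mul, AlgEquiv.mul_apply, hw.map_eq h, map_mul, map_pm, hw.map_eq g, pm_add]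
  ring

/-- A product of two families with equivariant squares has equivariant squares. -/
theorem IsKum.mul (hw : IsKum π w) (hw' : IsKum π w') : IsKum π (w * w') where
  ne_zero Q := mul_ne_zero (hw.ne_zero Q) (hw'.ne_zero Q)
  sq g Q := by simp only [Pi.mul_apply, map_mul, mul_pow, hw.sq, hw'.sq]

theorem IsKum.sgn_mul (hw : IsKum π w) (hw' : IsKum π w') (g : GQ) (Q : P) :
    sgnFun π (w * w') g Q = sgnFun π w g Q + sgnFun π w' g Q := by
  refine (hw.mul hw').sgn_eq ?_
  simp only [Pi.mul_apply, map_mul, hw.map_eq, hw'.map_eq, pm_add]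
  ring

theorem IsKum.of_pm (hw : IsKum π w) (m : P → ZMod 2) : IsKum π (fun Q => pm (m Q) * w Q) where
  ne_zero Q := mul_ne_zero (pm_ne_zero _) (hw.ne_zero Q)
  sq g Q := by simp only [map_mul, map_pm, mul_pow, _root_.sq (pm _), pm_sq, hw.sq, one_mul]

theorem IsKum.sgn_of_pm (hw : IsKum π w) (m : P → ZMod 2) (g : GQ) (Q : P) :
    sgnFun π (fun Q => pm (m Q) * w Q) g Q = sgnFun π w g Q + (m (back π g Q) + m Q) := by
  refine (hw.of_pm m).sgn_eq ?_
  rw [map_mul, map_pm, hw.map_eq, pm_add, pm_add]
  linear_combination -(pm (sgnFun π w g Q) * pm (m (back π g Q)) * w Q) * pm_sq (m Q)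

/-- Two families with the same squares differ by signs. -/
theorem exists_pm_of_sq_eq (h : ∀ Q, w' Q ^ 2 = w Q ^ 2) :
    ∃ m : P → ZMod 2, w' = fun Q => pm (m Q) * w Q := by
  classical
  refine ⟨fun Q => if w' Q = w Q then 0 else 1, funext fun Q => ?_⟩
  dsimp only
  split_ifs with e
  · rw [pm_zero, one_mul, e]
  · rw [pm_one, neg_one_mul]
    exact (sq_eq_sq_iff_eq_or_eq_neg.mp (h Q)).resolve_left e

theorem sgn_locConst [Finite P] (hπ : LocConst π) (w : P → QBar) (Q : P) :
    LocConst fun g => sgnFun π w g Q := by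
  obtain ⟨L, _, hLπ⟩ := hπ
  have : Finite (Set.range w) := (Set.finite_range w).to_subtype
  have := IntermediateField.finiteDimensional_adjoin (K := ℚ) (S := Set.range w)
    fun x _ => Algebra.IsIntegral.isIntegral x
  refine ⟨L ⊔ IntermediateField.adjoin ℚ (Set.range w), inferInstance, fun g g' h => ?_⟩
  have hb : back π g Q = back π g' Q := by
    rw [back, back, hLπ g g' fun x hx =>
      h x ((le_sup_left : L ≤ L ⊔ IntermediateField.adjoin ℚ (Set.range w)) hx)]
  show sgnFun π w g Q = sgnFun π w g' Q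
  rw [sgnFun, sgnFun, ← hb,
    h _ ((le_sup_right : IntermediateField.adjoin ℚ (Set.range w) ≤ _)
      (IntermediateField.subset_adjoin ℚ _ ⟨_, rfl⟩))]

variable (π) [Fintype P]

/-! ## The corestricted cup product -/

/-- The corestricted cup product. -/
def phi (w w' : P → QBar) : Cochain :=
  fun g h => ∑ Q, sgnFun π w g Q * sgnFun π w' h (back π g Q)

variable {π}

theorem phi_mul_left (hw : IsKum π w) (hw' : IsKum π w') (u : P → QBar) :
    phi π (w * w') u = phi π w u + phi π w' u := by
  ext g h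
  simp only [phi, hw.sgn_mul hw', add_mul, Finset.sum_add_distrib, Pi.add_apply]

theorem phi_mul_right (u : P → QBar) (hw : IsKum π w) (hw' : IsKum π w') :
    phi π u (w * w') = phi π u w + phi π u w' := by
  ext g h
  simp only [phi, hw.sgn_mul hw', mul_add, Finset.sum_add_distrib, Pi.add_apply]

variable {D : Set GQ}

theorem simOn_pm_left (hπ : LocConst π) (hw : IsKum π w) (hu : IsKum π u) (m : P → ZMod 2) :
    SimOn D (phi π (fun Q => pm (m Q) * w Q) u) (phi π w u) := by
  refine (CobOn.dlt_mem (ν := fun g => ∑ Q, m Q * sgnFun π u g Q)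
    (LocConst.sum _ fun Q _ => (sgn_locConst hπ u Q).map (m Q * ·))).congr fun g _ h _ => ?_
  simp only [phi, Pi.add_apply, hw.sgn_of_pm m g, dlt, hu.sgn_mul_apply, mul_add,
    Finset.sum_add_distrib, add_mul]
  have e := sum_back π g fun Q => m Q * sgnFun π u h Q
  linear_combination -e + CharTwo.add_self_eq_zero (∑ Q, m Q * sgnFun π u g Q) -
    CharTwo.add_self_eq_zero (∑ Q, sgnFun π w g Q * sgnFun π u h (back π g Q))

theorem simOn_pm_right (hπ : LocConst π) (hu : IsKum π u) (hw : IsKum π w) (m : P → ZMod 2) :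
    SimOn D (phi π u (fun Q => pm (m Q) * w Q)) (phi π u w) := by
  have hloc : LocConst fun g => fun Q => m (back π g Q) :=
    hπ.map fun p Q => m (p⁻¹ Q)
  refine (CobOn.dlt_mem (ν := fun g => ∑ Q, sgnFun π u g Q * m (back π g Q))
    (LocConst.sum _ fun Q _ => (sgn_locConst hπ u Q).map₂ hloc fun a f => a * f Q)).congr
    fun g _ h _ => ?_
  simp only [phi, Pi.add_apply, hw.sgn_of_pm m h, dlt, hu.sgn_mul_apply, back_mul, mul_add,
    Finset.sum_add_distrib, add_mul]
  have e := sum_back π g fun Q => sgnFun π u h Q * m (back π h Q)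
  linear_combination e + CharTwo.add_self_eq_zero (∑ Q, sgnFun π u h Q * m (back π h Q)) -
    CharTwo.add_self_eq_zero (∑ Q, sgnFun π u g Q * sgnFun π w h (back π g Q))

/-- The corestricted cup product depends only on the squares of the families, up to coboundaries. -/
theorem simOn_of_sq (hπ : LocConst π) {a a' b b' : P → QBar} (ha : IsKum π a) (hb : IsKum π b)
    (hea : ∀ Q, a' Q ^ 2 = a Q ^ 2) (heb : ∀ Q, b' Q ^ 2 = b Q ^ 2) :
    SimOn D (phi π a' b') (phi π a b) := by
  obtain ⟨m, rfl⟩ := exists_pm_of_sq_eq hea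
  obtain ⟨n, rfl⟩ := exists_pm_of_sq_eq heb
  exact (simOn_pm_left hπ ha (hb.of_pm n) m).trans (simOn_pm_right hπ ha hb n)

/-- **Steinberg.** -/
theorem cobOn_steinberg (hπ : LocConst π) (hw : IsKum π w) (hw' : IsKum π w')
    (h : ∀ Q, w Q ^ 2 + w' Q ^ 2 = 1) : CobOn D (phi π w w') := by
  classical
  -- `z (Q, e)` is a square root of `1 - (-1) ^ e w Q`, and `t g Q e` is the sign of `g` on them
  choose z hz using fun (p : P × ZMod 2) =>
    IsAlgClosed.exists_pow_nat_eq (1 - pm p.2 * w p.1) (n := 2) two_pos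
  have hz0 : ∀ p, z p ≠ 0 := fun p hp => by
    have e : 1 - pm p.2 * w p.1 = 0 := by rw [← hz p, hp, zero_pow two_ne_zero]
    refine hw'.ne_zero p.1 (pow_eq_zero_iff two_ne_zero |>.mp ?_)
    linear_combination h p.1 + (1 + pm p.2 * w p.1) * e + w p.1 ^ 2 * pm_sq p.2
  set t : GQ → P → ZMod 2 → ZMod 2 := fun g Q e =>
    if g (z (back π g Q, e + sgnFun π w g Q)) = z (Q, e) then 0 else 1
  have ht : ∀ g Q e, g (z (back π g Q, e + sgnFun π w g Q)) = pm (t g Q e) * z (Q, e) := by
    intro g Q e
    simp only [t]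
    split_ifs with hh
    · rw [pm_zero, one_mul, hh]
    · rw [pm_one, neg_one_mul]
      refine (sq_eq_sq_iff_eq_or_eq_neg.mp ?_).resolve_left hh
      rw [← map_pow, hz, hz, map_sub, map_one, map_mul, map_pm, hw.map_eq, pm_add]
      linear_combination -(pm e * w Q) * pm_sq (sgnFun π w g Q)
  have htmul : ∀ g k Q e, t (g * k) Q e = t g Q e + t k (back π g Q) (e + sgnFun π w g Q) := by
    intro g k Q e
    refine pm_injective (mul_right_cancel₀ (hz0 (Q, e)) ?_)
    rw [← ht, back_mul, hw.sgn_mul_apply, AlgEquiv.mul_apply, ← add_assoc, ht k, map_mul, map_pm,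
      ht g, pm_add]
    ring
  have hloc : ∀ Q e, LocConst fun g => t g Q e := by
    intro Q e
    obtain ⟨L, _, hLs⟩ := (sgn_locConst hπ w Q).map₂ hπ Prod.mk
    have : Finite (Set.range z) := (Set.finite_range z).to_subtype
    have := IntermediateField.finiteDimensional_adjoin (K := ℚ) (S := Set.range z)
      fun x _ => Algebra.IsIntegral.isIntegral x
    refine ⟨L ⊔ IntermediateField.adjoin ℚ (Set.range z), inferInstance, fun g g' hg => ?_⟩
    have h1 := Prod.ext_iff.mp (hLs g g' fun x hx => hg x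
      ((le_sup_left : L ≤ L ⊔ IntermediateField.adjoin ℚ (Set.range z)) hx))
    have hb : back π g Q = back π g' Q := by rw [back, back, show π g = π g' from h1.2]
    show (if _ then _ else _) = (if _ then _ else _)
    rw [← hb, ← show sgnFun π w g Q = sgnFun π w g' Q from h1.1,
      hg _ ((le_sup_right : IntermediateField.adjoin ℚ (Set.range z) ≤ _)
        (IntermediateField.subset_adjoin ℚ _ ⟨_, rfl⟩))]
  -- `v Q = z (Q, 0) z (Q, 1)` squares to `1 - w Q ^ 2 = w' Q ^ 2`, so it may replace `w'`; its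
  -- sign is the sum of the two signs
  set v : P → QBar := fun Q => z (Q, 0) * z (Q, 1)
  have hv2 : ∀ Q, v Q ^ 2 = w' Q ^ 2 := fun Q => by
    rw [mul_pow, hz, hz, pm_zero, pm_one]
    linear_combination -h Q
  have hv : IsKum π v :=
    { ne_zero := fun Q => mul_ne_zero (hz0 _) (hz0 _)
      sq := fun g Q => by rw [← map_pow, hv2, map_pow, hw'.sq, hv2] }
  have hsv : ∀ g Q, sgnFun π v g Q = t g Q 0 + t g Q 1 := fun g Q => by
    refine hv.sgn_eq ?_
    rw [pm_add]
    simp only [v, map_mul]
    rcases pm_cases (sgnFun π w g Q) with e | e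
    · have h0 := ht g Q 0
      have h1 := ht g Q 1
      rw [e, add_zero] at h0 h1
      rw [h0, h1]; ring
    · have h0 := ht g Q 0
      have h1 := ht g Q 1
      rw [e, zero_add] at h0
      rw [e, CharTwo.add_self_eq_zero] at h1
      rw [h0, h1]; ring
  refine (simOn_of_sq hπ hw hv (fun _ => rfl) (fun Q => (hv2 Q).symm)).cob ?_
  -- the coboundary of `g ↦ ∑ Q, t g Q 0` is `∑ Q` of the sign of `w` times that of `v`, by the
  -- cocycle rule `htmul`
  refine ⟨fun g => ∑ Q, t g Q 0, LocConst.sum _ fun Q _ => hloc Q 0, fun g _ k _ => ?_⟩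
  simp only [phi, dlt, hsv, htmul, Finset.sum_add_distrib, zero_add]
  have key : ∀ Q, sgnFun π w g Q * (t k (back π g Q) 0 + t k (back π g Q) 1) =
      t k (back π g Q) 0 + t k (back π g Q) (sgnFun π w g Q) := fun Q => by
    rcases pm_cases (sgnFun π w g Q) with e | e <;> rw [e] <;> simp [CharTwo.add_self_eq_zero]
  rw [Finset.sum_congr rfl fun Q _ => key Q, Finset.sum_add_distrib,
    sum_back π g fun Q => t k Q 0]
  linear_combination -CharTwo.add_self_eq_zero (∑ Q, t g Q 0)

end Fermat.Agent.LT.Selmer
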