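import Fermat.Agent.LT.Selmer.LocalTwo

/-!
# The product formula for the invariants
-/

set_option autoImplicit false

noncomputable section

namespace Fermat.Agent.LT.Selmer

open Fermat.Agent.Arith (QBar GQ)

/-- The invariant at a prime. -/
def hAt (v : ℕ) (a b : ℤ) : ZMod 2 :=
  if h : v.Prime then
    haveI : Fact v.Prime := ⟨h⟩
    if v = 2 then hTwo a b else hOdd v a b
  else 0

/-- The invariant at infinity. -/
def hInf (a b : ℤ) : ZMod 2 := if a < 0 ∧ b < 0 then 1 else 0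

/-- The sum of the invariants. -/
def hTot (P : Finset ℕ) (a b : ℤ) : ZMod 2 := ∑ v ∈ P, hAt v a b + hInf a b

theorem hAt_two (a b : ℤ) : hAt 2 a b = hTwo a b := by
  rw [hAt, dif_pos Nat.prime_two]; simp

theorem hAt_odd {v : ℕ} [Fact v.Prime] (hv : v ≠ 2) (a b : ℤ) : hAt v a b = hOdd v a b := by
  rw [hAt, dif_pos (Fact.out : v.Prime), if_neg hv]

section Mul

variable {v : ℕ} [hv : Fact v.Prime]

theorem valPar_mul {a a' : ℤ} (ha : a ≠ 0) (ha' : a' ≠ 0) :
    valPar v (a * a') = valPar v a + valPar v a' := by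
  rw [valPar, padicValInt.mul ha ha', Nat.cast_add]; rfl

theorem unitPart_mul {a a' : ℤ} (ha : a ≠ 0) (ha' : a' ≠ 0) :
    unitPart v (a * a') = unitPart v a * unitPart v a' := by
  refine mul_left_cancel₀ (pow_ne_zero (padicValInt v (a * a'))
    (show (v : ℤ) ≠ 0 by exact_mod_cast hv.out.ne_zero)) ?_
  rw [unitPart_mul_pow, padicValInt.mul ha ha', pow_add]
  conv_lhs => rw [← unitPart_mul_pow (v := v) a, ← unitPart_mul_pow (v := v) a']
  ring

theorem resPar_mul {a a' : ℤ} (ha : ¬ (v : ℤ) ∣ a) (ha' : ¬ (v : ℤ) ∣ a') :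
    resPar v (a * a') = resPar v a + resPar v a' := by
  have h1 : ((a : ZMod v)) ≠ 0 := by rwa [Ne, ZMod.intCast_zmod_eq_zero_iff_dvd]
  have h2 : ((a' : ZMod v)) ≠ 0 := by rwa [Ne, ZMod.intCast_zmod_eq_zero_iff_dvd]
  simp only [resPar, legendreSym.mul]
  rcases legendreSym.eq_one_or_neg_one v h1 with e | e <;>
    rcases legendreSym.eq_one_or_neg_one v h2 with e' | e' <;>
      simp [e, e', CharTwo.add_self_eq_zero]

end Mul

theorem e_mul {a a' : ℤ} (ha : ¬ (2 : ℤ) ∣ a) (ha' : ¬ (2 : ℤ) ∣ a') :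
    e₁ (a * a') = e₁ a + e₁ a' ∧ e₂ (a * a') = e₂ a + e₂ a' := by
  have h : (a * a') % 8 = ((a % 8) * (a' % 8)) % 8 := Int.mul_emod a a' 8
  have h4 : ∀ x : ℤ, x % 4 = (x % 8) % 4 := fun x => by omega
  simp only [e₁, e₂, h4 (a * a'), h4 a, h4 a', h]
  obtain e | e | e | e : a % 8 = 1 ∨ a % 8 = 3 ∨ a % 8 = 5 ∨ a % 8 = 7 := by omega
  all_goals
    obtain e' | e' | e' | e' : a' % 8 = 1 ∨ a' % 8 = 3 ∨ a' % 8 = 5 ∨ a' % 8 = 7 := by omega
    all_goals
      rw [e, e']
      norm_num [CharTwo.add_self_eq_zero]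

theorem hAt_symm (v : ℕ) (a b : ℤ) : hAt v a b = hAt v b a := by
  rw [hAt, hAt]
  split_ifs <;> first | rfl | (simp only [hTwo]; ring) | (simp only [hOdd]; ring)

theorem hTot_symm (P : Finset ℕ) (a b : ℤ) : hTot P a b = hTot P b a := by
  simp only [hTot, hInf, and_comm (a := a < 0)]
  rw [Finset.sum_congr rfl fun v _ => hAt_symm v a b]

theorem hAt_mul (v : ℕ) {a a' b : ℤ} (ha : a ≠ 0) (ha' : a' ≠ 0) :
    hAt v (a * a') b = hAt v a b + hAt v a' b := by
  rw [hAt, hAt, hAt]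
  split_ifs with hv h2
  · subst h2
    have : Fact (Nat.Prime 2) := ⟨hv⟩
    obtain ⟨h1, h2⟩ := e_mul (not_dvd_unitPart (v := 2) ha) (not_dvd_unitPart (v := 2) ha')
    simp only [hTwo, valPar_mul ha ha', unitPart_mul ha ha', h1, h2]
    ring
  · have : Fact v.Prime := ⟨hv⟩
    simp only [hOdd, valPar_mul ha ha', unitPart_mul ha ha',
      resPar_mul (not_dvd_unitPart (v := v) ha) (not_dvd_unitPart (v := v) ha')]
    ring
  · rw [add_zero]

theorem hInf_mul {a a' b : ℤ} (ha : a ≠ 0) (ha' : a' ≠ 0) :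
    hInf (a * a') b = hInf a b + hInf a' b := by
  unfold hInf
  rcases lt_or_gt_of_ne ha with h | h <;> rcases lt_or_gt_of_ne ha' with h' | h' <;>
    rcases lt_or_ge b 0 with hb | hb <;>
      simp [mul_neg_iff, h, h', h.not_gt, h'.not_gt, hb, hb.not_gt, CharTwo.add_self_eq_zero]

theorem hTot_mul (P : Finset ℕ) {a a' b : ℤ} (ha : a ≠ 0) (ha' : a' ≠ 0) :
    hTot P (a * a') b = hTot P a b + hTot P a' b := by
  simp only [hTot, hInf_mul ha ha', Finset.sum_congr rfl fun v _ => hAt_mul v (b := b) ha ha',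
    Finset.sum_add_distrib]
  ring

/-- An additive function on non-zero integers is determined by `-1` and the primes. -/
theorem eq_zero_of_mul (P : Finset ℕ) (f : ℤ → ZMod 2)
    (hf : ∀ x y : ℤ, x ≠ 0 → y ≠ 0 → f (x * y) = f x + f y) (h1 : f (-1) = 0)
    (hp : ∀ p ∈ P, p.Prime → f (p : ℤ) = 0) {a : ℤ} (ha : a ≠ 0)
    (hP : a.natAbs.primeFactors ⊆ P) : f a = 0 := by
  have hone : f 1 = 0 := by
    have := hf 1 1 one_ne_zero one_ne_zero
    rw [one_mul, CharTwo.add_self_eq_zero] at this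
    exact this
  have key : ∀ n : ℕ, n ≠ 0 → n.primeFactors ⊆ P → f n = 0 := by
    intro n
    induction n using Nat.recOnMul with
    | zero => exact fun h => absurd rfl h
    | one => exact fun _ _ => by exact_mod_cast hone
    | prime p hpp => exact fun _ hsub => hp p (hsub (by rw [hpp.primeFactors]; simp)) hpp
    | mul x y hx hy =>
      intro h hsub
      obtain ⟨hx0, hy0⟩ := mul_ne_zero_iff.mp h
      rw [Nat.primeFactors_mul hx0 hy0] at hsub
      rw [Nat.cast_mul, hf _ _ (by exact_mod_cast hx0) (by exact_mod_cast hy0),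
        hx hx0 (Finset.union_subset_left hsub), hy hy0 (Finset.union_subset_right hsub), add_zero]
  have hn := key a.natAbs (Int.natAbs_ne_zero.mpr ha) hP
  rcases Int.natAbs_eq a with e | e
  · rw [e]; exact hn
  · rw [e, ← neg_one_mul, hf _ _ (by norm_num) (by exact_mod_cast Int.natAbs_ne_zero.mpr ha), h1,
      hn, add_zero]

section Base

theorem valPar_self {p : ℕ} [hp : Fact p.Prime] : valPar p (p : ℤ) = 1 := by
  rw [valPar, padicValInt.self hp.out.one_lt, Nat.cast_one]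

theorem padicValInt_of_not_dvd {v : ℕ} [Fact v.Prime] {a : ℤ} (h : ¬ (v : ℤ) ∣ a) :
    valPar v a = 0 ∧ unitPart v a = a := by
  have e : padicValInt v a = 0 := padicValInt.eq_zero_of_not_dvd h
  simp [valPar, unitPart, e]

theorem unitPart_self {p : ℕ} [hp : Fact p.Prime] : unitPart p (p : ℤ) = 1 := by
  rw [unitPart, padicValInt.self hp.out.one_lt, pow_one,
    Int.ediv_self (by exact_mod_cast hp.out.ne_zero)]

theorem resPar_one {p : ℕ} [Fact p.Prime] : resPar p 1 = 0 := by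
  simp [resPar, legendreSym.at_one]

variable {P : Finset ℕ}

theorem not_dvd_prime {v p : ℕ} (hv : v.Prime) (hp : p.Prime) (h : v ≠ p) : ¬ (v : ℤ) ∣ (p : ℤ) :=
  fun hd => h ((Nat.prime_dvd_prime_iff_eq hv hp).mp (Int.natCast_dvd_natCast.mp hd))

theorem hAt_eq_zero_of_not_dvd {v : ℕ} {a b : ℤ} (h2 : v ≠ 2) (ha : ¬ (v : ℤ) ∣ a)
    (hb : ¬ (v : ℤ) ∣ b) : hAt v a b = 0 := by
  rw [hAt]
  split_ifs with hv
  · have : Fact v.Prime := ⟨hv⟩
    simp [hOdd, (padicValInt_of_not_dvd ha).1, (padicValInt_of_not_dvd hb).1]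
  · rfl

theorem resPar_neg_one {p : ℕ} [Fact p.Prime] (h2 : p ≠ 2) : resPar p (-1) = e₁ (p : ℤ) := by
  obtain ⟨k, hk⟩ := (Fact.out : p.Prime).odd_of_ne_two h2
  simp only [resPar, legendreSym.at_neg_one h2, ZMod.χ₄_nat_eq_if_mod_four, e₁]
  rw [if_neg (show ¬ p % 2 = 0 by omega)]
  rcases (show p % 4 = 1 ∨ p % 4 = 3 by omega) with e | e
  · rw [if_pos e, if_neg (show ¬ (1 : ℤ) = -1 by norm_num),
      if_neg (show ¬ (p : ℤ) % 4 = 3 by omega)]
  · rw [if_neg (show ¬ p % 4 = 1 by omega), if_pos rfl, if_pos (show (p : ℤ) % 4 = 3 by omega)]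

theorem resPar_two {p : ℕ} [Fact p.Prime] (h2 : p ≠ 2) : resPar p 2 = e₂ (p : ℤ) := by
  obtain ⟨k, hk⟩ := (Fact.out : p.Prime).odd_of_ne_two h2
  simp only [resPar, legendreSym.at_two h2, ZMod.χ₈_nat_eq_if_mod_eight, e₂]
  rw [if_neg (show ¬ p % 2 = 0 by omega)]
  rcases (show p % 8 = 1 ∨ p % 8 = 7 ∨ p % 8 = 3 ∨ p % 8 = 5 by omega) with e | e | e | e
  · rw [if_pos (Or.inl e), if_neg (show ¬ (1 : ℤ) = -1 by norm_num),
      if_neg (show ¬ ((p : ℤ) % 8 = 3 ∨ (p : ℤ) % 8 = 5) by omega)]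
  · rw [if_pos (Or.inr e), if_neg (show ¬ (1 : ℤ) = -1 by norm_num),
      if_neg (show ¬ ((p : ℤ) % 8 = 3 ∨ (p : ℤ) % 8 = 5) by omega)]
  · rw [if_neg (show ¬ (p % 8 = 1 ∨ p % 8 = 7) by omega), if_pos rfl,
      if_pos (show (p : ℤ) % 8 = 3 ∨ (p : ℤ) % 8 = 5 by omega)]
  · rw [if_neg (show ¬ (p % 8 = 1 ∨ p % 8 = 7) by omega), if_pos rfl,
      if_pos (show (p : ℤ) % 8 = 3 ∨ (p : ℤ) % 8 = 5 by omega)]

theorem resPar_recip {p q : ℕ} [Fact p.Prime] [Fact q.Prime] (hp : p ≠ 2) (hq : q ≠ 2)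
    (hne : p ≠ q) : resPar p (q : ℤ) + resPar q (p : ℤ) = e₁ (p : ℤ) * e₁ (q : ℤ) := by
  obtain ⟨k, hk⟩ := (Fact.out : p.Prime).odd_of_ne_two hp
  obtain ⟨l, hl⟩ := (Fact.out : q.Prime).odd_of_ne_two hq
  have h := legendreSym.quadratic_reciprocity hp hq hne
  rw [show p / 2 = k by omega, show q / 2 = l by omega] at h
  have e : ∀ {n m : ℕ}, n = 2 * m + 1 → e₁ (n : ℤ) = (m : ZMod 2) := fun {n m} hn => by
    rcases Nat.even_or_odd m with he | ho
    · rw [e₁, if_neg (by obtain ⟨r, hr⟩ := he; omega), ZMod.natCast_eq_zero_iff_even.mpr he]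
    · rw [e₁, if_pos (by obtain ⟨r, hr⟩ := ho; omega), ZMod.natCast_eq_one_iff_odd.mpr ho]
  rw [e hk, e hl, ← Nat.cast_mul]
  have h1 : ((q : ℤ) : ZMod p) ≠ 0 := by
    rw [Ne, ZMod.intCast_zmod_eq_zero_iff_dvd]
    exact not_dvd_prime Fact.out Fact.out hne
  have h2 : ((p : ℤ) : ZMod q) ≠ 0 := by
    rw [Ne, ZMod.intCast_zmod_eq_zero_iff_dvd]
    exact not_dvd_prime Fact.out Fact.out hne.symm
  rcases Nat.even_or_odd (k * l) with he | ho
  · rw [ZMod.natCast_eq_zero_iff_even.mpr he]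
    rw [he.neg_one_pow] at h
    rcases legendreSym.eq_one_or_neg_one p h1 with x | x <;>
      rcases legendreSym.eq_one_or_neg_one q h2 with y | y <;>
        simp_all [resPar, CharTwo.add_self_eq_zero]
  · rw [ZMod.natCast_eq_one_iff_odd.mpr ho]
    rw [ho.neg_one_pow] at h
    rcases legendreSym.eq_one_or_neg_one p h1 with x | x <;>
      rcases legendreSym.eq_one_or_neg_one q h2 with y | y <;>
        simp_all [resPar, CharTwo.add_self_eq_zero]

variable (h2 : 2 ∈ P) (hP : ∀ v ∈ P, v.Prime)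

include h2 hP in
theorem hTot_neg_one_neg_one : hTot P (-1) (-1) = 0 := by
  rw [hTot, Finset.sum_eq_single_of_mem 2 h2 fun v hv hne => hAt_eq_zero_of_not_dvd hne
    (by rw [dvd_neg]; exact (Nat.prime_iff_prime_int.mp (hP v hv)).not_dvd_one)
    (by rw [dvd_neg]; exact (Nat.prime_iff_prime_int.mp (hP v hv)).not_dvd_one), hAt_two, hTwo,
    (padicValInt_of_not_dvd (v := 2) (a := -1) (by omega)).1,
    (padicValInt_of_not_dvd (v := 2) (a := -1) (by omega)).2]
  decide

include h2 hP in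
theorem hTot_neg_one_prime {p : ℕ} (hp : p ∈ P) : hTot P (-1) (p : ℤ) = 0 := by
  have hpp := hP p hp
  have : Fact p.Prime := ⟨hpp⟩
  have hinf : hInf (-1) (p : ℤ) = 0 := if_neg (by omega)
  have hzero : ∀ v ∈ P, v ≠ 2 → v ≠ p → hAt v (-1) (p : ℤ) = 0 := fun v hv h h' =>
    hAt_eq_zero_of_not_dvd h (by rw [dvd_neg]; exact (Nat.prime_iff_prime_int.mp
      (hP v hv)).not_dvd_one)
      (not_dvd_prime (hP v hv) hpp h')
  rcases eq_or_ne p 2 with rfl | hp2
  · rw [hTot, hinf, add_zero, Finset.sum_eq_single_of_mem 2 h2 fun v hv h =>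
      hzero v hv h h, hAt_two, hTwo, (padicValInt_of_not_dvd (v := 2) (a := -1) (by omega)).1,
      (padicValInt_of_not_dvd (v := 2) (a := -1) (by omega)).2, valPar_self, unitPart_self]
    decide
  · rw [hTot, hinf, add_zero, Finset.sum_eq_add_of_mem 2 p h2 hp hp2.symm
      fun v hv h => hzero v hv h.1 h.2, hAt_two, hAt_odd hp2, hTwo, hOdd,
      (padicValInt_of_not_dvd (v := 2) (a := -1) (by omega)).1,
      (padicValInt_of_not_dvd (v := 2) (a := -1) (by omega)).2,
      (padicValInt_of_not_dvd (v := 2) (a := (p : ℤ)) (not_dvd_prime Nat.prime_two hpp hp2.symm)).1,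
      (padicValInt_of_not_dvd (v := 2) (a := (p : ℤ)) (not_dvd_prime Nat.prime_two hpp hp2.symm)).2,
      (padicValInt_of_not_dvd (v := p) (a := -1) not_dvd_neg_one).1,
      (padicValInt_of_not_dvd (v := p) (a := -1) not_dvd_neg_one).2,
      valPar_self, resPar_neg_one hp2, show e₁ (-1) = 1 from rfl]
    linear_combination CharTwo.add_self_eq_zero (e₁ (p : ℤ))

include h2 hP in
theorem hTot_prime_prime {p q : ℕ} (hp : p ∈ P) (hq : q ∈ P) : hTot P (p : ℤ) (q : ℤ) = 0 := by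
  have hpp := hP p hp
  have hqq := hP q hq
  have : Fact p.Prime := ⟨hpp⟩
  have : Fact q.Prime := ⟨hqq⟩
  have hzero : ∀ v ∈ P, v ≠ 2 → v ≠ p → v ≠ q → hAt v (p : ℤ) (q : ℤ) = 0 := fun v hv h h' h'' =>
    hAt_eq_zero_of_not_dvd h (not_dvd_prime (hP v hv) hpp h') (not_dvd_prime (hP v hv) hqq h'')
  have hinf : hInf (p : ℤ) (q : ℤ) = 0 := if_neg (by omega)
  rw [hTot, hinf, add_zero]
  -- cases: `(2, 2)`; `2` and an odd prime (second supplementary law); two odd primes, equal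
  -- (first supplementary law) or distinct (reciprocity)
  rcases eq_or_ne p 2 with rfl | hp2 <;> rcases eq_or_ne q 2 with rfl | hq2
  · rw [Finset.sum_eq_single_of_mem 2 h2 fun v hv h => hzero v hv h h h, hAt_two, hTwo, valPar_self,
      unitPart_self]
    decide
  · rw [Finset.sum_eq_add_of_mem 2 q h2 hq hq2.symm fun v hv h => hzero v hv h.1 h.1 h.2, hAt_two,
      hAt_odd hq2, hTwo, hOdd, valPar_self, valPar_self, unitPart_self, unitPart_self,
      (padicValInt_of_not_dvd (v := 2) (a := (q : ℤ)) (not_dvd_prime Nat.prime_two hqq hq2.symm)).1,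
      (padicValInt_of_not_dvd (v := 2) (a := (q : ℤ)) (not_dvd_prime Nat.prime_two hqq hq2.symm)).2,
      (padicValInt_of_not_dvd (v := q) (a := ((2 : ℕ) : ℤ))
      (not_dvd_prime hqq Nat.prime_two hq2)).1,
      (padicValInt_of_not_dvd (v := q) (a := ((2 : ℕ) : ℤ))
      (not_dvd_prime hqq Nat.prime_two hq2)).2,
      show ((2 : ℕ) : ℤ) = 2 from rfl, resPar_two hq2, show e₁ 1 = 0 from rfl]
    linear_combination CharTwo.add_self_eq_zero (e₂ (q : ℤ))
  · rw [Finset.sum_eq_add_of_mem 2 p h2 hp hp2.symm fun v hv h => hzero v hv h.1 h.2 h.1, hAt_two,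
      hAt_odd hp2, hTwo, hOdd, valPar_self, valPar_self, unitPart_self, unitPart_self,
      (padicValInt_of_not_dvd (v := 2) (a := (p : ℤ)) (not_dvd_prime Nat.prime_two hpp hp2.symm)).1,
      (padicValInt_of_not_dvd (v := 2) (a := (p : ℤ)) (not_dvd_prime Nat.prime_two hpp hp2.symm)).2,
      (padicValInt_of_not_dvd (v := p) (a := ((2 : ℕ) : ℤ))
      (not_dvd_prime hpp Nat.prime_two hp2)).1,
      (padicValInt_of_not_dvd (v := p) (a := ((2 : ℕ) : ℤ))
      (not_dvd_prime hpp Nat.prime_two hp2)).2,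
      show ((2 : ℕ) : ℤ) = 2 from rfl, resPar_two hp2, show e₁ 1 = 0 from rfl]
    linear_combination CharTwo.add_self_eq_zero (e₂ (p : ℤ))
  · rcases eq_or_ne p q with rfl | hne
    · rw [Finset.sum_eq_add_of_mem 2 p h2 hp hp2.symm fun v hv h => hzero v hv h.1 h.2 h.2, hAt_two,
        hAt_odd hp2, hTwo, hOdd, valPar_self, unitPart_self, resPar_one, resPar_neg_one hp2,
        (padicValInt_of_not_dvd (v := 2) (a := (p : ℤ))
          (not_dvd_prime Nat.prime_two hpp hp2.symm)).1,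
        (padicValInt_of_not_dvd (v := 2) (a := (p : ℤ))
          (not_dvd_prime Nat.prime_two hpp hp2.symm)).2]
      rcases pm_cases (e₁ (p : ℤ)) with e | e <;> rw [e] <;> ring_nf
      decide
    · have hsub : ({2, p, q} : Finset ℕ) ⊆ P := by
        simp [Finset.insert_subset_iff, h2, hp, hq]
      rw [← Finset.sum_subset hsub fun v hv hne' => by
        simp only [Finset.mem_insert, Finset.mem_singleton, not_or] at hne'
        exact hzero v hv hne'.1 hne'.2.1 hne'.2.2,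
        Finset.sum_insert (by simp [hp2.symm, hq2.symm]), Finset.sum_insert (by simp [hne]),
        Finset.sum_singleton, hAt_two, hAt_odd hp2, hAt_odd hq2, hTwo, hOdd, hOdd,
        valPar_self, valPar_self, unitPart_self, unitPart_self,
        (padicValInt_of_not_dvd (v := 2) (a := (p : ℤ))
        (not_dvd_prime Nat.prime_two hpp hp2.symm)).1,
        (padicValInt_of_not_dvd (v := 2) (a := (p : ℤ))
        (not_dvd_prime Nat.prime_two hpp hp2.symm)).2,
        (padicValInt_of_not_dvd (v := 2) (a := (q : ℤ))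
        (not_dvd_prime Nat.prime_two hqq hq2.symm)).1,
        (padicValInt_of_not_dvd (v := 2) (a := (q : ℤ))
        (not_dvd_prime Nat.prime_two hqq hq2.symm)).2,
        (padicValInt_of_not_dvd (v := p) (a := (q : ℤ)) (not_dvd_prime hpp hqq hne)).1,
        (padicValInt_of_not_dvd (v := p) (a := (q : ℤ)) (not_dvd_prime hpp hqq hne)).2,
        (padicValInt_of_not_dvd (v := q) (a := (p : ℤ)) (not_dvd_prime hqq hpp hne.symm)).1,
        (padicValInt_of_not_dvd (v := q) (a := (p : ℤ)) (not_dvd_prime hqq hpp hne.symm)).2]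
      linear_combination resPar_recip hp2 hq2 hne +
        CharTwo.add_self_eq_zero (e₁ (p : ℤ) * e₁ (q : ℤ))

end Base

/-- **The product formula.** -/
theorem hTot_eq_zero {P : Finset ℕ} (h2 : 2 ∈ P) (hP : ∀ v ∈ P, v.Prime) {a b : ℤ} (ha : a ≠ 0)
    (hb : b ≠ 0) (haP : a.natAbs.primeFactors ⊆ P) (hbP : b.natAbs.primeFactors ⊆ P) :
    hTot P a b = 0 := by
  refine eq_zero_of_mul P (fun x => hTot P x b) (fun x y hx hy => hTot_mul P hx hy) ?_
    (fun p hp _ => ?_) ha haP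
  · refine (hTot_symm P (-1) b).trans (eq_zero_of_mul P (fun x => hTot P x (-1))
      (fun x y hx hy => hTot_mul P hx hy) (hTot_neg_one_neg_one h2 hP)
      (fun p hp _ => (hTot_symm P _ _).trans (hTot_neg_one_prime h2 hP hp)) hb hbP)
  · refine (hTot_symm P (p : ℤ) b).trans (eq_zero_of_mul P (fun x => hTot P x (p : ℤ))
      (fun x y hx hy => hTot_mul P hx hy) (hTot_neg_one_prime h2 hP hp)
      (fun q hq _ => hTot_prime_prime h2 hP hq hp) hb hbP)

end Fermat.Agent.LT.Selmer
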