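import Fermat.Agent.LT.Selmer.Product
import Fermat.Agent.LT.Selmer.Group
import Fermat.Agent.Arith.Frobenius

/-!
# Reciprocity

Two line valued classes with values in the residual module pair to a cochain whose invariants add up
to zero. Hence a class which is unramified outside the lines and one further prime, with inertia
there valued in a line, is unramified there as soon as a second class, unramified at that prime, is
off that line at Frobenius.

Main results: `isSymb_cup` and `ramified_eq_zero`.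
-/

set_option autoImplicit false

noncomputable section

namespace Fermat.Agent.LT.Selmer

open Fermat.Agent.Arith (QBar GQ)
open Fermat.Agent.CFT.Flat (decG inG inG_le_decG)
open Deform (M2 InV IsCocycle conjAct)

/-! ## The three lines -/

/-- The three lines. -/
abbrev Line := {x : M2 (ZMod 2) // IsTransp x}

theorem line_cases : ∀ t x : M2 (ZMod 2), IsTransp t → InV x →
    ((t + 1) * x).trace = 0 → x = 0 ∨ x = t := by decide

theorem line_trace : ∀ t x : M2 (ZMod 2), IsTransp t → (x = 0 ∨ x = t) →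
    ((t + 1) * x).trace = 0 ∧ t * x * t = x := by decide

theorem trace_line : ∀ t : M2 (ZMod 2), IsTransp t → (t * t).trace = 0 := by decide

theorem eq_zero_of_trace : ∀ t x y : M2 (ZMod 2), IsTransp t → InV x → InV y →
    ((t + 1) * x).trace = 0 → ((t + 1) * y).trace ≠ 0 → (x * y).trace = 0 → x = 0 := by decide

theorem card_line : Fintype.card Line ≤ 3 := by decide

set_option synthInstance.maxSize 512 in
theorem exists_conj_pair : ∀ a b c d : Line, a ≠ b → c ≠ d →
    ∃ u u' : M2 (ZMod 2), u * u' = 1 ∧ u * a.1 * u' = c.1 ∧ u * b.1 * u' = d.1 := by decide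

theorem isTransp_conj : ∀ g g' x : M2 (ZMod 2), g * g' = 1 → IsTransp x →
    IsTransp (g * x * g') := by
  decide

theorem sum_line : ∀ x y : M2 (ZMod 2), InV x → InV y →
    ∑ Q : Line, ((Q : M2 (ZMod 2)) * x).trace * ((Q : M2 (ZMod 2)) * y).trace = (x * y).trace := by
  decide

variable {r : GQ →* (M2 (ZMod 2))ˣ} {c : GQ → M2 (ZMod 2)}

theorem conjAct_zero (g : GQ) : conjAct r g 0 = 0 := by simp [conjAct]

theorem conjAct_of_eq_one {g : GQ} (h : r g = 1) (x : M2 (ZMod 2)) : conjAct r g x = x := by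
  simp [conjAct, h]

theorem inV_conjAct (g : GQ) {x : M2 (ZMod 2)} (hx : InV x) : InV (conjAct r g x) :=
  Group2.inV_conj _ _ _ (Units.mul_inv _) hx

/-- A transposition is its own inverse. -/
theorem coe_inv_of_transp {g : GQ} {t : M2 (ZMod 2)} (ht : IsTransp t)
    (h : (r g : M2 (ZMod 2)) = t) : (↑(r g)⁻¹ : M2 (ZMod 2)) = t := by
  have hsq : ∀ t : M2 (ZMod 2), IsTransp t → t * t = 1 := by decide
  exact Units.inv_eq_of_mul_eq_one_right (by rw [h, hsq t ht])

theorem conjAct_conjAct (g h : GQ) (x : M2 (ZMod 2)) :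
    conjAct r g (conjAct r h x) = conjAct r (g * h) x := by
  simp [conjAct, map_mul, mul_assoc]

namespace Coc

/-- A cocycle vanishes at one. -/
theorem one (hc : IsCocycle r c) : c 1 = 0 := by
  have h := hc.mul 1 1
  rw [mul_one, conjAct_of_eq_one (map_one r)] at h
  calc c 1 = c 1 + c 1 := h
    _ = 0 := Group2.add_self_m2 _

/-- On the kernel of `r` a cocycle turns conjugation into the residual action. -/
theorem conj (hc : IsCocycle r c) {τ : GQ} (hτ : r τ = 1) (g : GQ) :
    c (g * τ * g⁻¹) = conjAct r g (c τ) := by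
  have h1 := hc.mul g g⁻¹
  rw [mul_inv_cancel, one hc] at h1
  rw [hc.mul, hc.mul, ← conjAct_conjAct, conjAct_of_eq_one hτ, add_right_comm, ← h1, zero_add]

end Coc

/-- The action on lines. -/
def act (r : GQ →* (M2 (ZMod 2))ˣ) : GQ →* Equiv.Perm Line where
  toFun g :=
    { toFun := fun Q => ⟨conjAct r g Q.1, isTransp_conj _ _ _ (Units.mul_inv _) Q.2⟩
      invFun := fun Q => ⟨conjAct r g⁻¹ Q.1, isTransp_conj _ _ _ (Units.mul_inv _) Q.2⟩
      left_inv := fun Q => Subtype.ext (by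
        show conjAct r g⁻¹ (conjAct r g Q.1) = Q.1
        rw [conjAct_conjAct, inv_mul_cancel, conjAct_of_eq_one (map_one r)])
      right_inv := fun Q => Subtype.ext (by
        show conjAct r g (conjAct r g⁻¹ Q.1) = Q.1
        rw [conjAct_conjAct, mul_inv_cancel, conjAct_of_eq_one (map_one r)]) }
  map_one' := Equiv.ext fun Q => Subtype.ext (conjAct_of_eq_one (map_one r) _)
  map_mul' g h := Equiv.ext fun Q => Subtype.ext (conjAct_conjAct g h _).symm

theorem coe_back (g : GQ) (Q : Line) :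
    ((back (act r) g Q : Line) : M2 (ZMod 2)) = conjAct r g⁻¹ Q.1 := rfl

theorem act_locConst (h : LocConst r) : LocConst (act r) := by
  obtain ⟨L, hL, hLr⟩ := h
  exact ⟨L, hL, fun g g' hg => Equiv.ext fun Q => Subtype.ext (by
    show conjAct r g Q.1 = conjAct r g' Q.1
    rw [conjAct, conjAct, hLr g g' hg])⟩

/-! ## The cup product -/

/-- The coordinates of a class. -/
def coordFun (c : GQ → M2 (ZMod 2)) (g : GQ) (Q : Line) : ZMod 2 := ((Q : M2 (ZMod 2)) * c g).trace

theorem trace_conjAct (g : GQ) (Q x : M2 (ZMod 2)) :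
    (conjAct r g⁻¹ Q * x).trace = (Q * conjAct r g x).trace := by
  simp only [conjAct, map_inv, inv_inv]
  rw [Matrix.mul_assoc, Matrix.mul_assoc, Matrix.trace_mul_comm, Matrix.mul_assoc,
    ← Matrix.mul_assoc]

theorem coordFun_mul (hc : IsCocycle r c) (g h : GQ) (Q : Line) :
    coordFun c (g * h) Q = coordFun c g Q + coordFun c h (back (act r) g Q) := by
  simp only [coordFun, coe_back, hc.mul, mul_add, Matrix.trace_add, trace_conjAct]

/-- The cup product. -/
def cup (r : GQ →* (M2 (ZMod 2))ˣ) (c φ : GQ → M2 (ZMod 2)) : Cochain :=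
  fun g h => (c g * conjAct r g (φ h)).trace

variable {φ : GQ → M2 (ZMod 2)}

theorem cup_eq_zero_of_line {t : M2 (ZMod 2)} (ht : IsTransp t) {g h : GQ}
    (hr : (r g : M2 (ZMod 2)) = 1 ∨ (r g : M2 (ZMod 2)) = t) (hc : c g = 0 ∨ c g = t)
    (hφ : φ h = 0 ∨ φ h = t) : cup r c φ g h = 0 := by
  have e : conjAct r g (φ h) = φ h := by
    rcases hr with hr | hr
    · exact conjAct_of_eq_one (Units.ext hr) _
    · rw [conjAct, coe_inv_of_transp ht hr, hr]
      exact (line_trace t _ ht hφ).2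
  rw [cup, e]
  rcases hc with hc | hc <;> rcases hφ with hφ | hφ <;> simp [hc, hφ, trace_line t ht]

/-- **The cup product is a sum of symbols.** -/
theorem isSymb_cup (hsurj : Function.Surjective r) (hr : LocConst r) (hc : IsCocycle r c)
    (hcL : LocConst c) (hφ : IsCocycle r φ) (hφL : LocConst φ) : IsSymb (cup r c φ) := by
  have hπ := act_locConst hr
  have hpair : ∀ a b : Line, a ≠ b → ∀ a' b' : Line, a' ≠ b' →
      ∃ g, act r g a = a' ∧ act r g b = b' := fun a b hab a' b' hab' => by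
    obtain ⟨u, u', huu, h1, h2⟩ := exists_conj_pair a b a' b' hab hab'
    obtain ⟨g, hg⟩ := hsurj (Group2.mk2 u u' huu)
    refine ⟨g, Subtype.ext ?_, Subtype.ext ?_⟩
    · show conjAct r g a.1 = a'.1
      rw [conjAct, hg]; exact h1
    · show conjAct r g b.1 = b'.1
      rw [conjAct, hg]; exact h2
  have hne : ∀ Q : Line, ∃ Q', Q ≠ Q' := by decide
  have htrans : ∀ Q Q' : Line, ∃ g, act r g Q = Q' := fun Q Q' => by
    obtain ⟨R, hR⟩ := hne Q
    obtain ⟨R', hR'⟩ := hne Q'
    obtain ⟨g, hg, -⟩ := hpair Q R hR Q' R' hR'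
    exact ⟨g, hg⟩
  have : Nonempty Line := ⟨⟨!![0, 1; 1, 0], by decide⟩⟩
  obtain ⟨w, hw, hwC⟩ := exists_kummer_family htrans hπ (coordFun c)
    (hcL.map fun x (Q : Line) => (Q.1 * x).trace) (coordFun_mul hc)
  obtain ⟨w', hw', hwD⟩ := exists_kummer_family htrans hπ (coordFun φ)
    (hφL.map fun x (Q : Line) => (Q.1 * x).trace) (coordFun_mul hφ)
  obtain ⟨Q₀⟩ := ‹Nonempty Line›
  obtain ⟨Q₁, hQ₁⟩ := hne Q₀
  obtain ⟨θ, hθe, hθne⟩ := exists_family_ne hπ hQ₁
  have hθg : ∀ g Q, θ (act r g Q) = g (θ Q) := fun g Q => by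
    rw [← hθe g (act r g Q), back_apply]
  have hinj : Function.Injective θ := fun a b e => by
    by_contra hab
    obtain ⟨g, hga, hgb⟩ := hpair a b hab Q₀ Q₁ hQ₁
    exact hθne (by rw [← hga, ← hgb, hθg, hθg, e])
  have hirr : ∀ Q (q : ℚ), θ Q ≠ q := fun Q q e => hθne (by
    obtain ⟨g, hg⟩ := htrans Q Q₀
    obtain ⟨g', hg'⟩ := htrans Q Q₁
    rw [← hg, ← hg', hθg, hθg, e, map_ratCast, map_ratCast])
  have hadm : ∀ {v : Line → QBar}, IsKum (act r) v → Adm (act r) (fun Q => v Q ^ 2) := fun hv =>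
    ⟨fun g Q => by rw [map_pow]; exact hv.sq g Q, fun Q => pow_ne_zero 2 (hv.ne_zero Q)⟩
  refine IsSymb.of_sim (SimOn.trans (SimOn.of_eq (f' := phi (act r) w w') fun g _ h _ => ?_)
    (simOn_of_sq hπ (hadm hw).isKum_root (hadm hw').isKum_root
      (fun Q => by simp [root, rt_sq]) fun Q => by simp [root, rt_sq]))
    (isSymb_pair hπ hθe hirr card_line hinj (hadm hw) (hadm hw'))
  simp only [phi, hwC, hwD, coordFun, coe_back, trace_conjAct]
  exact (sum_line _ _ (hc.inV g) (inV_conjAct g (hφ.inV h))).symm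

/-! ## Reciprocity -/

/-- The decomposition set at `v` is the decomposition group of the chosen place. -/
theorem dec_eq (v : ℕ) [Fact v.Prime] : dec v = (decG v : Set GQ) := dif_pos (Fact.out : v.Prime)

theorem ch_conj_infty {σ : GQ} (h1 : ∀ x : QBar, x ^ 2 = -1 → σ x = -x)
    (h2 : ∀ (n : ℕ) (x : QBar), x ^ 2 = (n : QBar) → σ x = x) {a : ℤ} (ha : a ≠ 0) :
    ch a σ = if a < 0 then 1 else 0 := by
  have hpos : ∀ n : ℕ, n ≠ 0 → ch (n : ℤ) σ = 0 := fun n hn =>
    ch_eq_zero (by exact_mod_cast hn) (h2 n _ (by rw [rt_sq]; norm_cast))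
  have hn := hpos a.natAbs (Int.natAbs_ne_zero.mpr ha)
  rcases lt_or_gt_of_ne ha with h | h
  · have hm : ch (-1) σ = 1 := ch_eq_of_sq (by norm_num) (rt_sq _)
      (by rw [pm_one, neg_one_mul]; exact h1 _ (by rw [rt_sq]; norm_cast))
    rw [if_pos h, show a = -1 * (a.natAbs : ℤ) by omega,
      ch_mul (by norm_num) (by exact_mod_cast Int.natAbs_ne_zero.mpr ha), hm, hn, add_zero]
  · rw [if_neg h.not_gt, show a = (a.natAbs : ℤ) by omega, hn]

/-- The test at infinity. -/
theorem hInf_sum_eq_zero {σ : GQ} (hσ : σ * σ = 1) (h1 : ∀ x : QBar, x ^ 2 = -1 → σ x = -x)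
    (h2 : ∀ (n : ℕ) (x : QBar), x ^ 2 = (n : QBar) → σ x = x) {L : List (ℤ × ℤ)}
    (hL : ∀ p ∈ L, p.1 ≠ 0 ∧ p.2 ≠ 0) {f : Cochain}
    (hsim : SimOn Set.univ f (L.map fun p => sym p.1 p.2).sum) (hf1 : f 1 1 = 0) (hfσ : f σ σ = 0) :
    (L.map fun p => hInf p.1 p.2).sum = 0 := by
  obtain ⟨ν, -, e⟩ := hsim
  have hsum : ∀ g h, (L.map fun p => sym p.1 p.2).sum g h =
      (L.map fun p => ch p.1 g * ch p.2 h).sum := fun g h => by
    clear e
    induction L with
    | nil => rfl
    | cons p L ih =>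
      simp only [List.map_cons, List.sum_cons, Pi.add_apply, sym_apply,
        ih fun q hq => hL q (List.mem_cons_of_mem p hq)]
  have hσL : (L.map fun p => ch p.1 σ * ch p.2 σ).sum = (L.map fun p => hInf p.1 p.2).sum :=
    congrArg List.sum (List.map_congr_left fun p hp => by
      rw [ch_conj_infty h1 h2 (hL p hp).1, ch_conj_infty h1 h2 (hL p hp).2, hInf]
      split_ifs <;> simp_all)
  have h11 : (L.map fun p => ch p.1 (1 : GQ) * ch p.2 (1 : GQ)).sum = 0 :=
    List.sum_eq_zero fun x hx => by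
      obtain ⟨p, hp, rfl⟩ := List.mem_map.mp hx
      rw [ch_one (hL p hp).1, zero_mul]
  have e1 := e 1 trivial 1 trivial
  have e2 := e σ trivial σ trivial
  simp only [Pi.add_apply, hsum, dlt, hf1, hfσ, h11, hσL, hσ, one_mul, zero_add] at e1 e2
  linear_combination e2 - e1 + CharTwo.add_self_eq_zero (ν σ) - CharTwo.add_self_eq_zero (ν 1)

/-- When the invariants off `q` and at infinity vanish, so does the invariant at `q`. -/
private theorem hOdd_sum_eq_zero {U : Finset ℕ} (h2U : 2 ∈ U) (hU : ∀ v ∈ U, v.Prime) {q : ℕ}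
    [hq : Fact q.Prime] (hq2 : q ≠ 2) {L : List (ℤ × ℤ)} (hL : ∀ p ∈ L, p.1 ≠ 0 ∧ p.2 ≠ 0)
    (hoff : ∀ v : ℕ, v.Prime → v ≠ q → (L.map fun p => hAt v p.1 p.2).sum = 0)
    (hinf : (L.map fun p => hInf p.1 p.2).sum = 0) : (L.map fun p => hOdd q p.1 p.2).sum = 0 := by
  classical
  -- The finitely many primes dividing the pairs, with `2` and `q`.
  set P : Finset ℕ := insert q (U ∪
    (L.map fun p => (p.1 * p.2).natAbs.primeFactors).foldr (· ∪ ·) ∅)
  have hP : ∀ v ∈ P, v.Prime := by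
    intro v hv
    simp only [P, Finset.mem_insert, Finset.mem_union] at hv
    rcases hv with rfl | hv | hv
    · exact hq.out
    · exact hU v hv
    · clear hoff hinf
      induction L with
      | nil => simp at hv
      | cons p L ih =>
        simp only [List.map_cons, List.foldr_cons, Finset.mem_union] at hv
        exact hv.elim (fun h => Nat.prime_of_mem_primeFactors h)
          (ih fun x hx => hL x (List.mem_cons_of_mem p hx))
  have hmemP : ∀ p ∈ L, p.1.natAbs.primeFactors ⊆ P ∧ p.2.natAbs.primeFactors ⊆ P := by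
    intro p hp
    have hsub : (p.1 * p.2).natAbs.primeFactors ⊆
        (L.map fun p => (p.1 * p.2).natAbs.primeFactors).foldr (· ∪ ·) ∅ := by
      clear hoff hinf hP P
      induction L with
      | nil => simp at hp
      | cons x L ih =>
        simp only [List.map_cons, List.foldr_cons]
        rcases List.mem_cons.mp hp with rfl | hp
        · exact Finset.subset_union_left
        · exact (ih (fun y hy => hL y (List.mem_cons_of_mem x hy)) hp).trans
            Finset.subset_union_right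
    rw [Int.natAbs_mul, Nat.primeFactors_mul (Int.natAbs_ne_zero.mpr (hL p hp).1)
      (Int.natAbs_ne_zero.mpr (hL p hp).2)] at hsub
    exact ⟨fun x hx => Finset.mem_insert_of_mem (Finset.mem_union_right _
        (hsub (Finset.mem_union_left _ hx))),
      fun x hx => Finset.mem_insert_of_mem (Finset.mem_union_right _
        (hsub (Finset.mem_union_right _ hx)))⟩
  -- The total invariant of each symbol vanishes.
  have htot : (L.map fun p => hTot P p.1 p.2).sum = 0 :=
    List.sum_eq_zero fun x hx => by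
      obtain ⟨p, hp, rfl⟩ := List.mem_map.mp hx
      exact hTot_eq_zero (Finset.mem_insert_of_mem (Finset.mem_union_left _ h2U)) hP
        (hL p hp).1 (hL p hp).2 (hmemP p hp).1 (hmemP p hp).2
  have hsplit : (L.map fun p => hTot P p.1 p.2).sum =
      ∑ v ∈ P, (L.map fun p => hAt v p.1 p.2).sum + (L.map fun p => hInf p.1 p.2).sum := by
    clear htot hmemP hoff hinf hP hL
    clear_value P
    simp only [hTot, List.sum_map_add]
    congr 1
    induction L with
    | nil => simp
    | cons p L ih =>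
      simp only [List.map_cons, List.sum_cons, Finset.sum_add_distrib, ih]
  -- So only the term at `q` remains.
  rw [hsplit, hinf, add_zero, Finset.sum_eq_single_of_mem q (Finset.mem_insert_self q _)
    fun v hv hne => hoff v (hP v hv) hne] at htot
  simpa only [hAt_odd hq2] using htot

/-- **Reciprocity.** -/
theorem ramified_eq_zero {U : Finset ℕ} {t : ℕ → M2 (ZMod 2)} {q : ℕ} [hq : Fact q.Prime]
    (hsurj : Function.Surjective r) (hr : LocConst r)
    (hru : ∀ (v : ℕ) [Fact v.Prime], v ∉ U → ∀ σ ∈ inG v, r σ = 1)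
    (hconj : ∃ σ : GQ, σ * σ = 1 ∧ r σ ≠ 1 ∧
      (∀ x : QBar, x ^ 2 = -1 → σ x = -x) ∧ ∀ (n : ℕ) (x : QBar), x ^ 2 = (n : QBar) → σ x = x)
    (h2U : 2 ∈ U) (hU : ∀ v ∈ U, v.Prime) (hqU : q ∉ U)
    (ht : ∀ v ∈ U, IsTransp (t v) ∧
      ∀ g ∈ dec v, (r g : M2 (ZMod 2)) = 1 ∨ (r g : M2 (ZMod 2)) = t v)
    (hc : IsCocycle r c) (hcL : LocConst c) (hφ : IsCocycle r φ) (hφL : LocConst φ)
    (hcu : ∀ (v : ℕ) [Fact v.Prime], v ∉ U → v ≠ q → ∀ σ ∈ inG v, c σ = 0)
    (hφu : ∀ (v : ℕ) [Fact v.Prime], v ∉ U → ∀ σ ∈ inG v, φ σ = 0)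
    (hcline : ∀ v ∈ U, ∀ g ∈ dec v, ((t v + 1) * c g).trace = 0)
    (hφline : ∀ v ∈ U, ∀ g ∈ dec v, ((t v + 1) * φ g).trace = 0)
    {u : M2 (ZMod 2)} (hu : IsTransp u) (hcq : ∀ g ∈ inG q, ((u + 1) * c g).trace = 0)
    {F : GQ} (hF : (padicPlace q).IsFrobeniusAt F q) (hφF : ((u + 1) * φ F).trace ≠ 0) :
    ∀ A : ValuationSubring QBar, A.LiesOverPrime q → ∀ σ ∈ A.inertiaSubgroupIn ℚ, c σ = 0 := by
  classical
  obtain ⟨L, hL, hsim⟩ := isSymb_cup hsurj hr hc hcL hφ hφL
  have hq2 : q ≠ 2 := fun h => hqU (h ▸ h2U)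
  set f := cup r c φ
  have hflat : ∀ v ∈ U, ∀ g ∈ dec v, ∀ h ∈ dec v, f g h = 0 := fun v hv g hg h hh =>
    cup_eq_zero_of_line (ht v hv).1 ((ht v hv).2 g hg)
      (line_cases _ _ (ht v hv).1 (hc.inV g) (hcline v hv g hg))
      (line_cases _ _ (ht v hv).1 (hφ.inV h) (hφline v hv h hh))
  have hsimD : ∀ D : Set GQ, SimOn D f (L.map fun p => sym p.1 p.2).sum := fun D =>
    CobOn.mono (Set.subset_univ D) hsim
  -- the invariants off `q` vanish: in `U` the cochain is zero on the decomposition group; at the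
  -- other odd primes it vanishes when an argument is inertial, so its test is zero
  have hoff : ∀ v : ℕ, v.Prime → v ≠ q → (L.map fun p => hAt v p.1 p.2).sum = 0 := by
    intro v hv hvq
    have : Fact v.Prime := ⟨hv⟩
    rcases eq_or_ne v 2 with rfl | hv2
    · simp only [hAt_two]
      refine hTwo_sum_eq_zero hL ((CobOn.add (hsimD _) CobOn.zero).congr fun g hg h hh => ?_)
      simp only [Pi.add_apply, Pi.zero_apply, add_zero,
        hflat 2 h2U g (by rw [dec_eq]; exact hg) h (by rw [dec_eq]; exact hh), zero_add]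
    simp only [hAt_odd hv2]
    obtain ⟨τ, hτ, hτ1⟩ := exists_inertia_ch_prime (v := v)
    obtain ⟨Φ, hΦ⟩ := Arith.exists_isFrobeniusAt (CFT.Local.padicPlace_liesOverPrime v) hv
    have hτ' := conj_mem_inG hΦ hτ
    have hle : inG v ≤ decG v := inG_le_decG v
    by_cases hvU : v ∈ U
    · have hz : ∀ g ∈ decG v, ∀ h ∈ decG v, f g h = 0 := fun g hg h hh =>
        hflat v hvU g (by rw [dec_eq]; exact hg) h (by rw [dec_eq]; exact hh)
      have h := testAt_eq_sum hv2 hL (hsimD _) (fun g hg h hh => hz g (hle hg) h (hle hh)) hΦ hτ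
      rw [testAt, hz _ (mem_decG_of_frobenius hΦ) _ (hle hτ),
        hz _ (hle hτ') _ (mem_decG_of_frobenius hΦ), add_zero, hτ1, mul_one] at h
      exact h.symm
    · have hc0 : ∀ g ∈ inG v, ∀ h, f g h = 0 := fun g hg h => by
        simp [f, cup, hcu v hvU hvq g hg]
      have hφ0 : ∀ g, ∀ h ∈ inG v, f g h = 0 := fun g h hh => by
        simp [f, cup, hφu v hvU h hh, conjAct_zero]
      have h := testAt_eq_sum hv2 hL (hsimD _) (fun g hg h _ => hc0 g hg h) hΦ hτ
      rw [testAt, hφ0 _ _ hτ, hc0 _ hτ' _, add_zero, hτ1, mul_one] at h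
      exact h.symm
  -- at infinity both classes lie on the line of complex conjugation
  have hinf : (L.map fun p => hInf p.1 p.2).sum = 0 := by
    obtain ⟨σ, hσ, hrσ, h1, h2⟩ := hconj
    refine hInf_sum_eq_zero hσ h1 h2 hL hsim (by simp [f, cup, Coc.one hc]) ?_
    have hcase : ∀ x : M2 (ZMod 2), x * x = 1 → x ≠ 1 → IsTransp x := by decide
    have hT : IsTransp (r σ : M2 (ZMod 2)) :=
      hcase _ (by rw [← Units.val_mul, ← map_mul, hσ, map_one, Units.val_one])
        fun e => hrσ (Units.ext e)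
    have hfix : ∀ x t : M2 (ZMod 2), IsTransp t → InV x → 0 = x + t * x * t → x = 0 ∨ x = t := by
      decide
    have hmem : ∀ {ψ : GQ → M2 (ZMod 2)}, IsCocycle r ψ →
        ψ σ = 0 ∨ ψ σ = (r σ : M2 (ZMod 2)) := fun {ψ} hψ => by
      refine hfix _ _ hT (hψ.inV σ) ?_
      have := hψ.mul σ σ
      rw [hσ, Coc.one hψ, conjAct, coe_inv_of_transp hT rfl] at this
      exact this
    exact cup_eq_zero_of_line hT (Or.inr rfl) (hmem hc) (hmem hφ)
  -- the invariant at `q`
  have hq0 : (L.map fun p => hOdd q p.1 p.2).sum = 0 := hOdd_sum_eq_zero h2U hU hq2 hL hoff hinf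
  -- so the test at `q` is zero: `tr (c (F τ F⁻¹) φ F) = 0`, and as `φ F` is off the line `u`
  -- while `c (F τ F⁻¹)` is on it, the latter is zero
  have hloc : ∀ τ ∈ inG q, c τ = 0 := by
    intro τ hτ
    have hφ0 : ∀ g, ∀ h ∈ inG q, f g h = 0 := fun g h hh => by
      simp [f, cup, hφu q hqU h hh, conjAct_zero]
    have h := testAt_eq_sum hq2 hL (hsimD _) (fun g _ h hh => hφ0 g h hh) hF hτ
    have hτ' := conj_mem_inG hF hτ
    have hrτ' : r (F * τ * F⁻¹) = 1 := hru q hqU _ hτ'
    rw [testAt, hφ0 _ _ hτ, zero_add, hq0, zero_mul] at h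
    simp only [f, cup, conjAct_of_eq_one hrτ'] at h
    have h0 : c (F * τ * F⁻¹) = 0 :=
      eq_zero_of_trace u _ _ hu (hc.inV _) (hφ.inV F) (hcq _ hτ') hφF h
    have hrτ : r τ = 1 := hru q hqU τ hτ
    rw [Coc.conj hc hrτ F] at h0
    have := congrArg (conjAct r F⁻¹) h0
    rwa [conjAct_conjAct, inv_mul_cancel, conjAct_of_eq_one (map_one r), conjAct_zero] at this
  intro A hA σ hσ
  obtain ⟨g, rfl⟩ := Arith.exists_smul_eq (CFT.Local.padicPlace_liesOverPrime q) hA hq.out
  have hσ0 : g⁻¹ * σ * g ∈ inG q := by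
    refine (Arith.mem_inertia_smul_iff (g := g) (A := padicPlace q)).mp ?_
    rwa [show g * (g⁻¹ * σ * g) * g⁻¹ = σ by group]
  rw [show σ = g * (g⁻¹ * σ * g) * g⁻¹ by group, Coc.conj hc (hru q hqU _ hσ0), hloc _ hσ0,
    conjAct_zero]

end Fermat.Agent.LT.Selmer
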