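import Fermat.Agent.LT.Selmer.Hilbert

/-!
# Reduction to rational symbols

For a transitive equivariant set of three points every corestricted cup product of Kummer families
is, up to a coboundary, a sum of symbols of pairs of non-zero integers.

Main result: `isSymb_pair`.
-/

set_option autoImplicit false

noncomputable section

namespace Fermat.Agent.LT.Selmer

open Fermat.Agent.Arith (QBar GQ)
open Polynomial

/-! ## Quadratic characters and symbols -/

/-- A square root. -/
def rt (x : QBar) : QBar := (IsAlgClosed.exists_pow_nat_eq x (n := 2) two_pos).choose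

/-- The chosen square root squares to the element. -/
theorem rt_sq (x : QBar) : rt x ^ 2 = x :=
  (IsAlgClosed.exists_pow_nat_eq x (n := 2) two_pos).choose_spec

/-- The trivial action on a point. -/
abbrev triv : GQ →* Equiv.Perm Unit := 1

/-- The trivial action on a point has finite level. -/
theorem triv_locConst : LocConst triv :=
  LocConst.const 1

/-- The quadratic character of `x`. -/
def chr (x : QBar) (g : GQ) : ZMod 2 := sgnFun triv (fun _ => x) g ()

/-- The symbol of two integers. -/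
def sym (a b : ℤ) : Cochain := fun g h => chr (rt a) g * chr (rt b) h

theorem phi_triv (x y : QBar) :
    phi triv (fun _ => x) (fun _ => y) = fun g h => chr x g * chr y h := by
  ext g h
  simp [phi, chr, back]

theorem isKum_triv {x : QBar} (hx : x ≠ 0) {q : ℚ} (h : x ^ 2 = (q : QBar)) :
    IsKum triv (fun _ => x) where
  ne_zero _ := hx
  sq g _ := by rw [← map_pow, h, map_ratCast]

variable {P : Type*} [Fintype P] {π : GQ →* Equiv.Perm P}

/-! ## Families and sums of symbols -/

/-- An equivariant family. -/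
def IsEquiv (π : GQ →* Equiv.Perm P) (x : P → QBar) : Prop :=
  ∀ (g : GQ) (Q : P), g (x (back π g Q)) = x Q

/-- An equivariant family without zeros. -/
def Adm (π : GQ →* Equiv.Perm P) (x : P → QBar) : Prop := IsEquiv π x ∧ ∀ Q, x Q ≠ 0

/-- The chosen Kummer family. -/
def root (x : P → QBar) : P → QBar := fun Q => rt (x Q)

/-- A constant family. -/
def cst (q : ℚ) : P → QBar := fun _ => (q : QBar)

/-- The pairing of two families. -/
def pair (π : GQ →* Equiv.Perm P) (x y : P → QBar) : Cochain := phi π (root x) (root y)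

/-- A sum of symbols up to a coboundary. -/
def IsSymb (f : Cochain) : Prop :=
  ∃ L : List (ℤ × ℤ), (∀ p ∈ L, p.1 ≠ 0 ∧ p.2 ≠ 0) ∧
    SimOn Set.univ f (L.map fun p => sym p.1 p.2).sum

theorem IsSymb.of_sim {f f' : Cochain} (h : SimOn Set.univ f f') (h' : IsSymb f') : IsSymb f := by
  obtain ⟨L, hL, e⟩ := h'
  exact ⟨L, hL, h.trans e⟩

/-- The cochains which are sums of symbols up to a coboundary are closed under addition. -/
theorem IsSymb.add {f f' : Cochain} (h : IsSymb f) (h' : IsSymb f') : IsSymb (f + f') := by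
  obtain ⟨L, hL, e⟩ := h
  obtain ⟨L', hL', e'⟩ := h'
  refine ⟨L ++ L', fun p hp => (List.mem_append.mp hp).elim (hL p) (hL' p), ?_⟩
  rw [List.map_append, List.sum_append]
  exact e.add e'

theorem IsSymb.zero : IsSymb 0 := ⟨[], by simp, SimOn.refl _⟩

theorem IsSymb.of_cob {f : Cochain} (h : CobOn Set.univ f) : IsSymb f :=
  IsSymb.of_sim (f' := 0) (by rw [SimOn, add_zero]; exact h) IsSymb.zero

theorem IsSymb.cancel {f f' : Cochain} (h : IsSymb (f + f')) (h' : IsSymb f') : IsSymb f := by
  refine IsSymb.of_sim (SimOn.of_eq fun g _ l _ => ?_) (h.add h')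
  simp only [Pi.add_apply]
  linear_combination -CharTwo.add_self_eq_zero (f' g l)

theorem isSymb_ratSym {x y : QBar} {a b : ℚ} (ha : a ≠ 0) (hb : b ≠ 0)
    (hx : x ^ 2 = (a : QBar)) (hy : y ^ 2 = (b : QBar)) :
    IsSymb fun g h => chr x g * chr y h := by
  -- the character of `√a` is that of the integer `a.num * a.den = a * a.den ^ 2`
  have key : ∀ {x : QBar} {a : ℚ}, a ≠ 0 → x ^ 2 = (a : QBar) →
      IsKum triv (fun _ => rt ((a.num * a.den : ℤ) : QBar)) ∧
        ∀ g, chr x g = chr (x * (a.den : QBar)) g ∧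
          (x * (a.den : QBar)) ^ 2 = ((a.num * a.den : ℤ) : QBar) := by
    intro x a ha hx
    have hn : a.num * (a.den : ℤ) ≠ 0 :=
      mul_ne_zero (Rat.num_ne_zero.mpr ha) (by exact_mod_cast a.den_nz)
    have hd : ((a.den : ℕ) : QBar) ≠ 0 := by exact_mod_cast a.den_nz
    have hx0 : x ≠ 0 := fun h => ha (by
      rw [h, zero_pow two_ne_zero] at hx; exact_mod_cast hx.symm)
    refine ⟨isKum_triv (fun h => hn (by
      have := rt_sq ((a.num * a.den : ℤ) : QBar)
      rw [h, zero_pow two_ne_zero] at this; exact_mod_cast this.symm))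
      (q := (a.num * a.den : ℤ)) (by rw [rt_sq]; norm_cast), fun g => ⟨?_, ?_⟩⟩
    · refine ((isKum_triv (mul_ne_zero hx0 hd) (q := a * (a.den : ℚ) ^ 2)
        (by rw [mul_pow, hx]; push_cast; ring)).sgn_eq ?_).symm
      have e := (isKum_triv hx0 hx).map_eq g ()
      show g (x * _) = _
      rw [map_mul, map_natCast, show g x = g ((fun _ : Unit => x) (back triv g ())) from rfl, e,
        mul_assoc]
      rfl
    · have e : ((a.num : ℚ) : QBar) = (a : QBar) * ((a.den : ℚ) : QBar) := by
        rw [← Rat.cast_mul, Rat.mul_den_eq_num]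
      push_cast at e ⊢
      rw [mul_pow, hx, e]; ring
  obtain ⟨hka, hax⟩ := key ha hx
  obtain ⟨hkb, hby⟩ := key hb hy
  refine ⟨[(a.num * a.den, b.num * b.den)], ?_, ?_⟩
  · intro p hp
    rw [List.mem_singleton] at hp
    subst hp
    exact ⟨mul_ne_zero (Rat.num_ne_zero.mpr ha) (by exact_mod_cast a.den_nz),
      mul_ne_zero (Rat.num_ne_zero.mpr hb) (by exact_mod_cast b.den_nz)⟩
  · rw [List.map_singleton, List.sum_singleton]
    refine (SimOn.of_eq (f' := phi triv (fun _ => x * (a.den : QBar)) (fun _ => y * (b.den : QBar)))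
      fun g _ h _ => ?_).trans ?_
    · rw [phi_triv, (hax g).1, (hby h).1]
    · refine (simOn_of_sq triv_locConst hka hkb (fun _ => ?_) (fun _ => ?_)).trans
        (SimOn.of_eq fun g _ h _ => ?_)
      · rw [(hax 1).2, rt_sq]
      · rw [(hby 1).2, rt_sq]
      · rw [phi_triv]; rfl

namespace Adm

variable {x y : P → QBar}

omit [Fintype P] in
theorem isKum_root (hx : Adm π x) : IsKum π (root x) where
  ne_zero Q h := hx.2 Q (by rw [← rt_sq (x Q)]; show root x Q ^ 2 = 0; rw [h]; ring)
  sq g Q := by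
    show g (rt _) ^ 2 = rt _ ^ 2
    rw [← map_pow, rt_sq, rt_sq, hx.1]

omit [Fintype P] in
/-- Products of admissible families are admissible. -/
theorem mul (hx : Adm π x) (hy : Adm π y) : Adm π (x * y) :=
  ⟨fun g Q => by simp only [Pi.mul_apply, map_mul, hx.1 g Q, hy.1 g Q],
    fun Q => mul_ne_zero (hx.2 Q) (hy.2 Q)⟩

omit [Fintype P] in
/-- Inverses of admissible families are admissible. -/
theorem inv (hx : Adm π x) : Adm π x⁻¹ :=
  ⟨fun g Q => by simp only [Pi.inv_apply, map_inv₀, hx.1 g Q], fun Q => inv_ne_zero (hx.2 Q)⟩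

omit [Fintype P] in
theorem cst {q : ℚ} (hq : q ≠ 0) : Adm π (cst q : P → QBar) :=
  ⟨fun g _ => map_ratCast g q, fun _ => by simpa [Selmer.cst] using hq⟩

omit [Fintype P] in
/-- Negatives of admissible families are admissible. -/
theorem neg (hx : Adm π x) : Adm π (-x) :=
  ⟨fun g Q => by simp only [Pi.neg_apply, map_neg, hx.1 g Q], fun Q => neg_ne_zero.mpr (hx.2 Q)⟩

end Adm

variable (hπ : LocConst π)

/-! ## Identities between pairings -/

include hπ in
theorem pair_mul_left {x x' u : P → QBar} (hx : Adm π x) (hx' : Adm π x') (hu : Adm π u) :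
    SimOn Set.univ (pair π (x * x') u) (pair π x u + pair π x' u) := by
  rw [pair, pair, pair, ← phi_mul_left hx.isKum_root hx'.isKum_root]
  exact simOn_of_sq hπ (hx.isKum_root.mul hx'.isKum_root) hu.isKum_root
    (fun Q => by simp only [root, Pi.mul_apply, mul_pow, rt_sq]) fun _ => rfl

include hπ in
theorem pair_mul_right {x y y' : P → QBar} (hx : Adm π x) (hy : Adm π y) (hy' : Adm π y') :
    SimOn Set.univ (pair π x (y * y')) (pair π x y + pair π x y') := by
  rw [pair, pair, pair, ← phi_mul_right _ hy.isKum_root hy'.isKum_root]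
  exact simOn_of_sq hπ hx.isKum_root (hy.isKum_root.mul hy'.isKum_root)
    (fun _ => rfl) fun Q => by simp only [root, Pi.mul_apply, mul_pow, rt_sq]

include hπ in
theorem pair_steinberg {x y : P → QBar} (hx : Adm π x) (hy : Adm π y) (h : ∀ Q, x Q + y Q = 1) :
    IsSymb (pair π x y) :=
  IsSymb.of_cob (cobOn_steinberg hπ hx.isKum_root hy.isKum_root fun Q => by
    simp only [root, rt_sq, h Q])

theorem sgn_prod {w : P → QBar} (hw : IsKum π w) {N : ℚ} (hN : (∏ Q, w Q) ^ 2 = (N : QBar))
    (g : GQ) : chr (∏ Q, w Q) g = ∑ Q, sgnFun π w g Q := by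
  refine (isKum_triv (Finset.prod_ne_zero_iff.mpr fun Q _ => hw.ne_zero Q) hN).sgn_eq ?_
  show g (∏ Q, w Q) = _
  rw [map_prod, pm_sum, ← Finset.prod_mul_distrib]
  simp only [← hw.map_eq g]
  exact (Equiv.prod_comp ((π g)⁻¹ : Equiv.Perm P) fun Q => g (w Q)).symm

theorem exists_norm {x : P → QBar} (hx : Adm π x) :
    ∃ N : ℚ, N ≠ 0 ∧ (∏ Q, root x Q) ^ 2 = (N : QBar) := by
  obtain ⟨N, hN⟩ := Arith.exists_ratCast_of_fixed (z := ∏ Q, x Q) fun g => by
    rw [map_prod, ← Equiv.prod_comp ((π g)⁻¹ : Equiv.Perm P) fun Q => g (x Q)]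
    exact Finset.prod_congr rfl fun Q _ => hx.1 g Q
  refine ⟨N, fun h => ?_, by rw [← Finset.prod_pow, ← hN]; simp [root, rt_sq]⟩
  rw [h, Rat.cast_zero] at hN
  exact Finset.prod_ne_zero_iff.mpr (fun Q _ => hx.2 Q) hN

theorem pair_cst_right {x : P → QBar} (hx : Adm π x) {q : ℚ} (hq : q ≠ 0) :
    IsSymb (pair π x (cst q)) := by
  obtain ⟨N, hN0, hN⟩ := exists_norm hx
  refine IsSymb.of_sim (SimOn.of_eq (f' := fun g h => chr (∏ Q, root x Q) g * chr (rt (q : QBar)) h)
    fun g _ h _ => ?_) (isSymb_ratSym hN0 hq hN (rt_sq _))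
  show ∑ Q, _ = _
  rw [sgn_prod hx.isKum_root hN, Finset.sum_mul]
  rfl

theorem pair_cst_left {x : P → QBar} (hx : Adm π x) {q : ℚ} (hq : q ≠ 0) :
    IsSymb (pair π (cst q) x) := by
  obtain ⟨N, hN0, hN⟩ := exists_norm hx
  refine IsSymb.of_sim (SimOn.of_eq (f' := fun g h => chr (rt (q : QBar)) g * chr (∏ Q, root x Q) h)
    fun g _ h _ => ?_) (isSymb_ratSym hq hN0 (rt_sq _) hN)
  show ∑ Q, _ = _
  rw [sgn_prod hx.isKum_root hN, Finset.mul_sum]
  exact sum_back π g fun Q => chr (rt (q : QBar)) g * sgnFun π (root x) h Q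

include hπ in
/-- A family paired with itself. -/
theorem pair_self {x : P → QBar} (hx : Adm π x) (h1 : ∀ Q, x Q ≠ 1) : IsSymb (pair π x x) := by
  have hneg : Adm π (cst (-1) : P → QBar) := Adm.cst (by norm_num)
  set a : P → QBar := fun Q => 1 - x Q
  set b : P → QBar := fun Q => 1 - (x Q)⁻¹
  have ha : Adm π a := ⟨fun g Q => by simp only [a, map_sub, map_one, hx.1 g Q],
    fun Q => sub_ne_zero.mpr (h1 Q).symm⟩
  have hb : Adm π b := ⟨fun g Q => by simp only [b, map_sub, map_one, map_inv₀, hx.1 g Q],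
    fun Q => sub_ne_zero.mpr fun e => h1 Q (by rw [← inv_inv (x Q), ← e, inv_one])⟩
  have hab : a = -x * b := funext fun Q => by
    simp only [a, b, Pi.mul_apply, Pi.neg_apply]
    field_simp [hx.2 Q]
    ring
  have hxb : IsSymb (pair π x b) := by
    have h2 : IsSymb (pair π (x * x⁻¹) b) := by
      rw [show x * x⁻¹ = cst 1 from funext fun Q => by simp [cst, hx.2 Q]]
      exact pair_cst_left hb one_ne_zero
    exact (h2.of_sim (pair_mul_left hπ hx hx.inv hb).symm).cancel
      (pair_steinberg hπ hx.inv hb fun Q => by simp [b])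
  have hxn : IsSymb (pair π x (-x)) := by
    have h2 : IsSymb (pair π x a) := pair_steinberg hπ hx ha fun Q => by simp [a]
    rw [hab] at h2
    exact (h2.of_sim (pair_mul_right hπ hx hx.neg hb).symm).cancel hxb
  rw [show -x = x * cst (-1) from funext fun Q => by simp [cst]] at hxn
  exact (hxn.of_sim (pair_mul_right hπ hx hx hneg).symm).cancel
    (pair_cst_right hx (by norm_num))

/-! ## Linear families and the reduction -/

section Linear

variable {θ : P → QBar}

/-- A linear family. -/
def lin (θ : P → QBar) (a b : ℚ) : P → QBar := fun Q => (a : QBar) + (b : QBar) * θ Q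

variable (hθe : IsEquiv π θ) (hirr : ∀ Q (q : ℚ), θ Q ≠ q)

omit [Fintype P] in
include hθe hirr in
theorem adm_lin {a b : ℚ} (h : ¬ (a = 0 ∧ b = 0)) : Adm π (lin θ a b) := by
  refine ⟨fun g Q => by simp only [lin, map_add, map_mul, map_ratCast, hθe g Q], fun Q e => ?_⟩
  rcases eq_or_ne b 0 with rfl | hb
  · exact h ⟨by simpa [lin] using e, rfl⟩
  · refine hirr Q (-a / b) ?_
    have hb' : (b : QBar) ≠ 0 := by exact_mod_cast hb
    push_cast
    rw [eq_div_iff hb']
    simp only [lin] at e
    linear_combination e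

include hπ hθe hirr in
theorem pair_lin {a b c e : ℚ} (h : ¬ (a = 0 ∧ b = 0)) (h' : ¬ (c = 0 ∧ e = 0)) :
    IsSymb (pair π (lin θ a b) (lin θ c e)) := by
  have hy := adm_lin (π := π) hθe hirr h'
  have hx := adm_lin (π := π) hθe hirr h
  rcases eq_or_ne b 0 with rfl | hb
  · rw [show lin θ a 0 = cst a from funext fun Q => by simp [lin, cst]]
    exact pair_cst_left hy fun h0 => h ⟨h0, rfl⟩
  rcases eq_or_ne e 0 with rfl | he
  · rw [show lin θ c 0 = cst c from funext fun Q => by simp [lin, cst]]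
    exact pair_cst_right hx fun h0 => h' ⟨h0, rfl⟩
  set x := lin θ (a / b) 1
  set y := lin θ (c / e) 1
  have hx' : Adm π x := adm_lin hθe hirr (by simp)
  have hy' : Adm π y := adm_lin hθe hirr (by simp)
  have key : IsSymb (pair π x y) := by
    rcases eq_or_ne (a / b) (c / e) with heq | hne
    · rw [show y = x by simp [x, y, heq]]
      refine pair_self hπ hx' fun Q h1 => hirr Q (1 - a / b) ?_
      simp only [x, lin] at h1
      push_cast at h1 ⊢
      linear_combination h1
    · -- with `d = (x - y)⁻¹` the pair `(d x, -d y)` is Steinberg; peel off the constants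
      set d := (a / b - c / e)⁻¹
      have hd : d ≠ 0 := inv_ne_zero (sub_ne_zero.mpr hne)
      have hd1 : (Adm π (cst d : P → QBar)) := Adm.cst hd
      have hd2 : (Adm π (cst (-d) : P → QBar)) := Adm.cst (neg_ne_zero.mpr hd)
      have hs : IsSymb (pair π (x * cst d) (y * cst (-d))) := by
        refine pair_steinberg hπ (hx'.mul hd1) (hy'.mul hd2) fun Q => ?_
        have e1 : ((d : ℚ) : QBar) * (((a / b - c / e : ℚ)) : QBar) = 1 := by
          rw [← Rat.cast_mul, inv_mul_cancel₀ (sub_ne_zero.mpr hne), Rat.cast_one]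
        simp only [x, y, lin, cst, Pi.mul_apply]
        push_cast at e1 ⊢
        linear_combination e1
      exact (((hs.of_sim (pair_mul_left hπ hx' hd1 (hy'.mul hd2)).symm).cancel
        (pair_cst_left (hy'.mul hd2) hd)).of_sim
          (pair_mul_right hπ hx' hy' hd2).symm).cancel (pair_cst_right hx' (neg_ne_zero.mpr hd))
  have hb1 : Adm π (cst b : P → QBar) := Adm.cst hb
  have he1 : Adm π (cst e : P → QBar) := Adm.cst he
  have ex : lin θ a b = x * cst b := funext fun Q => by
    simp only [x, lin, cst, Pi.mul_apply]; push_cast; field_simp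
  have ey : lin θ c e = y * cst e := funext fun Q => by
    simp only [y, lin, cst, Pi.mul_apply]; push_cast; field_simp
  rw [ex, ey]
  refine IsSymb.of_sim (pair_mul_left hπ hx' hb1 (hy'.mul he1))
    (IsSymb.add ?_ (pair_cst_left (hy'.mul he1) hb))
  exact IsSymb.of_sim (pair_mul_right hπ hx' hy' he1) (key.add (pair_cst_right hx' he))

variable (hcard : Fintype.card P ≤ 3) (hinj : Function.Injective θ)

include hθe hinj hcard in
theorem exists_coords {x : P → QBar} (hx : IsEquiv π x) :
    ∃ v : Fin 3 → ℚ, ∀ Q, x Q = ∑ i : Fin 3, (v i : QBar) * θ Q ^ (i : ℕ) := by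
  classical
  set p := Lagrange.interpolate Finset.univ θ x
  have hnodes : Set.InjOn θ (Finset.univ : Finset P) := hinj.injOn
  have hdeg : p.degree < (Finset.univ : Finset P).card := Lagrange.degree_interpolate_lt x hnodes
  have heval : ∀ Q, p.eval (θ Q) = x Q := fun Q =>
    Lagrange.eval_interpolate_at_node x hnodes (Finset.mem_univ Q)
  have hfix : ∀ g : GQ, p.map (g : QBar →+* QBar) = p := fun g => by
    refine (Lagrange.eq_interpolate_iff x (f := p.map (g : QBar →+* QBar)) hnodes).mp
        ⟨lt_of_le_of_lt degree_map_le hdeg, fun Q _ => ?_⟩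
    rw [← hθe g Q, show g (θ (back π g Q)) = (g : QBar →+* QBar) (θ (back π g Q)) from rfl,
      eval_map, eval₂_hom]
    show g (p.eval _) = _
    rw [heval, hx g Q]
  choose v hv using fun i : Fin 3 => Arith.exists_ratCast_of_fixed (z := p.coeff i) fun g => by
    conv_rhs => rw [← hfix g]
    rw [coeff_map]
    rfl
  refine ⟨v, fun Q => ?_⟩
  have hn : p.natDegree < 3 := by
    rcases eq_or_ne p 0 with hp | hp
    · simp [hp]
    · have := (natDegree_lt_iff_degree_lt hp).mpr hdeg
      rw [Finset.card_univ] at this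
      omega
  rw [← heval Q, eval_eq_sum_range' hn, ← Fin.sum_univ_eq_sum_range fun i => p.coeff i * θ Q ^ i]
  exact Finset.sum_congr rfl fun i _ => by rw [hv i]

include hθe hirr hinj hcard in
theorem exists_fraction {x : P → QBar} (hx : Adm π x) :
    ∃ a b c e : ℚ, ¬ (a = 0 ∧ b = 0) ∧ ¬ (c = 0 ∧ e = 0) ∧ x * lin θ c e = lin θ a b := by
  obtain ⟨u, hu⟩ := exists_coords hθe hcard hinj hx.1
  obtain ⟨v, hv⟩ := exists_coords hθe hcard hinj (x := x * θ)
    fun g Q => by simp only [Pi.mul_apply, map_mul, hx.1 g Q, hθe g Q]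
  -- `1`, `θ`, `x`, `x θ` are dependent in the three-dimensional span of `1`, `θ`, `θ ^ 2`
  let F : Fin 4 → (Fin 3 → ℚ) := ![![1, 0, 0], ![0, 1, 0], u, v]
  have hdep : ¬ LinearIndependent ℚ F := fun h => by
    simpa using h.fintype_card_le_finrank
  obtain ⟨k, hk, i, hi⟩ := Fintype.not_linearIndependent_iff.mp hdep
  rcases isEmpty_or_nonempty P with hP | hP
  · exact ⟨1, 0, 1, 0, by simp, by simp, funext fun Q => (hP.false Q).elim⟩
  have heq : ∀ Q, (k 0 : QBar) + (k 1 : QBar) * θ Q +
      x Q * ((k 2 : QBar) + (k 3 : QBar) * θ Q) = 0 := fun Q => by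
    have c0 := congrFun hk 0
    have c1 := congrFun hk 1
    have c2 := congrFun hk 2
    simp only [F, Fin.sum_univ_four, Finset.sum_apply, Pi.smul_apply, smul_eq_mul,
      Pi.zero_apply, Matrix.cons_val_zero, Matrix.cons_val_one, Matrix.cons_val,
      mul_one, mul_zero, add_zero, zero_add] at c0 c1 c2
    have e0 := congrArg (fun q : ℚ => (q : QBar)) c0
    have e1 := congrArg (fun q : ℚ => (q : QBar)) c1
    have e2 := congrArg (fun q : ℚ => (q : QBar)) c2
    have eu := hu Q
    have ev := hv Q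
    simp only [Fin.sum_univ_three, Pi.mul_apply, Fin.val_zero, Fin.val_one, Fin.val_two, pow_zero,
      pow_one, mul_one] at eu ev
    push_cast at e0 e1 e2
    linear_combination e0 + θ Q * e1 + θ Q ^ 2 * e2 + (k 2 : QBar) * eu + (k 3 : QBar) * ev
  have hce : ¬ (k 2 = 0 ∧ k 3 = 0) := fun ⟨h2, h3⟩ => by
    obtain ⟨Q⟩ := hP
    have e := heq Q
    rw [h2, h3, Rat.cast_zero, zero_mul, zero_add, mul_zero, add_zero] at e
    by_cases hab : k 0 = 0 ∧ k 1 = 0
    · exact hi (by fin_cases i <;> simp [hab.1, hab.2, h2, h3])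
    · exact (adm_lin (π := π) hθe hirr hab).2 Q e
  have hne : ∀ Q, x Q * lin θ (k 2) (k 3) Q = lin θ (-k 0) (-k 1) Q := fun Q => by
    simp only [lin]; push_cast; linear_combination heq Q
  refine ⟨-k 0, -k 1, k 2, k 3, fun ⟨h0, h1⟩ => ?_, hce, funext hne⟩
  obtain ⟨Q⟩ := hP
  refine mul_ne_zero (hx.2 Q) ((adm_lin (π := π) hθe hirr hce).2 Q) ?_
  rw [hne Q, h0, h1]; simp [lin]

include hπ hθe hirr hinj hcard in
/-- **Reduction to symbols.** -/
theorem isSymb_pair {x y : P → QBar} (hx : Adm π x) (hy : Adm π y) : IsSymb (pair π x y) := by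
  have key : ∀ (u : P → QBar), Adm π u →
      (∀ {a b : ℚ}, ¬ (a = 0 ∧ b = 0) → IsSymb (pair π u (lin θ a b))) → IsSymb (pair π u y) := by
    intro u hu h
    obtain ⟨a, b, c, e, hab, hce, he⟩ := exists_fraction hθe hirr hcard hinj hy
    have h2 := h hab
    rw [← he] at h2
    exact (h2.of_sim (pair_mul_right hπ hu hy (adm_lin hθe hirr hce)).symm).cancel (h hce)
  obtain ⟨a, b, c, e, hab, hce, he⟩ := exists_fraction hθe hirr hcard hinj hx
  have h1 := key _ (adm_lin hθe hirr hab) fun h => pair_lin hπ hθe hirr hab h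
  have h2 := key _ (adm_lin hθe hirr hce) fun h => pair_lin hπ hθe hirr hce h
  rw [← he] at h1
  exact (h1.of_sim (pair_mul_left hπ hx (adm_lin hθe hirr hce) hy).symm).cancel h2

end Linear

end Fermat.Agent.LT.Selmer
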